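import Mathlib
import Fermat.Agent.S14.AuxPrimeCore
import Fermat.Agent.S14.Density

/-!
# S55 / GLOBAL / RECIP, leaf GE-D: the auxiliary prime

* `ge_exists_aux_prime`: for `p` odd, `k`, a finite set `Q` of primes and a finite set `B` there is
  a prime `r ∉ B ∪ Q ∪ {p}`, `r ≡ 1 mod p^k`, such that no `q ∈ Q` is a `p`-th power modulo `r`.
  Route: `Q = {q₁} ∪ Q'`; `M₁ = ℚ(ζ_{p^(k+1)}, (q q₁^(p-1))^(1/p) : q ∈ Q')` (Kummer tower built by
  `Finset` induction, `geaux_tower`), `M₂ = M₁(q₁^(1/p))`; S14 `exists_good_frobAt_ne_one` gives a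
  degree one place of `M₁` with nontrivial Frobenius in `M₂`, and S14 `auxPrime_local` does the
  local analysis.  The tower invariant `GeauxPhi`: a nonzero rational which is a `p`-th power in
  `M` has `∑_{q ∈ Q} v_q` divisible by `p`; it holds for `ℚ(ζ_{p^(k+1)})` because
  `ℚˣ ∩ ℚ(ζ_{p^k})ˣᵖ = ℚˣᵖ` for odd `p` (`geaux_pow_descent`: explicit cocycle computation in the
  abelian group `Gal(ℚ(ζ_{p^k})/ℚ)`), and is preserved by a Kummer step (S14 `auxPrime_kummer`).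
* `ge_exists_surjective_char`, `ge_orderOf_char_pow`: characters of the cyclic group `(ℤ/r)ˣ`.
-/

set_option autoImplicit false
set_option linter.style.haveILetI false

noncomputable section

namespace Fermat.Agent.S55

open NumberField IsDedekindDomain Polynomial

section AuxPrime

/-- A surjective character of `(ℤ/r)ˣ` of order `n ∣ r - 1`. -/
theorem ge_exists_surjective_char {r n : ℕ} [Fact r.Prime] [NeZero n] (h : n ∣ r - 1) :
    ∃ ψ : (ZMod r)ˣ →* Multiplicative (ZMod n), Function.Surjective ψ := by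
  obtain ⟨g, hg⟩ := IsCyclic.exists_generator (α := (ZMod r)ˣ)
  have hord : orderOf g = r - 1 := by
    rw [orderOf_eq_card_of_forall_mem_zpowers hg, Nat.card_eq_fintype_card, ZMod.card_units]
  have hg' : orderOf (Multiplicative.ofAdd (1 : ZMod n)) ∣ orderOf g := by
    rw [hord, orderOf_ofAdd_eq_addOrderOf, ZMod.addOrderOf_one]
    exact h
  refine ⟨monoidHomOfForallMemZpowers hg hg', fun z => ⟨g ^ (Multiplicative.toAdd z).val, ?_⟩⟩
  rw [map_pow, monoidHomOfForallMemZpowers_apply_gen hg hg', ← ofAdd_nsmul, nsmul_eq_mul,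
    mul_one, ZMod.natCast_val, ZMod.cast_id', id_eq, ofAdd_toAdd]

theorem geaux_orderOf_char {p r k : ℕ} [Fact p.Prime] [Fact r.Prime]
    (ψ : (ZMod r)ˣ →* Multiplicative (ZMod (p ^ k))) (hψ : Function.Surjective ψ) (u : (ZMod r)ˣ)
    (hu : ¬ ∃ y : ZMod r, (u : ZMod r) = y ^ p) : orderOf (ψ u) = p ^ k := by
  have hp : p.Prime := Fact.out
  have : NeZero (p ^ k) := ⟨pow_ne_zero _ hp.ne_zero⟩
  obtain ⟨g, hg⟩ := IsCyclic.exists_generator (α := (ZMod r)ˣ)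
  have hgen : ∀ z : Multiplicative (ZMod (p ^ k)), z ∈ Subgroup.zpowers (ψ g) := by
    intro z
    obtain ⟨w, rfl⟩ := hψ z
    obtain ⟨i, rfl⟩ := Subgroup.mem_zpowers_iff.1 (hg w)
    rw [map_zpow]
    exact Subgroup.zpow_mem_zpowers _ _
  have hordc : orderOf (ψ g) = p ^ k := by
    rw [orderOf_eq_card_of_forall_mem_zpowers hgen, Nat.card_eq_fintype_card,
      Fintype.card_multiplicative]
    exact ZMod.card (p ^ k)
  obtain ⟨j, hj⟩ : ∃ j : ℕ, g ^ j = u := by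
    obtain ⟨j, hj⟩ := (mem_powers_iff_mem_zpowers.mpr (hg u))
    exact ⟨j, hj⟩
  have hpj : ¬ p ∣ j := by
    rintro ⟨t, rfl⟩
    apply hu
    refine ⟨((g ^ t : (ZMod r)ˣ) : ZMod r), ?_⟩
    rw [← hj, ← Units.val_pow_eq_pow_val, ← pow_mul, mul_comm]
  rw [← hj, map_pow, orderOf_pow, hordc]
  have hcop : Nat.Coprime (p ^ k) j := Nat.Coprime.pow_left _ ((Nat.Prime.coprime_iff_not_dvd hp).2 hpj)
  rw [hcop.gcd_eq_one, Nat.div_one]

/-- For a surjective `ψ : (ℤ/r)ˣ → ℤ/p^k` and a unit `u` which is not a `p`-th power,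
`ψ (u ^ f)` has order `p ^ k / gcd (p ^ k, f)`. -/
theorem ge_orderOf_char_pow {p r k : ℕ} [Fact p.Prime] [Fact r.Prime]
    (ψ : (ZMod r)ˣ →* Multiplicative (ZMod (p ^ k))) (hψ : Function.Surjective ψ) (u : (ZMod r)ˣ)
    (hu : ¬ ∃ y : ZMod r, (u : ZMod r) = y ^ p) (f m : ℕ) (hf : f ≠ 0) (hfm : f < p ^ (k - m))
    (hmk : m ≤ k) : p ^ m ∣ orderOf (ψ (u ^ f)) := by
  have hp : p.Prime := Fact.out
  rw [map_pow, orderOf_pow, geaux_orderOf_char ψ hψ u hu]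
  obtain ⟨i, hik, hi⟩ := (Nat.dvd_prime_pow hp).1 (Nat.gcd_dvd_left (p ^ k) f)
  rw [hi, Nat.pow_div hik hp.pos]
  apply pow_dvd_pow
  have h1 : p ^ i ≤ f := Nat.le_of_dvd (Nat.pos_of_ne_zero hf) (hi ▸ Nat.gcd_dvd_right (p ^ k) f)
  have h2 : p ^ i < p ^ (k - m) := lt_of_le_of_lt h1 hfm
  have h3 : i < k - m := (Nat.pow_lt_pow_iff_right hp.one_lt).1 h2
  omega

/-- powers of a primitive root are compared through the exponents in `ZMod p` -/
theorem geaux_pow_eq_pow_iff {E : Type*} [Field E] {ζ : E} {p : ℕ} (hζ : IsPrimitiveRoot ζ p)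
    (hp : p ≠ 0) (m n : ℕ) : ζ ^ m = ζ ^ n ↔ (m : ZMod p) = (n : ZMod p) := by
  have hζ0 : ζ ≠ 0 := hζ.ne_zero hp
  have h1 : ζ ^ m = ζ ^ n ↔ ζ ^ ((m : ℤ) - (n : ℤ)) = 1 := by
    rw [zpow_sub₀ hζ0, zpow_natCast, zpow_natCast, div_eq_one_iff_eq (pow_ne_zero _ hζ0)]
  rw [h1, hζ.zpow_eq_one_iff_dvd, ← Int.cast_natCast (R := ZMod p) m,
    ← Int.cast_natCast (R := ZMod p) n, eq_comm (a := ((m : ℤ) : ZMod p)),
    ZMod.intCast_eq_intCast_iff_dvd_sub]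

/-- Descent of `p`-th roots along an abelian extension in which some automorphism moves `ζ_p`:
if `γ ^ p ∈ F` then `γ ^ p` is a `p`-th power in `F`. -/
theorem geaux_pow_descent {F E : Type*} [Field F] [Field E] [Algebra F E] [FiniteDimensional F E]
    [IsGalois F E] (hcomm : ∀ σ τ : E ≃ₐ[F] E, σ * τ = τ * σ) {p : ℕ} [Fact p.Prime] {ζ : E}
    (hζ : IsPrimitiveRoot ζ p) (τ : E ≃ₐ[F] E) (hτ : τ ζ ≠ ζ) {x : F} {γ : E}
    (hγ : γ ^ p = algebraMap F E x) : ∃ y : F, y ^ p = x := by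
  have hp : p.Prime := Fact.out
  haveI : NeZero p := ⟨hp.ne_zero⟩
  have hinj : Function.Injective (algebraMap F E) := (algebraMap F E).injective
  by_cases hγ0 : γ = 0
  · refine ⟨0, hinj ?_⟩
    rw [← hγ, hγ0, zero_pow hp.ne_zero, zero_pow hp.ne_zero, map_zero]
  have hζ0 : ζ ≠ 0 := hζ.ne_zero hp.ne_zero
  -- the exponents
  have hA : ∀ σ : E ≃ₐ[F] E, ∃ a : ℕ, σ γ = ζ ^ a * γ := by
    intro σ
    have hquot : (σ γ / γ) ^ p = 1 := by
      rw [div_pow, ← map_pow, hγ, AlgEquiv.commutes, div_self]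
      rw [← hγ]
      exact pow_ne_zero _ hγ0
    obtain ⟨a, -, ha⟩ := hζ.eq_pow_of_pow_eq_one hquot
    exact ⟨a, by rw [ha, div_mul_cancel₀ _ hγ0]⟩
  have hC : ∀ σ : E ≃ₐ[F] E, ∃ c : ℕ, σ ζ = ζ ^ c := by
    intro σ
    have h1 : (σ ζ) ^ p = 1 := by rw [← map_pow, hζ.pow_eq_one, map_one]
    obtain ⟨c, -, hc⟩ := hζ.eq_pow_of_pow_eq_one h1
    exact ⟨c, hc.symm⟩
  obtain ⟨b, hb⟩ := hA τ
  obtain ⟨cτ, hcτ⟩ := hC τ
  have hcτ1 : (cτ : ZMod p) - 1 ≠ 0 := by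
    intro h
    apply hτ
    rw [hcτ]
    conv_rhs => rw [← pow_one ζ]
    rw [geaux_pow_eq_pow_iff hζ hp.ne_zero, Nat.cast_one]
    exact sub_eq_zero.1 h
  set t : ZMod p := ((cτ : ZMod p) - 1)⁻¹ with ht
  have ht1 : t * ((cτ : ZMod p) - 1) = 1 := inv_mul_cancel₀ hcτ1
  set d : ℕ := (t * (b : ZMod p)).val with hd
  have hdcast : (d : ZMod p) = t * b := by
    rw [hd, ZMod.natCast_val, ZMod.cast_id', id_eq]
  -- the corrected root
  have hfix : ∀ σ : E ≃ₐ[F] E, σ (γ / ζ ^ d) = γ / ζ ^ d := by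
    intro σ
    obtain ⟨a, ha⟩ := hA σ
    obtain ⟨c, hc⟩ := hC σ
    have h1 : σ (τ γ) = τ (σ γ) := by
      have := congrArg (fun f : E ≃ₐ[F] E => f γ) (hcomm σ τ)
      simpa [AlgEquiv.mul_apply] using this
    rw [hb, ha, map_mul, map_mul, map_pow, map_pow, hc, hcτ, ha, hb, ← pow_mul, ← pow_mul,
      ← mul_assoc, ← mul_assoc, ← pow_add, ← pow_add] at h1
    have h2 : ζ ^ (c * b + a) = ζ ^ (cτ * a + b) := mul_right_cancel₀ hγ0 h1
    rw [geaux_pow_eq_pow_iff hζ hp.ne_zero] at h2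
    push_cast at h2
    have h3 : ζ ^ (a + d) = ζ ^ (c * d) := by
      rw [geaux_pow_eq_pow_iff hζ hp.ne_zero]
      push_cast
      rw [hdcast]
      linear_combination (-t) * h2 - (a : ZMod p) * ht1
    rw [map_div₀, map_pow, ha, hc, ← pow_mul, ← h3, pow_add]
    field_simp
  have hbot : γ / ζ ^ d ∈ (⊥ : IntermediateField F E) := (IsGalois.mem_bot_iff_fixed _).mpr hfix
  obtain ⟨y, hy⟩ := IntermediateField.mem_bot.mp hbot
  refine ⟨y, hinj ?_⟩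
  rw [map_pow, hy, div_pow, hγ, ← pow_mul, mul_comm, pow_mul, hζ.pow_eq_one, one_pow, div_one]

/-- `ℚˣ ∩ ℚ(ζ_{p^k})ˣᵖ = ℚˣᵖ` for odd `p`. -/
theorem geaux_rat_pow_of_cyclotomic {p : ℕ} [Fact p.Prime] (hp2 : p ≠ 2) (k' : ℕ) (hk' : k' ≠ 0)
    (K₀ : Type*) [Field K₀] [Algebra ℚ K₀] [IsCyclotomicExtension {p ^ k'} ℚ K₀] {x : ℚ} {γ : K₀}
    (hγ : γ ^ p = (x : K₀)) : ∃ y : ℚ, y ^ p = x := by
  have hp : p.Prime := Fact.out
  haveI : NeZero (p ^ k') := ⟨pow_ne_zero _ hp.ne_zero⟩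
  haveI : FiniteDimensional ℚ K₀ := IsCyclotomicExtension.finiteDimensional {p ^ k'} ℚ K₀
  haveI : IsGalois ℚ K₀ := IsCyclotomicExtension.isGalois {p ^ k'} ℚ K₀
  have hcomm : ∀ σ τ : K₀ ≃ₐ[ℚ] K₀, σ * τ = τ * σ := by
    intro σ τ
    have := IsCyclotomicExtension.isMulCommutative {p ^ k'} ℚ K₀
    exact mul_comm' σ τ
  set ξ : K₀ := IsCyclotomicExtension.zeta (p ^ k') ℚ K₀ with hξdef
  have hξ : IsPrimitiveRoot ξ (p ^ k') := IsCyclotomicExtension.zeta_spec (p ^ k') ℚ K₀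
  obtain ⟨j, rfl⟩ := Nat.exists_eq_succ_of_ne_zero hk'
  have hζ : IsPrimitiveRoot (ξ ^ (p ^ j)) p :=
    hξ.pow (pow_pos hp.pos _) (pow_succ p j)
  -- some automorphism moves `ζ_p`
  have hτ : ∃ τ : K₀ ≃ₐ[ℚ] K₀, τ (ξ ^ (p ^ j)) ≠ ξ ^ (p ^ j) := by
    by_contra hcon
    push Not at hcon
    have hbot : ξ ^ (p ^ j) ∈ (⊥ : IntermediateField ℚ K₀) :=
      (IsGalois.mem_bot_iff_fixed _).mpr hcon
    obtain ⟨y, hy⟩ := IntermediateField.mem_bot.mp hbot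
    have hy1 : y ^ p = 1 := by
      apply (algebraMap ℚ K₀).injective
      rw [map_pow, hy, hζ.pow_eq_one, map_one]
    have hodd : Odd p := hp.odd_of_ne_two hp2
    have hy2 : y = 1 := by
      have := hodd.strictMono_pow (R := ℚ)
      apply this.injective
      show y ^ p = 1 ^ p
      rw [hy1, one_pow]
    apply hζ.ne_one hp.one_lt
    rw [← hy, hy2, map_one]
  obtain ⟨τ, hτ⟩ := hτ
  exact geaux_pow_descent hcomm hζ τ hτ (x := x) (γ := γ) (by rw [hγ, eq_ratCast])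

/-- the sum of the `q`-adic valuations over `q ∈ Q` -/
def geauxLam (Q : Finset ℕ) (x : ℚ) : ℤ := ∑ q ∈ Q, padicValRat q x

theorem geauxLam_mul {Q : Finset ℕ} (hQ : ∀ q ∈ Q, q.Prime) {x y : ℚ} (hx : x ≠ 0) (hy : y ≠ 0) :
    geauxLam Q (x * y) = geauxLam Q x + geauxLam Q y := by
  unfold geauxLam
  rw [← Finset.sum_add_distrib]
  refine Finset.sum_congr rfl fun q hq => ?_
  haveI := Fact.mk (hQ q hq)
  exact padicValRat.mul hx hy

theorem geauxLam_pow {Q : Finset ℕ} (hQ : ∀ q ∈ Q, q.Prime) (x : ℚ) (n : ℕ) :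
    geauxLam Q (x ^ n) = n * geauxLam Q x := by
  unfold geauxLam
  rw [Finset.mul_sum]
  refine Finset.sum_congr rfl fun q hq => ?_
  haveI := Fact.mk (hQ q hq)
  exact padicValRat.pow x

theorem geauxLam_div {Q : Finset ℕ} (hQ : ∀ q ∈ Q, q.Prime) {x y : ℚ} (hx : x ≠ 0) (hy : y ≠ 0) :
    geauxLam Q (x / y) = geauxLam Q x - geauxLam Q y := by
  unfold geauxLam
  rw [← Finset.sum_sub_distrib]
  refine Finset.sum_congr rfl fun q hq => ?_
  haveI := Fact.mk (hQ q hq)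
  exact padicValRat.div hx hy

theorem geauxLam_prime {Q : Finset ℕ} (hQ : ∀ q ∈ Q, q.Prime) {q₁ : ℕ} (hq₁ : q₁ ∈ Q) :
    geauxLam Q ((q₁ : ℕ) : ℚ) = 1 := by
  unfold geauxLam
  haveI := Fact.mk (hQ q₁ hq₁)
  rw [Finset.sum_eq_single q₁]
  · rw [padicValRat.of_nat, padicValNat_self]
    rfl
  · intro q hq hne
    haveI := Fact.mk (hQ q hq)
    rw [padicValRat.of_nat, padicValNat_primes hne]
    rfl
  · intro h
    exact absurd hq₁ h

/-- the invariant of the Kummer tower: rational numbers which become `p`-th powers in `M` have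
`geauxLam` divisible by `p` -/
def GeauxPhi (p : ℕ) (Q : Finset ℕ) (M : Type*) [Field M] : Prop :=
  ∀ x : ℚ, x ≠ 0 → (∃ γ : M, γ ^ p = (x : M)) → (p : ℤ) ∣ geauxLam Q x

/-- one Kummer step -/
theorem geaux_step {p : ℕ} [Fact p.Prime] {Q : Finset ℕ} (hQ : ∀ q ∈ Q, q.Prime)
    {M : Type} [Field M] [NumberField M] {ζ : M} (hζ : IsPrimitiveRoot ζ p)
    (hΦ : GeauxPhi p Q M) (a : ℕ) (ha0 : a ≠ 0) (hla : (p : ℤ) ∣ geauxLam Q ((a : ℕ) : ℚ)) :
    ∃ (M' : Type) (_ : Field M') (_ : NumberField M') (_ : Algebra M M'),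
      (∃ α : M', α ^ p = ((a : ℕ) : M')) ∧ GeauxPhi p Q M' := by
  have hp : p.Prime := Fact.out
  by_cases hpow : ∃ μ : M, μ ^ p = ((a : ℕ) : M)
  · exact ⟨M, inferInstance, inferInstance, Algebra.id M, hpow, hΦ⟩
  · have H : Irreducible (X ^ p - C ((a : ℕ) : M)) :=
      X_pow_sub_C_irreducible_of_prime hp fun b hb => hpow ⟨b, hb⟩
    have haM : ((a : ℕ) : M) ≠ 0 := by exact_mod_cast ha0
    have haQ : ((a : ℕ) : ℚ) ≠ 0 := by exact_mod_cast ha0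
    refine ⟨(X ^ p - C ((a : ℕ) : M) : M[X]).SplittingField, inferInstance,
      NumberField.of_module_finite M _, inferInstance, ?_, ?_⟩
    · refine ⟨rootOfSplitsXPowSubC hp.pos ((a : ℕ) : M) _, ?_⟩
      exact (rootOfSplitsXPowSubC_pow _ _).trans (map_natCast _ _)
    · intro x hx ⟨β₀, hβ₀⟩
      have hxM : ((x : ℚ) : M) ≠ 0 := by exact_mod_cast hx
      obtain ⟨i, γ, hγ⟩ := Fermat.Agent.S14.auxPrime_kummer hp hζ haM H
        (E := (X ^ p - C ((a : ℕ) : M) : M[X]).SplittingField)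
        (α := rootOfSplitsXPowSubC hp.pos ((a : ℕ) : M) _) (rootOfSplitsXPowSubC_pow _ _)
        (b := ((x : ℚ) : M)) hxM (β₀ := β₀) (by rw [hβ₀, map_ratCast])
      have h1 : γ ^ p = (((x / (a : ℚ) ^ i : ℚ)) : M) := by
        push_cast
        rw [eq_div_iff (pow_ne_zero _ haM)]
        exact hγ.symm
      have h2 := hΦ (x / (a : ℚ) ^ i) (div_ne_zero hx (pow_ne_zero _ haQ)) ⟨γ, h1⟩
      rw [geauxLam_div hQ hx (pow_ne_zero _ haQ), geauxLam_pow hQ] at h2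
      have h3 : geauxLam Q x = (geauxLam Q x - (i : ℤ) * geauxLam Q ((a : ℕ) : ℚ)) +
          (i : ℤ) * geauxLam Q ((a : ℕ) : ℚ) := by ring
      rw [h3]
      exact dvd_add h2 (Dvd.dvd.mul_left hla _)

/-- the Kummer tower over `ℚ(ζ_{p^k'})` -/
theorem geaux_tower {p : ℕ} [Fact p.Prime] (hp2 : p ≠ 2) (k' : ℕ) (hk' : k' ≠ 0) {Q : Finset ℕ}
    (hQ : ∀ q ∈ Q, q.Prime) (A : Finset ℕ)
    (hA : ∀ a ∈ A, a ≠ 0 ∧ (p : ℤ) ∣ geauxLam Q ((a : ℕ) : ℚ)) :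
    ∃ (M : Type) (_ : Field M) (_ : NumberField M) (ξ : M), IsPrimitiveRoot ξ (p ^ k') ∧
      (∀ a ∈ A, ∃ α : M, α ^ p = ((a : ℕ) : M)) ∧ GeauxPhi p Q M := by
  have hp : p.Prime := Fact.out
  induction A using Finset.induction_on with
  | empty =>
    haveI : NeZero (p ^ k') := ⟨pow_ne_zero _ hp.ne_zero⟩
    haveI : NeZero ((p ^ k' : ℕ) : ℚ) := ⟨by exact_mod_cast pow_ne_zero _ hp.ne_zero⟩
    haveI : IsCyclotomicExtension {p ^ k'} ℚ (CyclotomicField (p ^ k') ℚ) :=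
      CyclotomicField.isCyclotomicExtension (p ^ k') ℚ
    refine ⟨CyclotomicField (p ^ k') ℚ, inferInstance, inferInstance,
      IsCyclotomicExtension.zeta (p ^ k') ℚ (CyclotomicField (p ^ k') ℚ),
      IsCyclotomicExtension.zeta_spec (p ^ k') ℚ (CyclotomicField (p ^ k') ℚ), ?_, ?_⟩
    · intro a ha
      exact absurd ha (Finset.notMem_empty a)
    · intro x hx ⟨γ, hγ⟩
      obtain ⟨y, hy⟩ := geaux_rat_pow_of_cyclotomic hp2 k' hk' (CyclotomicField (p ^ k') ℚ) hγ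
      have hy0 : y ≠ 0 := by
        rintro rfl
        rw [zero_pow hp.ne_zero] at hy
        exact hx hy.symm
      rw [← hy, geauxLam_pow hQ]
      exact Dvd.intro _ rfl
  | insert a A haA ih =>
    obtain ⟨M, instF, instNF, ξ, hξ, hroots, hΦ⟩ :=
      ih (fun a' ha' => hA a' (Finset.mem_insert_of_mem ha'))
    obtain ⟨j, rfl⟩ := Nat.exists_eq_succ_of_ne_zero hk'
    have hζ : IsPrimitiveRoot (ξ ^ (p ^ j)) p := hξ.pow (pow_pos hp.pos _) (pow_succ p j)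
    obtain ⟨M', instF', instNF', instA, hα, hΦ'⟩ :=
      geaux_step hQ hζ hΦ a (hA a (Finset.mem_insert_self a A)).1
        (hA a (Finset.mem_insert_self a A)).2
    refine ⟨M', instF', instNF', algebraMap M M' ξ,
      hξ.map_of_injective (algebraMap M M').injective, ?_, hΦ'⟩
    intro a' ha'
    rcases Finset.mem_insert.1 ha' with rfl | ha'
    · exact hα
    · obtain ⟨α', hα'⟩ := hroots a' ha'
      exact ⟨algebraMap M M' α', by rw [← map_pow, hα', map_natCast]⟩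

/-- a place of prime norm `r ≠ p` of a number field containing `ζ_{p^(j+1)}` has
`r ≡ 1 mod p^(j+1)` -/
theorem geaux_dvd_sub_one {K : Type*} [Field K] [NumberField K] {p j : ℕ} [Fact p.Prime] {ξ : K}
    (hξ : IsPrimitiveRoot ξ (p ^ (j + 1))) (v : HeightOneSpectrum (𝓞 K)) {r : ℕ} [Fact r.Prime]
    (hr : Ideal.absNorm v.asIdeal = r) (hrp : r ≠ p) : p ^ (j + 1) ∣ r - 1 := by
  classical
  have hp : p.Prime := Fact.out
  have hrP : r.Prime := Fact.out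
  have hξi : IsIntegral ℤ ξ := hξ.isIntegral (pow_pos hp.pos _)
  set ξ' : 𝓞 K := ⟨ξ, hξi⟩ with hξ'
  have hξ'p : IsPrimitiveRoot ξ' (p ^ (j + 1)) :=
    IsPrimitiveRoot.of_map_of_injective (f := algebraMap (𝓞 K) K) hξ
      (FaithfulSMul.algebraMap_injective (𝓞 K) K)
  have hη : IsPrimitiveRoot (ξ' ^ (p ^ j)) p := hξ'p.pow (pow_pos hp.pos _) (pow_succ p j)
  have hvtop : v.asIdeal ≠ ⊤ := v.isPrime.ne_top
  have hrv : (r : 𝓞 K) ∈ v.asIdeal := hr ▸ Ideal.absNorm_mem v.asIdeal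
  have hfin : Finite (𝓞 K ⧸ v.asIdeal) := Ideal.finiteQuotientOfFreeOfNeBot _ v.ne_bot
  letI : Fintype (𝓞 K ⧸ v.asIdeal) := Fintype.ofFinite _
  have hcard : Fintype.card (𝓞 K ⧸ v.asIdeal) = r := by
    rw [← Nat.card_eq_fintype_card, ← hr, Ideal.absNorm_apply, Submodule.cardQuot_apply]
  set e : ZMod r ≃+* (𝓞 K ⧸ v.asIdeal) := ZMod.ringEquivOfPrime _ hrP hcard with he
  set z : ZMod r := e.symm (Ideal.Quotient.mk v.asIdeal ξ') with hz
  have hzp : z ^ p ^ (j + 1) = 1 := by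
    rw [hz, ← map_pow, ← map_pow, hξ'p.pow_eq_one, map_one, map_one]
  have hz1 : ¬ z ^ p ^ j = 1 := by
    intro h
    have h1 : Ideal.Quotient.mk v.asIdeal (ξ' ^ (p ^ j)) = 1 := by
      have := congrArg e h
      rwa [hz, ← map_pow, RingEquiv.apply_symm_apply, map_one, ← map_pow] at this
    rw [← map_one (Ideal.Quotient.mk v.asIdeal), Ideal.Quotient.eq] at h1
    exact Fermat.Agent.S14.auxPrime_root_sub_one_not_mem v.asIdeal hvtop hp hrP hrp hrv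
      hη.pow_eq_one (hη.ne_one hp.one_lt) h1
  have hz0 : z ≠ 0 := by
    rintro h
    rw [h, zero_pow (pow_ne_zero _ hp.ne_zero)] at hzp
    exact zero_ne_one hzp
  have hord : orderOf z = p ^ (j + 1) := orderOf_eq_prime_pow hz1 hzp
  rw [← hord]
  exact orderOf_dvd_of_pow_eq_one (ZMod.pow_card_sub_one_eq_one hz0)

/-- THE AUXILIARY PRIME -/
theorem ge_exists_aux_prime {p : ℕ} [Fact p.Prime] (hp2 : p ≠ 2) (k : ℕ) (Q : Finset ℕ)
    (hQ : ∀ q ∈ Q, q.Prime) (B : Finset ℕ) :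
    ∃ r : ℕ, r.Prime ∧ r ∉ B ∧ r ∉ Q ∧ r ≠ p ∧ p ^ k ∣ r - 1 ∧
      ∀ q ∈ Q, ¬ ∃ y : ZMod r, (q : ZMod r) = y ^ p := by
  have hp : p.Prime := Fact.out
  rcases Q.eq_empty_or_nonempty with rfl | ⟨q₁, hq₁⟩
  · obtain ⟨r, hr, hgt, hmod⟩ := Nat.exists_prime_gt_modEq_one (k := p ^ k) (max (B.sup id) p)
      (pow_ne_zero _ hp.ne_zero)
    refine ⟨r, hr, ?_, Finset.notMem_empty r, ?_, ?_,
      fun q hq => absurd hq (Finset.notMem_empty q)⟩
    · intro hmem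
      have h1 : r ≤ B.sup id := Finset.le_sup (f := id) hmem
      have h2 : B.sup id ≤ max (B.sup id) p := le_max_left _ _
      omega
    · have h2 : p ≤ max (B.sup id) p := le_max_right _ _
      omega
    · exact (Nat.modEq_iff_dvd' hr.one_le).1 hmod.symm
  · have hq₁P : q₁.Prime := hQ q₁ hq₁
    set A : Finset ℕ := (Q.erase q₁).image (fun q => q * q₁ ^ (p - 1)) with hAdef
    have hA : ∀ a ∈ A, a ≠ 0 ∧ (p : ℤ) ∣ geauxLam Q ((a : ℕ) : ℚ) := by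
      intro a ha
      obtain ⟨q, hq, rfl⟩ := Finset.mem_image.1 ha
      have hqQ := Finset.mem_of_mem_erase hq
      have hq0 : q ≠ 0 := (hQ q hqQ).ne_zero
      refine ⟨mul_ne_zero hq0 (pow_ne_zero _ hq₁P.ne_zero), ?_⟩
      have hqQ0 : ((q : ℕ) : ℚ) ≠ 0 := by exact_mod_cast hq0
      have hq₁Q0 : ((q₁ : ℕ) : ℚ) ≠ 0 := by exact_mod_cast hq₁P.ne_zero
      rw [Nat.cast_mul, Nat.cast_pow, geauxLam_mul hQ hqQ0 (pow_ne_zero _ hq₁Q0),
        geauxLam_pow hQ, geauxLam_prime hQ hqQ, geauxLam_prime hQ hq₁]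
      have h1 : (1 : ℤ) + ((p - 1 : ℕ) : ℤ) * 1 = p := by
        rw [Nat.cast_sub hp.one_le]
        ring
      rw [h1]
    obtain ⟨M₁, instF, instNF, ξ, hξ, hroots, hΦ⟩ :=
      geaux_tower hp2 (k + 1) (Nat.succ_ne_zero k) hQ A hA
    have hζ : IsPrimitiveRoot (ξ ^ (p ^ k)) p := hξ.pow (pow_pos hp.pos _) (pow_succ p k)
    have hq₁pow : ∀ b : M₁, b ^ p ≠ ((q₁ : ℕ) : M₁) := by
      intro b hb
      have hq₁Q0 : ((q₁ : ℕ) : ℚ) ≠ 0 := by exact_mod_cast hq₁P.ne_zero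
      have h1 := hΦ ((q₁ : ℕ) : ℚ) hq₁Q0 ⟨b, by rw [hb, Rat.cast_natCast]⟩
      rw [geauxLam_prime hQ hq₁] at h1
      have := Int.eq_one_of_dvd_one (by positivity) h1
      exact hp.one_lt.ne' (by exact_mod_cast this)
    have H' : Irreducible (X ^ p - C ((q₁ : ℕ) : M₁)) :=
      X_pow_sub_C_irreducible_of_prime hp hq₁pow
    haveI : NumberField (X ^ p - C ((q₁ : ℕ) : M₁) : M₁[X]).SplittingField :=
      NumberField.of_module_finite M₁ _
    have hprim₁ : (primitiveRoots p M₁).Nonempty :=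
      ⟨ξ ^ (p ^ k), (mem_primitiveRoots hp.pos).mpr hζ⟩
    haveI : IsGalois M₁ (X ^ p - C ((q₁ : ℕ) : M₁) : M₁[X]).SplittingField :=
      isGalois_of_isSplittingField_X_pow_sub_C hprim₁ H' _
    have hfin : Module.finrank M₁ (X ^ p - C ((q₁ : ℕ) : M₁) : M₁[X]).SplittingField = p :=
      finrank_of_isSplittingField_X_pow_sub_C hprim₁ H' _
    set β : (X ^ p - C ((q₁ : ℕ) : M₁) : M₁[X]).SplittingField :=
      rootOfSplitsXPowSubC hp.pos ((q₁ : ℕ) : M₁) _ with hβdef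
    have hβ : β ^ p = algebraMap M₁ _ ((q₁ : ℕ) : M₁) := rootOfSplitsXPowSubC_pow _ _
    have hβ' : β ^ p = ((q₁ : ℕ) : (X ^ p - C ((q₁ : ℕ) : M₁) : M₁[X]).SplittingField) :=
      hβ.trans (map_natCast _ _)
    have hgen : ∀ σ : (X ^ p - C ((q₁ : ℕ) : M₁) : M₁[X]).SplittingField ≃ₐ[M₁]
        (X ^ p - C ((q₁ : ℕ) : M₁) : M₁[X]).SplittingField, σ β = β → σ = 1 := by
      intro σ hσ
      have htop := Algebra.adjoin_root_eq_top_of_isSplittingField hprim₁ H' hβ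
      apply AlgEquiv.coe_toAlgHom_injective
      apply AlgHom.ext_of_adjoin_eq_top htop
      intro x hx
      rw [Set.mem_singleton_iff] at hx
      subst hx
      simpa using hσ
    obtain ⟨v, hgood, -, hfrob⟩ := Fermat.Agent.S14.exists_good_frobAt_ne_one (K := M₁)
      (L := (X ^ p - C ((q₁ : ℕ) : M₁) : M₁[X]).SplittingField)
      (by rw [hfin]; exact hp.one_lt) (B ∪ Q ∪ {p})
    obtain ⟨hrprime, hrB⟩ := hgood
    set r : ℕ := Ideal.absNorm v.asIdeal with hr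
    haveI : Fact r.Prime := ⟨hrprime⟩
    simp only [Finset.mem_union, Finset.mem_singleton, not_or] at hrB
    obtain ⟨⟨hrB, hrQ⟩, hrp⟩ := hrB
    have hrq : ∀ q ∈ Q, ¬ r ∣ q := by
      intro q hq h
      have := (Nat.prime_dvd_prime_iff_eq hrprime (hQ q hq)).mp h
      exact hrQ (this ▸ hq)
    obtain ⟨-, -, h3⟩ := Fermat.Agent.S14.auxPrime_local hζ (a := 1) (α := 1) (by simp) hβ' hgen v
      hr.symm hrp (hrq q₁ hq₁) hfrob
    have hdvd := geaux_dvd_sub_one hξ v hr.symm hrp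
    refine ⟨r, hrprime, hrB, hrQ, hrp, (pow_dvd_pow p (Nat.le_succ k)).trans hdvd, ?_⟩
    rintro q hq ⟨z, hz⟩
    by_cases hqq : q = q₁
    · subst hqq
      exact h3 ⟨z, hz⟩
    · have hqA : q * q₁ ^ (p - 1) ∈ A :=
        Finset.mem_image.2 ⟨q, Finset.mem_erase.2 ⟨hqq, hq⟩, rfl⟩
      obtain ⟨α, hα⟩ := hroots _ hqA
      obtain ⟨-, ⟨y, hy⟩, -⟩ := Fermat.Agent.S14.auxPrime_local hζ (a := q * q₁ ^ (p - 1)) (α := α)
        hα hβ' hgen v hr.symm hrp (hrq q₁ hq₁) hfrob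
      apply h3
      have hq0 : (q : ZMod r) ≠ 0 := by
        rw [Ne, ZMod.natCast_eq_zero_iff]
        exact hrq q hq
      have hq₁0 : (q₁ : ZMod r) ≠ 0 := by
        rw [Ne, ZMod.natCast_eq_zero_iff]
        exact hrq q₁ hq₁
      have hy' : (q : ZMod r) * (q₁ : ZMod r) ^ (p - 1) = y ^ p := by
        rw [← hy]
        push_cast
        rfl
      have hy0 : y ≠ 0 := by
        rintro rfl
        rw [zero_pow hp.ne_zero] at hy'
        exact (mul_ne_zero hq0 (pow_ne_zero _ hq₁0)) hy'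
      refine ⟨q₁ * z * y⁻¹, ?_⟩
      have h4 : (q₁ : ZMod r) ^ p = (q₁ : ZMod r) ^ (p - 1) * q₁ := by
        rw [← pow_succ, Nat.sub_add_cancel hp.one_le]
      rw [mul_pow, mul_pow, inv_pow, ← hz, ← hy', h4]
      field_simp

end AuxPrime

end Fermat.Agent.S55
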