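/-
S55 / GLOBAL / RECIP (package GE, reciprocity): DEFINITIONS (no sorry of its own).

Language.
* Global side: number fields `K L : Type`, `[Algebra K L] [IsGalois K L]`, global `2`-cochains
  `c : (L ≃ₐ[K] L) × (L ≃ₐ[K] L) → Lˣ` in the multiplicative language of `CohomDefs.lean`
  (`IsMulCocycle₂`, `IsMulCoboundary₂`, `cycCocycle`, `pullCochain₂`, `lfBC`).
* Local side: helper22's local fields (`localInv`, `lfNormSubgroup`, `LfUnramified`, `lfFrob`, ...).
* Bridge: helper2's `q`-adic embeddings `j : L →+* PadicAlgCl q`, `lgField q j`, `lgEmb q j`,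
  `lgPlace q j`.

Main definitions.
* `geRes ι σ`     : the restriction to `L` of a local automorphism `σ` along `ι : L →+* Lw`
                    (the unique `g ∈ Gal(L/K)` with `ι ∘ g = σ ∘ ι`; junk `1` if there is none).
* `geLoc ι c`     : localisation of a global `2`-cochain, `(σ,τ) ↦ ι (c (res σ, res τ))`.
* `geLocLG q j c` : the same for `ι = lgEmb q j`, a cochain of `Gal(L_j/K_j)`.
* `geInv q j c`   : `localInv` of `geLocLG q j c`, in `ℚ/ℤ`.
* `gePrime K v`   : the residue characteristic of a finite place `v`.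
* `GeLocalNormAt q j a`, `GeLocalNorm K L a` : `a ∈ Kˣ` is a local norm at `j` / everywhere.
* `geNormAt K L S`, `geNormOutside K L S` : the subgroups of `Kˣ` of elements which are local norms
  at all places in `S` / at all places outside `S`.
* `geSymbol q n i ζ a b` : the local symbol `(a,b)` at the embedding `i` of `K`.
-/
import Fermat.Agent.S55.LocalKummerSpec
import Fermat.Agent.S55.LG.Defs

set_option autoImplicit false
set_option linter.unusedSectionVars false

noncomputable section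

namespace Fermat.Agent.S55

open NumberField IsDedekindDomain groupCohomology

/-! ## Abstract localisation along a ring hom `ι : L →+* Lw` -/

section Abstract

variable {K L : Type} [Field K] [Field L] [Algebra K L]
  {Kv Lw : Type} [Field Kv] [Field Lw] [Algebra Kv Lw]

open Classical in
/-- Restriction of a local automorphism to the global field along `ι`. -/
def geRes (ι : L →+* Lw) (σ : Lw ≃ₐ[Kv] Lw) : L ≃ₐ[K] L :=
  if h : ∃ g : L ≃ₐ[K] L, ∀ x, ι (g x) = σ (ι x) then h.choose else 1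

theorem geRes_spec_of_exists (ι : L →+* Lw) (σ : Lw ≃ₐ[Kv] Lw)
    (h : ∃ g : L ≃ₐ[K] L, ∀ x, ι (g x) = σ (ι x)) (x : L) :
    ι (geRes (K := K) ι σ x) = σ (ι x) := by
  classical
  unfold geRes
  rw [dif_pos h]
  exact h.choose_spec x

theorem geRes_eq_of_spec (ι : L →+* Lw) (σ : Lw ≃ₐ[Kv] Lw) (g : L ≃ₐ[K] L)
    (hg : ∀ x, ι (g x) = σ (ι x)) : geRes (K := K) ι σ = g := by
  apply AlgEquiv.ext
  intro x
  apply ι.injective
  rw [geRes_spec_of_exists ι σ ⟨g, hg⟩, hg]

/-- Localisation of a global `2`-cochain along `ι`. -/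
def geLoc (ι : L →+* Lw) (c : (L ≃ₐ[K] L) × (L ≃ₐ[K] L) → Lˣ) :
    (Lw ≃ₐ[Kv] Lw) × (Lw ≃ₐ[Kv] Lw) → Lwˣ :=
  pullCochain₂ (geRes (K := K) ι) (Units.map (ι : L →* Lw)) c

theorem geLoc_apply (ι : L →+* Lw) (c : (L ≃ₐ[K] L) × (L ≃ₐ[K] L) → Lˣ)
    (σ τ : Lw ≃ₐ[Kv] Lw) :
    geLoc (Kv := Kv) ι c (σ, τ) =
      Units.map (ι : L →* Lw) (c (geRes (K := K) ι σ, geRes (K := K) ι τ)) := rfl

theorem geLoc_mul (ι : L →+* Lw) (c c' : (L ≃ₐ[K] L) × (L ≃ₐ[K] L) → Lˣ) :
    geLoc (Kv := Kv) ι (c * c') = geLoc (Kv := Kv) ι c * geLoc (Kv := Kv) ι c' := by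
  funext s
  simp [geLoc, pullCochain₂]

theorem geLoc_div (ι : L →+* Lw) (c c' : (L ≃ₐ[K] L) × (L ≃ₐ[K] L) → Lˣ) :
    geLoc (Kv := Kv) ι (c / c') = geLoc (Kv := Kv) ι c / geLoc (Kv := Kv) ι c' := by
  funext s
  simp [geLoc, pullCochain₂]

theorem geLoc_one (ι : L →+* Lw) :
    geLoc (K := K) (Kv := Kv) ι (1 : (L ≃ₐ[K] L) × (L ≃ₐ[K] L) → Lˣ) = 1 := by
  funext s
  simp [geLoc, pullCochain₂]

theorem geLoc_pow (ι : L →+* Lw) (c : (L ≃ₐ[K] L) × (L ≃ₐ[K] L) → Lˣ) (n : ℕ) :
    geLoc (Kv := Kv) ι (c ^ n) = geLoc (Kv := Kv) ι c ^ n := by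
  funext s
  simp [geLoc, pullCochain₂]

end Abstract

/-! ## Localisation at a `q`-adic embedding -/

section LG

variable (q : ℕ) [Fact q.Prime] {K L : Type} [Field K] [NumberField K] [Field L] [NumberField L]
  [Algebra K L]

/-- Every `q`-adic embedding of `K` extends to `L`. -/
theorem ge_exists_extend (i : K →+* PadicAlgCl q) :
    ∃ j : L →+* PadicAlgCl q, j.comp (algebraMap K L) = i := by
  let _ : Algebra K (PadicAlgCl q) := i.toAlgebra
  let f : L →ₐ[K] PadicAlgCl q := IsAlgClosed.lift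
  refine ⟨f.toRingHom, ?_⟩
  ext x
  exact f.commutes x

/-- Localisation of a global `2`-cochain of `L/K` at the embedding `j` of `L`: a `2`-cochain of
`Gal(L_j/K_j)` with values in `L_jˣ`. -/
def geLocLG (j : L →+* PadicAlgCl q) (c : (L ≃ₐ[K] L) × (L ≃ₐ[K] L) → Lˣ) :
    (lgField q j ≃ₐ[lgField q (j.comp (algebraMap K L))] lgField q j) ×
      (lgField q j ≃ₐ[lgField q (j.comp (algebraMap K L))] lgField q j) → (lgField q j)ˣ :=
  geLoc (K := K) (Kv := lgField q (j.comp (algebraMap K L))) (lgEmb q j) c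

/-- The local invariant at `j` of a global `2`-cochain of `L/K`. -/
def geInv (j : L →+* PadicAlgCl q) (c : (L ≃ₐ[K] L) × (L ≃ₐ[K] L) → Lˣ) : AddCircle (1 : ℚ) :=
  localInv q (lgField q (j.comp (algebraMap K L))) (lgField q j) (geLocLG q j c)

/-- `a ∈ Kˣ` is a norm from `L_j` to `K_j`. -/
def GeLocalNormAt (j : L →+* PadicAlgCl q) (a : Kˣ) : Prop :=
  Units.map (lgEmb q (j.comp (algebraMap K L)) : K →* lgField q (j.comp (algebraMap K L))) a ∈
    lfNormSubgroup (lgField q (j.comp (algebraMap K L))) (lgField q j)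

theorem GeLocalNormAt.mul {j : L →+* PadicAlgCl q} {a b : Kˣ} (ha : GeLocalNormAt q j a)
    (hb : GeLocalNormAt q j b) : GeLocalNormAt q j (a * b) := by
  unfold GeLocalNormAt at *
  rw [map_mul]
  exact mul_mem ha hb

theorem GeLocalNormAt.inv {j : L →+* PadicAlgCl q} {a : Kˣ} (ha : GeLocalNormAt q j a) :
    GeLocalNormAt q j a⁻¹ := by
  unfold GeLocalNormAt at *
  rw [map_inv]
  exact inv_mem ha

theorem GeLocalNormAt.one (j : L →+* PadicAlgCl q) : GeLocalNormAt q j (1 : Kˣ) := by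
  unfold GeLocalNormAt
  rw [map_one]
  exact one_mem _

end LG

section Global

variable (K L : Type) [Field K] [NumberField K] [Field L] [NumberField L] [Algebra K L]

/-- `a ∈ Kˣ` is a local norm from `L` at every finite place (every `q`-adic embedding of `L`). -/
def GeLocalNorm (a : Kˣ) : Prop :=
  ∀ (q : ℕ) [Fact q.Prime] (j : L →+* PadicAlgCl q), GeLocalNormAt q j a

/-- The elements of `Kˣ` which are local norms from `L` at all places of `K` IN `S`. -/
def geNormAt (S : Set (HeightOneSpectrum (𝓞 K))) : Subgroup Kˣ where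
  carrier := {a | ∀ (q : ℕ) [Fact q.Prime] (j : L →+* PadicAlgCl q),
    lgPlace q (j.comp (algebraMap K L)) ∈ S → GeLocalNormAt q j a}
  mul_mem' := fun ha hb q _ j hj => (ha q j hj).mul q (hb q j hj)
  one_mem' := fun q _ j _ => GeLocalNormAt.one q j
  inv_mem' := fun ha q _ j hj => (ha q j hj).inv q

/-- The elements of `Kˣ` which are local norms from `L` at all places of `K` OUTSIDE `S`. -/
def geNormOutside (S : Set (HeightOneSpectrum (𝓞 K))) : Subgroup Kˣ :=
  geNormAt K L Sᶜ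

variable {K L}

theorem mem_geNormAt {S : Set (HeightOneSpectrum (𝓞 K))} {a : Kˣ} :
    a ∈ geNormAt K L S ↔ ∀ (q : ℕ) [Fact q.Prime] (j : L →+* PadicAlgCl q),
      lgPlace q (j.comp (algebraMap K L)) ∈ S → GeLocalNormAt q j a := Iff.rfl

theorem mem_geNormOutside {S : Set (HeightOneSpectrum (𝓞 K))} {a : Kˣ} :
    a ∈ geNormOutside K L S ↔ ∀ (q : ℕ) [Fact q.Prime] (j : L →+* PadicAlgCl q),
      lgPlace q (j.comp (algebraMap K L)) ∉ S → GeLocalNormAt q j a := Iff.rfl

theorem geLocalNorm_iff_mem_geNormAt_univ {a : Kˣ} :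
    GeLocalNorm K L a ↔ a ∈ geNormAt K L Set.univ :=
  ⟨fun h q _ j _ => h q j, fun h q _ j => h q j (Set.mem_univ _)⟩

variable (K)

/-- The residue characteristic of a finite place of `K`. -/
def gePrime (v : HeightOneSpectrum (𝓞 K)) : ℕ := (Ideal.absNorm v.asIdeal).minFac

instance gePrime_fact (v : HeightOneSpectrum (𝓞 K)) : Fact (gePrime K v).Prime := by
  refine ⟨Nat.minFac_prime ?_⟩
  intro h
  exact v.isPrime.ne_top (Ideal.absNorm_eq_one_iff.mp h)

variable (L) in
/-- A choice of one embedding of `L` above every finite place of `K`. -/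
structure GeChoice where
  emb : ∀ v : HeightOneSpectrum (𝓞 K), L →+* PadicAlgCl (gePrime K v)
  place_eq : ∀ v, lgPlace (gePrime K v) ((emb v).comp (algebraMap K L)) = v

end Global

/-! ## The local symbol at an embedding of `K` -/

section Symbol

variable (q : ℕ) [Fact q.Prime] {K : Type} [Field K] [NumberField K]

/-- The local degree-`n` symbol `(a,b)` of `a b ∈ Kˣ` at the `q`-adic embedding `i` of `K`
(`ζ ∈ K` a primitive `n`-th root of unity). -/
def geSymbol (n : ℕ) [NeZero n] (i : K →+* PadicAlgCl q) (ζ : K) (a b : Kˣ) : ZMod n :=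
  lfSymbol q (lgField q i) n (lgEmb q i ζ)
    (Units.map (lgEmb q i : K →* lgField q i) a) (Units.map (lgEmb q i : K →* lgField q i) b)

end Symbol

end Fermat.Agent.S55
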