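/-
S55 / GLOBAL / RECIP, leaf GE-B0 `Recip/NormOpen.lean`: local norm groups are open; moduli.
Proves the statements of `NormOpenSpec.lean` VERBATIM (same names).  Helper names prefixed `geno_`.
Imports: the imports of `NormOpenSpec.lean` + `Hasse/LocOpen.lean` (real file of helper24, for
`hnlo_exists_ball_pow`: units close to `1` are `d`-th powers) + `S14/Approx.lean` (on main).
-/
import Fermat.Agent.S55.Global.Recip.Defs
import Fermat.Agent.S55.LG.Spec
import Fermat.Agent.S55.Global.Second.Spec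
import Fermat.Agent.S55.Hasse.LocOpen
import Fermat.Agent.S14.Approx

set_option autoImplicit false
set_option linter.unusedSectionVars false
set_option linter.unusedVariables false
set_option linter.style.haveILetI false

noncomputable section

namespace Fermat.Agent.S55

open NumberField IsDedekindDomain groupCohomology

section NormOpen

/-- `m`-th powers are open in a local field: elements close to `1` are `m`-th powers. -/
theorem lf_exists_pow_of_close (q : ℕ) [Fact q.Prime] (K : Type) [Field K] [Algebra ℚ_[q] K]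
    [FiniteDimensional ℚ_[q] K] (m : ℕ) (hm : m ≠ 0) :
    ∃ ε : ℝ, 0 < ε ∧ ∀ y : Kˣ, spectralNorm ℚ_[q] K ((y : K) - 1) < ε → ∃ z : Kˣ, z ^ m = y :=
  hnlo_exists_ball_pow q K m hm

/-- Local norm groups are open. -/
theorem lf_mem_norm_of_close (q : ℕ) [Fact q.Prime] (K : Type) [Field K] [Algebra ℚ_[q] K]
    [FiniteDimensional ℚ_[q] K] (L : Type) [Field L] [Algebra ℚ_[q] L] [FiniteDimensional ℚ_[q] L]
    [Algebra K L] [IsScalarTower ℚ_[q] K L] :
    ∃ ε : ℝ, 0 < ε ∧ ∀ y : Kˣ, spectralNorm ℚ_[q] K ((y : K) - 1) < ε →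
      y ∈ lfNormSubgroup K L := by
  have hfd : FiniteDimensional K L := FiniteDimensional.right ℚ_[q] K L
  have hfree : Module.Free K L := Module.Free.of_divisionRing _ _
  have hd : Module.finrank K L ≠ 0 :=
    (Module.finrank_pos_iff_exists_ne_zero.2 ⟨1, one_ne_zero⟩).ne'
  obtain ⟨ε, hε, h⟩ := hnlo_exists_ball_pow q K _ hd
  refine ⟨ε, hε, fun y hy => ?_⟩
  obtain ⟨z, hz⟩ := h y hy
  refine ⟨Units.map (algebraMap K L : K →* L) z, ?_⟩
  apply Units.ext
  rw [← hz, lfNormHom, Units.coe_map, Units.coe_map, Units.val_pow_eq_pow_val]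
  exact Algebra.norm_algebraMap (z : K)

variable {K L : Type} [Field K] [NumberField K] [Field L] [NumberField L] [Algebra K L]

/-- Units at an unramified place are local norms there; more precisely at an unramified `j` an
element is a local norm iff the local degree divides its valuation. -/
theorem geLocalNormAt_iff_of_unramified (q : ℕ) [Fact q.Prime] (j : L →+* PadicAlgCl q)
    (hur : LfUnramified q (lgField q (j.comp (algebraMap K L))) (lgField q j)) (a : Kˣ) :
    GeLocalNormAt q j a ↔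
      (Module.finrank (lgField q (j.comp (algebraMap K L))) (lgField q j) : ℤ) ∣
        lfOrd q (lgField q (j.comp (algebraMap K L))) (lgEmb q (j.comp (algebraMap K L)) (a : K)) := by
  unfold GeLocalNormAt
  rw [lfUnramified_mem_norm_iff q _ _ hur]
  rfl

/-- The valuation of `a ∈ Kˣ` at an embedding in terms of the divisor. -/
theorem lfOrd_lgEmb_eq_divOf (q : ℕ) [Fact q.Prime] (i : K →+* PadicAlgCl q) (a : Kˣ) :
    lfOrd q (lgField q i) (lgEmb q i (a : K)) = S14.divOf K (a : K) (lgPlace q i) := by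
  have h1 := lg_valuation_eq q i (a : K) a.ne_zero
  have h2 := S14.approx_valuation_eq (a : K) a.ne_zero (lgPlace q i)
  rw [h1, WithZero.exp_inj, neg_inj] at h2
  exact h2

/-- Representatives of the fibres of a map out of a finite type. -/
theorem geno_exists_reps {G W : Type*} [Finite G] (f : G → W) :
    ∃ T : Finset G, ∀ g : G, ∃! t, t ∈ T ∧ f t = f g := by
  classical
  haveI : Fintype G := Fintype.ofFinite G
  let rep : G → G := fun g => (⟨g, rfl⟩ : ∃ g', f g' = f g).choose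
  have hrep : ∀ g, f (rep g) = f g := fun g => (⟨g, rfl⟩ : ∃ g', f g' = f g).choose_spec
  have hrep' : ∀ g g', f g = f g' → rep g = rep g' := by
    intro g g' h
    have : (fun g'' => f g'' = f g) = (fun g'' => f g'' = f g') := by
      funext g''
      rw [h]
    simp only [rep]
    congr
  refine ⟨Finset.univ.image rep, fun g => ⟨rep g, ⟨Finset.mem_image_of_mem _ (Finset.mem_univ _),
    hrep g⟩, ?_⟩⟩
  rintro t ⟨ht, htg⟩
  obtain ⟨g', -, rfl⟩ := Finset.mem_image.1 ht
  exact hrep' _ _ ((hrep g').symm.trans htg)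

/-- Global norms are local norms everywhere (`lg_norm_eq_prod`). -/
theorem geLocalNorm_norm [IsGalois K L] (y : Lˣ) :
    GeLocalNorm K L (Units.map (Algebra.norm K : L →* K) y) := by
  intro q _ j
  obtain ⟨T, hT⟩ := geno_exists_reps
    (fun g : L ≃ₐ[K] L => lgPlace q (j.comp (g : L →+* L)))
  have hprod := lg_norm_eq_prod q j T hT (y : L)
  unfold GeLocalNormAt
  refine ⟨∏ t ∈ T, Units.map (lgEmb q j : L →* lgField q j)
    (Units.map ((t : L →+* L) : L →* L) y), ?_⟩
  apply Units.ext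
  rw [map_prod, Units.coe_map, Units.coe_map, Units.coe_prod]
  change _ = lgEmb q (j.comp (algebraMap K L)) (Algebra.norm K (y : L))
  rw [hprod]
  refine Finset.prod_congr rfl (fun t _ => ?_)
  rfl

/-- Norms commute with an automorphism of the ambient field. -/
theorem geno_norm_map {F Ω : Type*} [Field F] [Field Ω] [Algebra F Ω] (τ : Ω ≃ₐ[F] Ω)
    (K₁ L₁ K₂ L₂ : IntermediateField F Ω) [Algebra K₁ L₁] [Algebra K₂ L₂]
    (h₁ : ∀ x : K₁, ((algebraMap K₁ L₁ x : L₁) : Ω) = x)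
    (h₂ : ∀ x : K₂, ((algebraMap K₂ L₂ x : L₂) : Ω) = x)
    (hK : K₂ = K₁.map (τ : Ω →ₐ[F] Ω)) (hL : L₂ = L₁.map (τ : Ω →ₐ[F] Ω))
    (y : L₁) (y' : L₂) (hy : (y' : Ω) = τ y) :
    ((Algebra.norm K₂ y' : K₂) : Ω) = τ ((Algebra.norm K₁ y : K₁) : Ω) := by
  let e₁ : K₁ ≃+* K₂ :=
    ((IntermediateField.intermediateFieldMap τ K₁).trans
      (IntermediateField.equivOfEq hK.symm)).toRingEquiv
  let e₂ : L₁ ≃+* L₂ :=
    ((IntermediateField.intermediateFieldMap τ L₁).trans
      (IntermediateField.equivOfEq hL.symm)).toRingEquiv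
  have he₁ : ∀ x : K₁, ((e₁ x : K₂) : Ω) = τ x := fun x => rfl
  have he₂ : ∀ x : L₁, ((e₂ x : L₂) : Ω) = τ x := fun x => rfl
  have he : RingHom.comp (algebraMap K₂ L₂) (e₁ : K₁ →+* K₂) =
      RingHom.comp (e₂ : L₁ →+* L₂) (algebraMap K₁ L₁) := by
    ext x
    simp only [RingHom.comp_apply, RingHom.coe_coe]
    rw [h₂, he₁, he₂, h₁]
  have h := Algebra.norm_eq_of_equiv_equiv e₁ e₂ he y
  have hy' : e₂ y = y' := Subtype.ext (by rw [he₂, hy])
  rw [hy'] at h
  rw [h, ← he₁, RingEquiv.apply_symm_apply]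

/-- Transport of the local norm condition along an automorphism `τ` of `PadicAlgCl q`. -/
theorem geno_localNormAt_of_map (q : ℕ) [Fact q.Prime] (j₁ j₂ : L →+* PadicAlgCl q)
    (τ : PadicAlgCl q ≃ₐ[ℚ_[q]] PadicAlgCl q)
    (hK : j₂.comp (algebraMap K L) =
      (τ : PadicAlgCl q →+* PadicAlgCl q).comp (j₁.comp (algebraMap K L)))
    (hL : lgField q j₂ = (lgField q j₁).map (τ : PadicAlgCl q →ₐ[ℚ_[q]] PadicAlgCl q)) (a : Kˣ)
    (h : GeLocalNormAt q j₁ a) : GeLocalNormAt q j₂ a := by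
  obtain ⟨y, hy⟩ := h
  have hy1 : ((Algebra.norm (lgField q (j₁.comp (algebraMap K L))) (y : lgField q j₁) :
      lgField q (j₁.comp (algebraMap K L))) : PadicAlgCl q) = j₁ (algebraMap K L (a : K)) := by
    have := congrArg (fun u : (lgField q (j₁.comp (algebraMap K L)))ˣ =>
      (((u : lgField q (j₁.comp (algebraMap K L))) : PadicAlgCl q))) hy
    exact this
  have hKf : lgField q (j₂.comp (algebraMap K L)) =
      (lgField q (j₁.comp (algebraMap K L))).map (τ : PadicAlgCl q →ₐ[ℚ_[q]] PadicAlgCl q) := by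
    rw [hK]
    exact lgField_comp_algEquiv q _ τ
  have hmem : τ ((y : lgField q j₁) : PadicAlgCl q) ∈ lgField q j₂ := by
    rw [hL]
    exact ⟨((y : lgField q j₁) : PadicAlgCl q), (y : lgField q j₁).2, rfl⟩
  have hne : (⟨τ ((y : lgField q j₁) : PadicAlgCl q), hmem⟩ : lgField q j₂) ≠ 0 := by
    intro h0
    have h1 := congrArg (fun z : lgField q j₂ => (z : PadicAlgCl q)) h0
    simp only [ZeroMemClass.coe_zero] at h1
    have h2 : ((y : lgField q j₁) : PadicAlgCl q) = 0 := by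
      apply τ.injective
      rw [h1, map_zero]
    have h3 : (y : lgField q j₁) = 0 := Subtype.ext h2
    exact y.ne_zero h3
  have key := geno_norm_map τ (lgField q (j₁.comp (algebraMap K L))) (lgField q j₁)
    (lgField q (j₂.comp (algebraMap K L))) (lgField q j₂)
    (lgField_algebraMap_coe q j₁) (lgField_algebraMap_coe q j₂) hKf hL (y : lgField q j₁)
    ⟨τ ((y : lgField q j₁) : PadicAlgCl q), hmem⟩ rfl
  refine ⟨Units.mk0 _ hne, ?_⟩
  apply Units.ext
  apply Subtype.ext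
  rw [lfNormHom, Units.coe_map, Units.coe_map, Units.val_mk0]
  change _ = j₂ (algebraMap K L (a : K))
  refine key.trans ?_
  rw [hy1]
  have := RingHom.congr_fun hK (a : K)
  exact this.symm

theorem geno_localNormAt_of_lgPlace_eq [IsGalois K L] (q : ℕ) [Fact q.Prime]
    (j j' : L →+* PadicAlgCl q)
    (h : lgPlace q (j.comp (algebraMap K L)) = lgPlace q (j'.comp (algebraMap K L))) (a : Kˣ)
    (ha : GeLocalNormAt q j a) : GeLocalNormAt q j' a := by
  obtain ⟨τ, hτ⟩ := (lgPlace_eq_iff q _ _).1 h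
  have hext : j'.comp (algebraMap K L) =
      ((τ : PadicAlgCl q →+* PadicAlgCl q).comp j).comp (algebraMap K L) := by
    rw [hτ, RingHom.comp_assoc]
  obtain ⟨g, hg⟩ := lg_exists_galois_of_extends q ((τ : PadicAlgCl q →+* PadicAlgCl q).comp j) j' hext
  refine geno_localNormAt_of_map q j j' τ hτ ?_ a ha
  rw [hg, lgField_comp_galois q _ g]
  exact lgField_comp_algEquiv q j τ

/-- Being a local norm at `j` only depends on the place of `K` below `j`. -/
theorem geLocalNormAt_iff_of_lgPlace_eq [IsGalois K L] (q : ℕ) [Fact q.Prime]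
    (j j' : L →+* PadicAlgCl q)
    (h : lgPlace q (j.comp (algebraMap K L)) = lgPlace q (j'.comp (algebraMap K L))) (a : Kˣ) :
    GeLocalNormAt q j a ↔ GeLocalNormAt q j' a :=
  ⟨geno_localNormAt_of_lgPlace_eq q j j' h a, geno_localNormAt_of_lgPlace_eq q j' j h.symm a⟩

/-- The residue characteristic is determined by the place. -/
theorem geno_prime_eq (q q' : ℕ) [Fact q.Prime] [Fact q'.Prime] (i : K →+* PadicAlgCl q)
    (i' : K →+* PadicAlgCl q') (h : lgPlace q i = lgPlace q' i') : q = q' := by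
  by_contra hne
  have hcop : Nat.Coprime q q' :=
    (Nat.coprime_primes (Fact.out : q.Prime) (Fact.out : q'.Prime)).2 hne
  have h1 : ((q : ℕ) : 𝓞 K) ∈ (lgPlace q i).asIdeal := natCast_mem_lgIdeal q i
  have h2 : ((q' : ℕ) : 𝓞 K) ∈ (lgPlace q i).asIdeal := by
    rw [h]
    exact natCast_mem_lgIdeal q' i'
  have h3 : ((Nat.gcd q q' : ℕ) : 𝓞 K) ∈ (lgPlace q i).asIdeal := by
    have hb := Nat.gcd_eq_gcd_ab q q'
    have hb' : (((Nat.gcd q q' : ℕ) : ℤ) : 𝓞 K) =
        ((q : ℕ) : 𝓞 K) * ((Nat.gcdA q q' : ℤ) : 𝓞 K) +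
          ((q' : ℕ) : 𝓞 K) * ((Nat.gcdB q q' : ℤ) : 𝓞 K) := by
      rw [hb]
      push_cast
      ring
    have hb'' : ((Nat.gcd q q' : ℕ) : 𝓞 K) = (((Nat.gcd q q' : ℕ) : ℤ) : 𝓞 K) := by
      push_cast
      rfl
    rw [hb'', hb']
    exact Ideal.add_mem _ (Ideal.mul_mem_right _ _ h1) (Ideal.mul_mem_right _ _ h2)
  rw [hcop, Nat.cast_one] at h3
  exact (lgPlace q i).isPrime.ne_top ((Ideal.eq_top_iff_one _).2 h3)

/-- `a ≡ b mod v^N`, `b ∉ v` implies that `a / b` is `v`-adically close to `1`. -/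
theorem geno_norm_sub_one_lt (q : ℕ) [Fact q.Prime] (i : K →+* PadicAlgCl q) {ε : ℝ}
    (hε : 0 < ε) :
    ∃ N : ℕ, 1 ≤ N ∧ ∀ a b : 𝓞 K, b ∉ lgIdeal q i → a - b ∈ lgIdeal q i ^ N →
      ‖i ((a : K) / (b : K)) - 1‖ < ε := by
  obtain ⟨N₀, hN₀⟩ := lgw_exists_pow_lt q i hε
  refine ⟨max N₀ 1, le_max_right _ _, fun a b hb hab => ?_⟩
  have hb1 : ‖i (b : K)‖ = 1 := lgdense_norm_eq_one_of_notMem q i hb
  have hb0 : i (b : K) ≠ 0 := by
    intro h0
    rw [h0, norm_zero] at hb1
    exact zero_ne_one hb1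
  have h1 : i ((a : K) / (b : K)) - 1 = i (((a - b : 𝓞 K)) : K) / i (b : K) := by
    rw [map_div₀, div_sub_one hb0]
    congr 1
    rw [← map_sub]
    rfl
  rw [h1, norm_div, hb1, div_one]
  exact hN₀ _ (le_max_left _ _) _ hab

/-- A level `N` at the place `v`: `a ≡ b mod v^N`, `b ∉ v` implies that `a / b` is a local norm
at every embedding above `v`. -/
theorem geno_exists_level [IsGalois K L] (v : HeightOneSpectrum (𝓞 K)) :
    ∃ N : ℕ, 1 ≤ N ∧ ∀ (x : Kˣ) (a b : 𝓞 K), b ∉ v.asIdeal → a - b ∈ v.asIdeal ^ N →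
      (x : K) = (a : K) / (b : K) → ∀ (q : ℕ) [Fact q.Prime] (j : L →+* PadicAlgCl q),
        lgPlace q (j.comp (algebraMap K L)) = v → GeLocalNormAt q j x := by
  by_cases hex : ∃ (q₀ : ℕ) (_ : Fact q₀.Prime) (j₀ : L →+* PadicAlgCl q₀),
      lgPlace q₀ (j₀.comp (algebraMap K L)) = v
  · obtain ⟨q₀, hq₀, j₀, hj₀⟩ := hex
    obtain ⟨ε, hε, hclose⟩ := lf_mem_norm_of_close q₀ (lgField q₀ (j₀.comp (algebraMap K L)))
      (lgField q₀ j₀)
    obtain ⟨N, hN1, hN⟩ := geno_norm_sub_one_lt q₀ (j₀.comp (algebraMap K L)) hε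
    refine ⟨N, hN1, ?_⟩
    intro x a b hb hab hx q _ j hj
    have hq : q = q₀ := geno_prime_eq q q₀ _ _ (hj.trans hj₀.symm)
    subst hq
    refine (geLocalNormAt_iff_of_lgPlace_eq q j₀ j (hj₀.trans hj.symm) x).1 ?_
    unfold GeLocalNormAt
    apply hclose
    rw [spectralNorm_lgField]
    change ‖(j₀.comp (algebraMap K L)) (x : K) - 1‖ < ε
    rw [hx]
    apply hN a b
    · rw [← lgPlace_asIdeal, hj₀]
      exact hb
    · rw [← lgPlace_asIdeal, hj₀]
      exact hab
  · refine ⟨1, le_rfl, ?_⟩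
    intro x a b hb hab hx q hq j hj
    exact absurd ⟨q, hq, j, hj⟩ hex

/-- A modulus for a finite set `S` of places: `x ≡ 1 mod× 𝔪` implies that `x` is a local norm at
all places in `S` (`𝔪 = ∏_{v ∈ S} v ^ N`, `N` large, by `lf_mem_norm_of_close`). -/
theorem ge_exists_modulus [IsGalois K L] (S : Finset (HeightOneSpectrum (𝓞 K))) :
    ∃ 𝔪 : Ideal (𝓞 K), 𝔪 ≠ ⊥ ∧ (∀ v : HeightOneSpectrum (𝓞 K), 𝔪 ≤ v.asIdeal ↔ v ∈ S) ∧
      ∀ x : Kˣ, gdOneMod K 𝔪 (x : K) →
        x ∈ geNormAt K L (S : Set (HeightOneSpectrum (𝓞 K))) := by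
  classical
  choose N hN1 hN using fun v : HeightOneSpectrum (𝓞 K) => geno_exists_level (L := L) v
  have hle : ∀ v ∈ S, (∏ w ∈ S, w.asIdeal ^ N w) ≤ v.asIdeal ^ N v := fun v hv =>
    Ideal.le_of_dvd (Finset.dvd_prod_of_mem (fun w => w.asIdeal ^ N w) hv)
  have hpow : ∀ v : HeightOneSpectrum (𝓞 K), v.asIdeal ^ N v ≤ v.asIdeal := fun v => by
    calc v.asIdeal ^ N v ≤ v.asIdeal ^ 1 := Ideal.pow_le_pow_right (hN1 v)
      _ = v.asIdeal := pow_one _
  refine ⟨∏ w ∈ S, w.asIdeal ^ N w, ?_, ?_, ?_⟩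
  · rw [← Ideal.zero_eq_bot, Finset.prod_ne_zero_iff]
    intro w _
    exact pow_ne_zero _ w.ne_bot
  · intro v
    constructor
    · intro h
      obtain ⟨w, hw, hwv⟩ := (Ideal.IsPrime.prod_le v.isPrime).1 h
      have h1 : w.asIdeal ≤ v.asIdeal := Ideal.IsPrime.le_of_pow_le hwv
      have h2 : w.asIdeal = v.asIdeal := w.isMaximal.eq_of_le v.isPrime.ne_top h1
      have h3 : w = v := HeightOneSpectrum.ext h2
      rw [← h3]
      exact hw
    · intro hv
      exact (hle v hv).trans (hpow v)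
  · intro x hx
    obtain ⟨a, b, ha0, hb0, hacop, hbcop, hab, hxab⟩ := hx
    rw [mem_geNormAt]
    intro q _ j hj
    have hvS : lgPlace q (j.comp (algebraMap K L)) ∈ S := hj
    set v := lgPlace q (j.comp (algebraMap K L)) with hv
    have hmv : (∏ w ∈ S, w.asIdeal ^ N w) ≤ v.asIdeal := (hle v hvS).trans (hpow v)
    have hb : b ∉ v.asIdeal := by
      intro hbv
      have h1 : Ideal.span {b} ≤ v.asIdeal := (Ideal.span_singleton_le_iff_mem _).2 hbv
      have h2 : (⊤ : Ideal (𝓞 K)) ≤ v.asIdeal := by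
        rw [← Ideal.isCoprime_iff_sup_eq.1 hbcop]
        exact sup_le h1 hmv
      exact v.isPrime.ne_top (top_le_iff.1 h2)
    exact hN v x a b hb (hle v hvS hab) hxab q j hv.symm

end NormOpen

end Fermat.Agent.S55
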