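/-
S55 / GLOBAL / RECIP, leaf GE-F2 `Recip/CycApprox.lean`.
Proves the statements of `CycApproxSpec.lean` VERBATIM (same names).  Helper names prefixed `geca`.
Imports `Recip/NormOpen.lean` (the real file behind `NormOpenSpec.lean`).
-/
import Fermat.Agent.S55.Global.Recip.NormOpen

set_option autoImplicit false
set_option linter.unusedSectionVars false
set_option linter.unusedVariables false
set_option linter.style.haveILetI false

noncomputable section

namespace Fermat.Agent.S55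

open NumberField IsDedekindDomain groupCohomology

section CycApprox

variable {K E : Type} [Field K] [NumberField K] [Field E] [NumberField E] [Algebra K E]

/-- The ideal of denominators of `a ∈ K`. -/
def gecaDenom (a : K) : Ideal (𝓞 K) where
  carrier := {x | ∃ y : 𝓞 K, (y : K) = (x : K) * a}
  add_mem' := by
    rintro x x' ⟨y, hy⟩ ⟨y', hy'⟩
    refine ⟨y + y', ?_⟩
    change algebraMap (𝓞 K) K (y + y') = algebraMap (𝓞 K) K (x + x') * a
    rw [map_add, map_add, add_mul]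
    exact congrArg₂ (· + ·) hy hy'
  zero_mem' := ⟨0, by simp⟩
  smul_mem' := by
    rintro c x ⟨y, hy⟩
    refine ⟨c * y, ?_⟩
    change algebraMap (𝓞 K) K (c * y) = algebraMap (𝓞 K) K (c * x) * a
    rw [map_mul, map_mul, mul_assoc]
    exact congrArg (algebraMap (𝓞 K) K c * ·) hy

theorem mem_gecaDenom_iff (a : K) (x : 𝓞 K) :
    x ∈ gecaDenom a ↔ ∃ y : 𝓞 K, (y : K) = (x : K) * a := Iff.rfl

/-- Norm of `r` in `PadicAlgCl r`. -/
theorem geca_norm_natCast (r : ℕ) [Fact r.Prime] : ‖((r : ℕ) : PadicAlgCl r)‖ = (r : ℝ)⁻¹ := by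
  have h2 := PadicAlgCl.valuation_p r
  have h3 : ‖((r : ℕ) : PadicAlgCl r)‖₊ = 1 / (r : NNReal) := by
    rw [← PadicAlgCl.valuation_def]; exact h2
  have h4 : ‖((r : ℕ) : PadicAlgCl r)‖ = 1 / (r : ℝ) := by
    have := congrArg (fun t : NNReal => (t : ℝ)) h3
    simpa using this
  rw [h4, one_div]

/-- `‖x - 1‖ < 1` implies `‖x‖ = 1`. -/
theorem geca_norm_eq_one (r : ℕ) [Fact r.Prime] {x : PadicAlgCl r} (hx : ‖x - 1‖ < 1) :
    ‖x‖ = 1 := by
  have h1 : ‖x‖ ≤ 1 := by
    have : x = (x - 1) + 1 := by ring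
    rw [this]
    exact (PadicAlgCl.isNonarchimedean r _ _).trans (max_le hx.le (by rw [norm_one]))
  have h2 : (1 : ℝ) ≤ ‖x‖ := by
    by_contra hlt
    rw [not_le] at hlt
    have : (1 : PadicAlgCl r) = x + -(x - 1) := by ring
    have h3 : ‖(1 : PadicAlgCl r)‖ ≤ max ‖x‖ ‖-(x - 1)‖ := by
      conv_lhs => rw [this]
      exact PadicAlgCl.isNonarchimedean r _ _
    rw [norm_one, norm_neg] at h3
    exact absurd h3 (not_le.2 (max_lt hlt hx))
  exact le_antisymm h1 h2

theorem geca_span_ne_top (r : ℕ) [Fact r.Prime] :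
    Ideal.span {((r : ℕ) : 𝓞 K)} ≠ ⊤ := by
  intro h
  have h1 : Ideal.span {((r : ℕ) : 𝓞 K)} ≤ lgIdeal r (lgEmbDefault r K) :=
    (Ideal.span_singleton_le_iff_mem _).2 (natCast_mem_lgIdeal r _)
  rw [h, top_le_iff] at h1
  exact (lgIdeal_isPrime r (lgEmbDefault r K)).ne_top h1

/-- If `a` is integral at all places above `r`, its denominator ideal is prime to `r`. -/
theorem geca_denom_sup_eq_top (r : ℕ) [Fact r.Prime] (a : K)
    (h : ∀ i : K →+* PadicAlgCl r, ‖i a‖ ≤ 1) :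
    gecaDenom a ⊔ Ideal.span {((r : ℕ) : 𝓞 K)} = ⊤ := by
  by_contra hne
  obtain ⟨M, hM, hle⟩ := Ideal.exists_le_maximal _ hne
  have hrM : ((r : ℕ) : 𝓞 K) ∈ M :=
    hle (Ideal.mem_sup_right (Ideal.mem_span_singleton_self _))
  have hr0 : ((r : ℕ) : 𝓞 K) ≠ 0 := by
    exact_mod_cast (Fact.out : r.Prime).ne_zero
  have hM0 : M ≠ ⊥ := by
    intro h0
    rw [h0, Ideal.mem_bot] at hrM
    exact hr0 hrM
  obtain ⟨i, hi⟩ := exists_lgEmb r (⟨M, hM.isPrime, hM0⟩ : HeightOneSpectrum (𝓞 K)) hrM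
  obtain ⟨n, d, hd, hxd⟩ := lgdense_exists_denominator r i a (h i)
  have hdD : d ∈ gecaDenom a := ⟨n, by rw [← hxd, mul_comm]⟩
  have hdM : d ∈ M := hle (Ideal.mem_sup_left hdD)
  apply hd
  rw [← lgPlace_asIdeal, hi]
  exact hdM

/-- An element of `Kˣ` which is `r`-adically close to `1` at every `r`-adic embedding is
`≡ 1 mod× r`. -/
theorem ge_oneMod_of_close (r : ℕ) [Fact r.Prime] (a : Kˣ)
    (h : ∀ i : K →+* PadicAlgCl r, ‖i (a : K) - 1‖ < (r : ℝ)⁻¹ * (r : ℝ)⁻¹) :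
    gdOneMod K (Ideal.span {((r : ℕ) : 𝓞 K)}) (a : K) := by
  have hr1 : (1 : ℝ) < r := by exact_mod_cast (Fact.out : r.Prime).one_lt
  have hr0 : (0 : ℝ) < r := by linarith
  have hrinv : (r : ℝ)⁻¹ < 1 := inv_lt_one_of_one_lt₀ hr1
  have hrinv0 : (0 : ℝ) < (r : ℝ)⁻¹ := inv_pos.2 hr0
  have hε1 : (r : ℝ)⁻¹ * (r : ℝ)⁻¹ < 1 := by nlinarith
  have hnorm : ∀ i : K →+* PadicAlgCl r, ‖i (a : K)‖ = 1 := fun i =>
    geca_norm_eq_one r ((h i).trans hε1)
  have htop := geca_denom_sup_eq_top r (a : K) (fun i => (hnorm i).le)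
  have h1mem : (1 : 𝓞 K) ∈ gecaDenom (a : K) ⊔ Ideal.span {((r : ℕ) : 𝓞 K)} := by
    rw [htop]
    exact Submodule.mem_top
  obtain ⟨β, hβ, ρ, hρ, hsum⟩ := Submodule.mem_sup.1 h1mem
  obtain ⟨α, hα⟩ := hβ
  have hβ0 : β ≠ 0 := by
    rintro rfl
    rw [zero_add] at hsum
    rw [hsum] at hρ
    exact geca_span_ne_top (K := K) r ((Ideal.eq_top_iff_one _).2 hρ)
  have hβK : (β : K) ≠ 0 := fun h0 => hβ0 (RingOfIntegers.coe_eq_zero_iff.1 h0)
  have hα0 : α ≠ 0 := by
    rintro rfl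
    have : (β : K) * (a : K) = 0 := by
      rw [← hα]
      simp
    rcases mul_eq_zero.1 this with h0 | h0
    · exact hβK h0
    · exact a.ne_zero h0
  -- the key congruence
  have hmem : α - β ∈ Ideal.span {((r : ℕ) : 𝓞 K)} := by
    have hxK : ((α - β : 𝓞 K) : K) = (β : K) * ((a : K) - 1) := by
      change algebraMap (𝓞 K) K (α - β) = _
      rw [map_sub]
      change (α : K) - (β : K) = _
      rw [hα]
      ring
    have hint : ((α - β : 𝓞 K) : K) / ((r : ℕ) : K) ∈ (algebraMap (𝓞 K) K).range := by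
      apply HeightOneSpectrum.mem_integers_of_valuation_le_one
      intro v
      by_cases hrv : ((r : ℕ) : 𝓞 K) ∈ v.asIdeal
      · obtain ⟨i, hi⟩ := exists_lgEmb r v hrv
        rw [← hi, lg_valuation_le_one_iff, map_div₀, norm_div, map_natCast, geca_norm_natCast,
          hxK, map_mul, norm_mul, div_le_iff₀ hrinv0, one_mul, map_sub, map_one]
        calc ‖i (β : K)‖ * ‖i (a : K) - 1‖ ≤ 1 * ‖i (a : K) - 1‖ :=
              mul_le_mul_of_nonneg_right (lg_norm_le_one r i β) (norm_nonneg _)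
          _ = ‖i (a : K) - 1‖ := one_mul _
          _ ≤ (r : ℝ)⁻¹ * (r : ℝ)⁻¹ := (h i).le
          _ ≤ (r : ℝ)⁻¹ * 1 := mul_le_mul_of_nonneg_left hrinv.le hrinv0.le
          _ = (r : ℝ)⁻¹ := mul_one _
      · have h1 : v.valuation K (algebraMap (𝓞 K) K ((r : ℕ) : 𝓞 K)) = 1 :=
          (v.valuation_eq_one_iff_notMem (K := K)).2 hrv
        have h2 : v.valuation K (algebraMap (𝓞 K) K (α - β)) ≤ 1 := v.valuation_le_one _
        have h3 : ((r : ℕ) : K) = algebraMap (𝓞 K) K ((r : ℕ) : 𝓞 K) := by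
          rw [map_natCast]
        rw [map_div₀, h3, h1, div_one]
        exact h2
    obtain ⟨c, hc⟩ := hint
    rw [Ideal.mem_span_singleton']
    refine ⟨c, ?_⟩
    apply RingOfIntegers.coe_injective
    have hrK : ((r : ℕ) : K) ≠ 0 := by exact_mod_cast (Fact.out : r.Prime).ne_zero
    change algebraMap (𝓞 K) K (c * ((r : ℕ) : 𝓞 K)) = algebraMap (𝓞 K) K (α - β)
    rw [map_mul, hc, map_natCast]
    exact div_mul_cancel₀ _ hrK
  refine ⟨α, β, hα0, hβ0, ?_, ?_, hmem, ?_⟩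
  · rw [Ideal.isCoprime_iff_sup_eq, Ideal.eq_top_iff_one]
    have : (1 : 𝓞 K) = α + ((β - α) + ρ) := by
      rw [← hsum]
      ring
    rw [this]
    refine Submodule.add_mem_sup (Ideal.mem_span_singleton_self _) (Ideal.add_mem _ ?_ hρ)
    have : β - α = -(α - β) := by ring
    rw [this]
    exact Ideal.neg_mem_iff _ |>.2 hmem
  · rw [Ideal.isCoprime_iff_sup_eq, Ideal.eq_top_iff_one, ← hsum]
    exact Submodule.add_mem_sup (Ideal.mem_span_singleton_self _) hρ
  · rw [hα, mul_div_cancel_left₀ _ hβK]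

/-! ### Elements close to `1` -/

theorem geca_close_mul (r : ℕ) [Fact r.Prime] {ε : ℝ} (hε : ε ≤ 1) {x y : PadicAlgCl r}
    (hx : ‖x - 1‖ < ε) (hy : ‖y - 1‖ < ε) : ‖x * y - 1‖ < ε := by
  have hy1 : ‖y‖ = 1 := geca_norm_eq_one r (hy.trans_le hε)
  have h : x * y - 1 = (x - 1) * y + (y - 1) := by ring
  rw [h]
  refine lt_of_le_of_lt (PadicAlgCl.isNonarchimedean r _ _) (max_lt ?_ hy)
  rw [norm_mul, hy1, mul_one]
  exact hx

theorem geca_close_inv (r : ℕ) [Fact r.Prime] {ε : ℝ} (hε : ε ≤ 1) {x : PadicAlgCl r}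
    (hx : ‖x - 1‖ < ε) : ‖x⁻¹ - 1‖ < ε := by
  have hx1 : ‖x‖ = 1 := geca_norm_eq_one r (hx.trans_le hε)
  have hx0 : x ≠ 0 := by
    intro h
    rw [h, norm_zero] at hx1
    exact zero_ne_one hx1
  have h : x⁻¹ - 1 = -(x - 1) * x⁻¹ := by
    field_simp
    ring
  rw [h, norm_mul, norm_neg, norm_inv, hx1, inv_one, mul_one]
  exact hx

theorem geca_close_prod (r : ℕ) [Fact r.Prime] {ε : ℝ} (hε0 : 0 < ε) (hε : ε ≤ 1) {ι : Type*}
    (s : Finset ι) (f : ι → PadicAlgCl r) (h : ∀ k ∈ s, ‖f k - 1‖ < ε) :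
    ‖∏ k ∈ s, f k - 1‖ < ε := by
  classical
  induction s using Finset.induction_on with
  | empty =>
    rw [Finset.prod_empty, sub_self, norm_zero]
    exact hε0
  | insert a s ha ih =>
    rw [Finset.prod_insert ha]
    exact geca_close_mul r hε (h a (Finset.mem_insert_self a s))
      (ih (fun k hk => h k (Finset.mem_insert_of_mem hk)))

theorem geca_close_map (r : ℕ) [Fact r.Prime] (τ : PadicAlgCl r ≃ₐ[ℚ_[r]] PadicAlgCl r)
    (x : PadicAlgCl r) : ‖τ x - 1‖ = ‖x - 1‖ := by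
  have h : τ x - 1 = τ (x - 1) := by rw [map_sub, map_one]
  rw [h, lgexists_norm_algEquiv]

/-- The local norm of an element close to `1` is close to `1`. -/
theorem geca_close_norm [IsGalois K E] (r : ℕ) [Fact r.Prime] (jE : E →+* PadicAlgCl r) {ε : ℝ}
    (hε0 : 0 < ε) (hε : ε ≤ 1) (z : lgField r jE) (hz : ‖(z : PadicAlgCl r) - 1‖ < ε) :
    ‖((Algebra.norm (lgField r (jE.comp (algebraMap K E))) z :
      lgField r (jE.comp (algebraMap K E))) : PadicAlgCl r) - 1‖ < ε := by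
  haveI := lg_isGalois (K := K) r jE
  haveI : FiniteDimensional (lgField r (jE.comp (algebraMap K E))) (lgField r jE) :=
    lgField_finiteDimensional_rel r jE
  have h1 := Algebra.norm_eq_prod_automorphisms (lgField r (jE.comp (algebraMap K E))) z
  have h2 : ((Algebra.norm (lgField r (jE.comp (algebraMap K E))) z :
      lgField r (jE.comp (algebraMap K E))) : PadicAlgCl r) =
      ∏ σ : (lgField r jE ≃ₐ[lgField r (jE.comp (algebraMap K E))] lgField r jE),
        ((σ z : lgField r jE) : PadicAlgCl r) := by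
    rw [← lgField_algebraMap_coe r jE, h1]
    exact map_prod (lgField r jE).val _ _
  rw [h2]
  apply geca_close_prod r hε0 hε
  intro σ _
  have h3 : ((σ z : lgField r jE) : PadicAlgCl r) - 1 =
      ((σ (z - 1) : lgField r jE) : PadicAlgCl r) := by
    rw [map_sub, map_one]
    rfl
  rw [h3, ← spectralNorm_lgField, spectralNorm_algEquiv, spectralNorm_lgField]
  exact hz

/-- The local computation at one place of `K`. -/
theorem geca_local [IsGalois K E] (r : ℕ) [Fact r.Prime] (j : E →+* PadicAlgCl r)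
    (T : Finset (E ≃ₐ[K] E))
    (hT : ∀ g : E ≃ₐ[K] E, ∃! t, t ∈ T ∧
      lgPlace r (j.comp (t : E →+* E)) = lgPlace r (j.comp (g : E →+* E)))
    (a : Kˣ) (Yt : (E ≃ₐ[K] E) → lgField r j)
    (hprod : ∏ t ∈ T, Algebra.norm (lgField r (j.comp (algebraMap K E))) (Yt t) =
      lgEmb r (j.comp (algebraMap K E)) (a : K))
    (β : Eˣ) {ε : ℝ} (hε0 : 0 < ε) (hε : ε ≤ 1)
    (hβ : ∀ t ∈ T, ‖((Yt t : lgField r j) : PadicAlgCl r)⁻¹ * j (t (β : E)) - 1‖ < ε) :
    ‖(j.comp (algebraMap K E))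
      (((a * (Units.map (Algebra.norm K : E →* K) β)⁻¹ : Kˣ) : Kˣ) : K) - 1‖ < ε := by
  have hfd : FiniteDimensional (lgField r (j.comp (algebraMap K E))) (lgField r j) :=
    lgField_finiteDimensional_rel r j
  have hfree : Module.Free (lgField r (j.comp (algebraMap K E))) (lgField r j) :=
    Module.Free.of_divisionRing _ _
  have hnorm_inv : ∀ x : lgField r j, x ≠ 0 →
      Algebra.norm (lgField r (j.comp (algebraMap K E))) x⁻¹ =
        (Algebra.norm (lgField r (j.comp (algebraMap K E))) x)⁻¹ := by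
    intro x hx
    apply eq_inv_of_mul_eq_one_left
    rw [← map_mul, inv_mul_cancel₀ hx, map_one]
  have hLne : ∀ t : E ≃ₐ[K] E, lgEmb r j (t (β : E)) ≠ 0 := by
    intro t h0
    have h1 : t (β : E) = 0 := (lgEmb r j).injective (by rw [h0, map_zero])
    have h2 : (β : E) = 0 := t.injective (by rw [h1, map_zero])
    exact β.ne_zero h2
  have hA : ∏ t ∈ T, Algebra.norm (lgField r (j.comp (algebraMap K E)))
      (Yt t * (lgEmb r j (t (β : E)))⁻¹) =
      lgEmb r (j.comp (algebraMap K E))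
        (((a * (Units.map (Algebra.norm K : E →* K) β)⁻¹ : Kˣ) : Kˣ) : K) := by
    have h1 : ∀ t ∈ T, Algebra.norm (lgField r (j.comp (algebraMap K E)))
        (Yt t * (lgEmb r j (t (β : E)))⁻¹) =
        Algebra.norm (lgField r (j.comp (algebraMap K E))) (Yt t) *
          (Algebra.norm (lgField r (j.comp (algebraMap K E))) (lgEmb r j (t (β : E))))⁻¹ := by
      intro t _
      rw [map_mul, hnorm_inv _ (hLne t)]
    rw [Finset.prod_congr rfl h1, Finset.prod_mul_distrib, Finset.prod_inv_distrib, hprod,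
      ← lg_norm_eq_prod r j T hT (β : E)]
    rw [Units.val_mul, Units.val_inv_eq_inv_val, Units.coe_map, map_mul, map_inv₀]
  have hcoe : (j.comp (algebraMap K E))
      (((a * (Units.map (Algebra.norm K : E →* K) β)⁻¹ : Kˣ) : Kˣ) : K) =
      ∏ t ∈ T, ((Algebra.norm (lgField r (j.comp (algebraMap K E)))
        (Yt t * (lgEmb r j (t (β : E)))⁻¹) : lgField r (j.comp (algebraMap K E))) :
          PadicAlgCl r) := by
    rw [← lgEmb_coe r (j.comp (algebraMap K E)), ← hA]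
    exact map_prod (lgField r (j.comp (algebraMap K E))).val _ _
  rw [hcoe]
  apply geca_close_prod r hε0 hε
  intro t ht
  apply geca_close_norm r j hε0 hε
  have h2 : ((Yt t * (lgEmb r j (t (β : E)))⁻¹ : lgField r j) : PadicAlgCl r) =
      (((Yt t : lgField r j) : PadicAlgCl r)⁻¹ * j (t (β : E)))⁻¹ := by
    rw [mul_inv, inv_inv]
    rfl
  rw [h2]
  exact geca_close_inv r hε (hβ t ht)

/-- Composing with a `K`-automorphism of `E` does not change the restriction to `K`. -/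
theorem geca_comp_comp (r : ℕ) [Fact r.Prime] (j : E →+* PadicAlgCl r) (t : E ≃ₐ[K] E) :
    (j.comp (t : E →+* E)).comp (algebraMap K E) = j.comp (algebraMap K E) := by
  ext x
  simp only [RingHom.comp_apply, RingHom.coe_coe, AlgEquiv.commutes]

/-- The place of `K` below the place of an embedding of `E`. -/
theorem geca_place_below (r : ℕ) [Fact r.Prime] (j j' : E →+* PadicAlgCl r)
    (h : lgPlace r j = lgPlace r j') :
    lgPlace r (j.comp (algebraMap K E)) = lgPlace r (j'.comp (algebraMap K E)) := by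
  have h1 : lgIdeal r j = lgIdeal r j' := congrArg HeightOneSpectrum.asIdeal h
  apply HeightOneSpectrum.ext
  change lgIdeal r (j.comp (algebraMap K E)) = lgIdeal r (j'.comp (algebraMap K E))
  rw [← lgexists_comap_lgIdeal, ← lgexists_comap_lgIdeal, h1]

/-- Weak approximation with targets given as elements of `PadicAlgCl r`. -/
theorem geca_weak_approx (r : ℕ) [Fact r.Prime] {ι : Type} [Fintype ι]
    (e : ι → (E →+* PadicAlgCl r))
    (hne : ∀ k k' : ι, k ≠ k' → lgPlace r (e k) ≠ lgPlace r (e k'))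
    (Yval : ι → PadicAlgCl r) (hmem : ∀ k, Yval k ∈ lgField r (e k)) (hne0 : ∀ k, Yval k ≠ 0)
    {ε : ℝ} (hε : 0 < ε) :
    ∃ β : Eˣ, ∀ k, ‖(Yval k)⁻¹ * e k (β : E) - 1‖ < ε := by
  have hY0 : ∀ k, (⟨Yval k, hmem k⟩ : lgField r (e k)) ≠ 0 := by
    intro k h0
    exact hne0 k (congrArg Subtype.val h0)
  obtain ⟨β, hβ⟩ := lg_weak_approx_units (K := E) (fun _ : ι => r) e hne
    (fun k => Units.mk0 ⟨Yval k, hmem k⟩ (hY0 k)) hε
  exact ⟨β, fun k => hβ k⟩

/-- If `a ∈ Kˣ` is a local norm from `E` at all `r`-adic embeddings, then `a` times a global norm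
is `≡ 1 mod× r` (weak approximation in `E` + `lg_norm_eq_prod` + continuity of the local norm). -/
theorem ge_exists_norm_mul_oneMod [IsGalois K E] (r : ℕ) [Fact r.Prime] (a : Kˣ)
    (h : ∀ jE : E →+* PadicAlgCl r, GeLocalNormAt r jE a) :
    ∃ β : Eˣ, gdOneMod K (Ideal.span {((r : ℕ) : 𝓞 K)})
      ((a * (Units.map (Algebra.norm K : E →* K) β)⁻¹ : Kˣ) : K) := by
  classical
  have hr1 : (1 : ℝ) < r := by exact_mod_cast (Fact.out : r.Prime).one_lt
  have hr0 : (0 : ℝ) < r := by linarith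
  have hrinv : (r : ℝ)⁻¹ < 1 := inv_lt_one_of_one_lt₀ hr1
  have hrinv0 : (0 : ℝ) < (r : ℝ)⁻¹ := inv_pos.2 hr0
  have hε0 : (0 : ℝ) < (r : ℝ)⁻¹ * (r : ℝ)⁻¹ := mul_pos hrinv0 hrinv0
  have hε1 : (r : ℝ)⁻¹ * (r : ℝ)⁻¹ ≤ 1 := by nlinarith
  haveI : Fintype (LgPlacesOver r K) := Fintype.ofFinite _
  -- embeddings of `E` above the chosen embeddings of `K`
  have hj : ∀ w : LgPlacesOver r K, ∃ j : E →+* PadicAlgCl r,
      j.comp (algebraMap K E) = lgEmbOf r w := fun w => ge_exists_extend r (lgEmbOf r w)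
  choose j hj using hj
  have hjpl : ∀ w : LgPlacesOver r K, lgPlace r ((j w).comp (algebraMap K E)) = w.1 := by
    intro w
    rw [hj w, lgPlace_lgEmbOf]
  -- representatives of the places of `E` above each place of `K`
  have hT : ∀ w : LgPlacesOver r K, ∃ T : Finset (E ≃ₐ[K] E), ∀ g : E ≃ₐ[K] E, ∃! t, t ∈ T ∧
      lgPlace r ((j w).comp (t : E →+* E)) = lgPlace r ((j w).comp (g : E →+* E)) := fun w =>
    geno_exists_reps (fun g : E ≃ₐ[K] E => lgPlace r ((j w).comp (g : E →+* E)))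
  choose T hT using hT
  have ht₀ : ∀ w : LgPlacesOver r K, ∃ t₀ : E ≃ₐ[K] E, t₀ ∈ T w := fun w => by
    obtain ⟨t, ⟨ht, -⟩, -⟩ := hT w 1
    exact ⟨t, ht⟩
  choose t₀ ht₀ using ht₀
  -- local norm preimages
  have hy : ∀ w : LgPlacesOver r K, ∃ y : (lgField r (j w))ˣ,
      lfNormHom (lgField r ((j w).comp (algebraMap K E))) (lgField r (j w)) y =
        Units.map (lgEmb r ((j w).comp (algebraMap K E)) : K →* _) a := fun w => h (j w)
  choose y hy using hy
  -- the targets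
  let Yt : ∀ w : LgPlacesOver r K, (E ≃ₐ[K] E) → lgField r (j w) := fun w t =>
    if t = t₀ w then ((y w : (lgField r (j w))ˣ) : lgField r (j w)) else 1
  have hYt0 : ∀ w t, Yt w t ≠ 0 := by
    intro w t
    simp only [Yt]
    split_ifs
    · exact (y w).ne_zero
    · exact one_ne_zero
  have hprod : ∀ w : LgPlacesOver r K,
      ∏ t ∈ T w, Algebra.norm (lgField r ((j w).comp (algebraMap K E))) (Yt w t) =
        lgEmb r ((j w).comp (algebraMap K E)) (a : K) := by
    intro w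
    have h1 : ∀ t ∈ T w, Algebra.norm (lgField r ((j w).comp (algebraMap K E))) (Yt w t) =
        if t = t₀ w then Algebra.norm (lgField r ((j w).comp (algebraMap K E)))
          ((y w : (lgField r (j w))ˣ) : lgField r (j w)) else 1 := by
      intro t _
      simp only [Yt]
      split_ifs
      · rfl
      · exact map_one _
    rw [Finset.prod_congr rfl h1, Finset.prod_ite_eq' (T w) (t₀ w), if_pos (ht₀ w)]
    have := congrArg (fun u : (lgField r ((j w).comp (algebraMap K E)))ˣ =>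
      (u : lgField r ((j w).comp (algebraMap K E)))) (hy w)
    exact this
  -- the family of embeddings of `E`
  have hYmem : ∀ k : (Σ w : LgPlacesOver r K, {t : E ≃ₐ[K] E // t ∈ T w}),
      ((Yt k.1 k.2.1 : lgField r (j k.1)) : PadicAlgCl r) ∈
        lgField r ((j k.1).comp ((k.2.1 : E ≃ₐ[K] E) : E →+* E)) := by
    intro k
    rw [lgField_comp_galois r (j k.1) k.2.1]
    exact (Yt k.1 k.2.1).2
  have hYne : ∀ k : (Σ w : LgPlacesOver r K, {t : E ≃ₐ[K] E // t ∈ T w}),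
      ((Yt k.1 k.2.1 : lgField r (j k.1)) : PadicAlgCl r) ≠ 0 := by
    intro k h0
    exact hYt0 k.1 k.2.1 (Subtype.ext h0)
  have hne : ∀ k k' : (Σ w : LgPlacesOver r K, {t : E ≃ₐ[K] E // t ∈ T w}), k ≠ k' →
      lgPlace r ((j k.1).comp ((k.2.1 : E ≃ₐ[K] E) : E →+* E)) ≠
        lgPlace r ((j k'.1).comp ((k'.2.1 : E ≃ₐ[K] E) : E →+* E)) := by
    rintro ⟨w, t, ht⟩ ⟨w', t', ht'⟩ hkk' hpl
    have h1 := geca_place_below (K := K) r _ _ hpl
    rw [geca_comp_comp, geca_comp_comp, hjpl, hjpl] at h1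
    have hw : w = w' := Subtype.ext h1
    subst hw
    obtain ⟨t'', -, huniq⟩ := hT w t'
    have e1 : t = t'' := huniq t ⟨ht, hpl⟩
    have e2 : t' = t'' := huniq t' ⟨ht', rfl⟩
    apply hkk'
    subst e2
    subst e1
    rfl
  obtain ⟨β, hβ⟩ := geca_weak_approx r
    (fun k : (Σ w : LgPlacesOver r K, {t : E ≃ₐ[K] E // t ∈ T w}) =>
      (j k.1).comp ((k.2.1 : E ≃ₐ[K] E) : E →+* E)) hne
    (fun k => ((Yt k.1 k.2.1 : lgField r (j k.1)) : PadicAlgCl r)) hYmem hYne hε0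
  refine ⟨β, ge_oneMod_of_close r _ (fun i => ?_)⟩
  have hpl : lgPlace r ((j (lgPlaceOver r i)).comp (algebraMap K E)) = lgPlace r i := by
    rw [hjpl]
    rfl
  obtain ⟨τ, hτ⟩ := (lgPlace_eq_iff r _ _).1 hpl
  rw [hτ]
  change ‖τ (((j (lgPlaceOver r i)).comp (algebraMap K E)) _) - 1‖ < _
  rw [geca_close_map]
  refine geca_local r (j (lgPlaceOver r i)) (T (lgPlaceOver r i)) (hT (lgPlaceOver r i)) a
    (Yt (lgPlaceOver r i)) (hprod (lgPlaceOver r i)) β hε0 hε1 (fun t ht => ?_)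
  exact hβ ⟨lgPlaceOver r i, ⟨t, ht⟩⟩

end CycApprox

end Fermat.Agent.S55
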