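/-
S55 / GLOBAL / RECIP, leaf GE-A1 `Recip/Loc.lean`: abstract localisation of global `2`-cochains
(sections A1, A1Square of `LocSpec.lean`) and the global inflation-restriction statements
(section Descent of `Spec.lean`).  Helper names are prefixed `gel`.
-/
import Fermat.Agent.S55.Global.Recip.Defs
import Fermat.Agent.S55.LocalBrauerUgly

set_option autoImplicit false
set_option linter.unusedSectionVars false
set_option linter.unusedVariables false
set_option linter.style.haveILetI false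

noncomputable section

namespace Fermat.Agent.S55

open NumberField IsDedekindDomain groupCohomology

/-! ## GE-A1 : abstract localisation (pure field theory + CohomSpec) -/

section A1

variable {K L : Type} [Field K] [Field L] [Algebra K L] [FiniteDimensional K L]
  {Kv Lw : Type} [Field Kv] [Field Lw] [Algebra Kv Lw]

/-- existence of the restriction of a local automorphism to the normal extension `L/K` -/
theorem gel_exists_res [Normal K L] (ι : L →+* Lw)
    (hι : ∀ x : K, ι (algebraMap K L x) ∈ Set.range (algebraMap Kv Lw))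
    (σ : Lw ≃ₐ[Kv] Lw) : ∃ g : L ≃ₐ[K] L, ∀ x, ι (g x) = σ (ι x) := by
  letI algKLw : Algebra K Lw := (ι.comp (algebraMap K L)).toAlgebra
  letI algLLw : Algebra L Lw := ι.toAlgebra
  haveI : IsScalarTower K L Lw := IsScalarTower.of_algebraMap_eq (fun _ => rfl)
  have hfix : ∀ x : K, σ (algebraMap K Lw x) = algebraMap K Lw x := by
    intro x
    obtain ⟨y, hy⟩ := hι x
    change σ (ι (algebraMap K L x)) = ι (algebraMap K L x)
    rw [← hy]
    exact σ.commutes y
  let σK : Lw ≃ₐ[K] Lw := { σ.toRingEquiv with commutes' := hfix }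
  refine ⟨σK.restrictNormal L, fun x => ?_⟩
  exact AlgEquiv.restrictNormal_commutes σK L x

/-- For NORMAL `L/K`: every `Kv`-automorphism `σ` of `Lw` restricts to `L` along `ι`, provided
`ι` maps `K` into (the image of) `Kv`. -/
theorem geRes_spec [Normal K L] (ι : L →+* Lw)
    (hι : ∀ x : K, ι (algebraMap K L x) ∈ Set.range (algebraMap Kv Lw))
    (σ : Lw ≃ₐ[Kv] Lw) (x : L) : ι (geRes (K := K) ι σ x) = σ (ι x) :=
  geRes_spec_of_exists ι σ (gel_exists_res ι hι σ) x

theorem gel_geRes_mul [Normal K L] (ι : L →+* Lw)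
    (hι : ∀ x : K, ι (algebraMap K L x) ∈ Set.range (algebraMap Kv Lw))
    (σ τ : Lw ≃ₐ[Kv] Lw) :
    geRes (K := K) ι (σ * τ) = geRes (K := K) ι σ * geRes (K := K) ι τ := by
  apply geRes_eq_of_spec
  intro x
  rw [AlgEquiv.mul_apply, geRes_spec ι hι, geRes_spec ι hι, AlgEquiv.mul_apply]

/-- `geRes` as a monoid hom (definition) -/
def gelResHom [Normal K L] (ι : L →+* Lw)
    (hι : ∀ x : K, ι (algebraMap K L x) ∈ Set.range (algebraMap Kv Lw)) :
    (Lw ≃ₐ[Kv] Lw) →* (L ≃ₐ[K] L) :=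
  MonoidHom.mk' (geRes (K := K) ι) (gel_geRes_mul ι hι)

theorem gelResHom_apply [Normal K L] (ι : L →+* Lw)
    (hι : ∀ x : K, ι (algebraMap K L x) ∈ Set.range (algebraMap Kv Lw)) (σ : Lw ≃ₐ[Kv] Lw) :
    gelResHom (K := K) ι hι σ = geRes (K := K) ι σ := rfl

/-- `geRes` as a monoid hom. -/
theorem ge_exists_resHom [Normal K L] (ι : L →+* Lw)
    (hι : ∀ x : K, ι (algebraMap K L x) ∈ Set.range (algebraMap Kv Lw)) :
    ∃ r : (Lw ≃ₐ[Kv] Lw) →* (L ≃ₐ[K] L),
      (∀ σ, r σ = geRes (K := K) ι σ) ∧ ∀ σ x, ι (r σ x) = σ (ι x) :=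
  ⟨gelResHom ι hι, fun _ => rfl, fun σ x => geRes_spec ι hι σ x⟩

/-- `geRes` is injective when `Lw` is generated by `ι L` over `Kv`. -/
theorem geRes_injective [Normal K L] (ι : L →+* Lw)
    (hι : ∀ x : K, ι (algebraMap K L x) ∈ Set.range (algebraMap Kv Lw))
    (hgen : IntermediateField.adjoin Kv (Set.range ι) = ⊤) :
    Function.Injective (geRes (K := K) (Kv := Kv) ι) := by
  intro σ τ h
  have h1 : ∀ x : L, σ (ι x) = τ (ι x) := by
    intro x
    rw [← geRes_spec (K := K) ι hι σ x, ← geRes_spec (K := K) ι hι τ x, h]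
  have key : ∀ y ∈ IntermediateField.adjoin Kv (Set.range ι), σ y = τ y := by
    intro y hy
    induction hy using IntermediateField.adjoin_induction with
    | mem x hx =>
      obtain ⟨z, rfl⟩ := hx
      exact h1 z
    | algebraMap x => rw [σ.commutes, τ.commutes]
    | add x y _ _ hx hy => rw [map_add, map_add, hx, hy]
    | inv x _ hx => rw [map_inv₀, map_inv₀, hx]
    | mul x y _ _ hx hy => rw [map_mul, map_mul, hx, hy]
  apply AlgEquiv.ext
  intro y
  exact key y (by rw [hgen]; exact IntermediateField.mem_top)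

theorem gel_equivariant [Normal K L] (ι : L →+* Lw)
    (hι : ∀ x : K, ι (algebraMap K L x) ∈ Set.range (algebraMap Kv Lw))
    (g : Lw ≃ₐ[Kv] Lw) (x : Lˣ) :
    Units.map (ι : L →* Lw) (gelResHom (K := K) ι hι g • x) = g • Units.map (ι : L →* Lw) x := by
  apply Units.ext
  simp only [Units.coe_map, MonoidHom.coe_coe]
  exact geRes_spec ι hι g x

theorem gel_geLoc_eq [Normal K L] (ι : L →+* Lw)
    (hι : ∀ x : K, ι (algebraMap K L x) ∈ Set.range (algebraMap Kv Lw))
    (c : (L ≃ₐ[K] L) × (L ≃ₐ[K] L) → Lˣ) :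
    geLoc (Kv := Kv) ι c = pullCochain₂ (gelResHom (K := K) ι hι) (Units.map (ι : L →* Lw)) c :=
  rfl

theorem geLoc_isMulCocycle₂ [Normal K L] (ι : L →+* Lw)
    (hι : ∀ x : K, ι (algebraMap K L x) ∈ Set.range (algebraMap Kv Lw))
    (c : (L ≃ₐ[K] L) × (L ≃ₐ[K] L) → Lˣ) (hc : IsMulCocycle₂ c) :
    IsMulCocycle₂ (geLoc (Kv := Kv) ι c) := by
  rw [gel_geLoc_eq ι hι]
  exact pullCochain₂_isMulCocycle₂ (gelResHom (K := K) ι hι) (Units.map (ι : L →* Lw))
    (gel_equivariant ι hι) c hc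

theorem geLoc_isMulCoboundary₂ [Normal K L] (ι : L →+* Lw)
    (hι : ∀ x : K, ι (algebraMap K L x) ∈ Set.range (algebraMap Kv Lw))
    (c : (L ≃ₐ[K] L) × (L ≃ₐ[K] L) → Lˣ) (hc : IsMulCoboundary₂ c) :
    IsMulCoboundary₂ (geLoc (Kv := Kv) ι c) := by
  rw [gel_geLoc_eq ι hι]
  exact pullCochain₂_isMulCoboundary₂ (gelResHom (K := K) ι hι) (Units.map (ι : L →* Lw))
    (gel_equivariant ι hι) c hc

end A1

section A1Square

/-! Compatibility of localisation with base change `lfBC` (inflation: `K' = K`; restriction: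
`M = L`) for a commutative square of global fields over a commutative square of local fields. -/

variable {K L K' M : Type} [Field K] [Field L] [Field K'] [Field M]
  [Algebra K L] [Algebra K K'] [Algebra L M] [Algebra K' M] [Algebra K M]
  [IsScalarTower K L M] [IsScalarTower K K' M] [FiniteDimensional K L] [FiniteDimensional K' M]
  {Kv Lw K'v Mw : Type} [Field Kv] [Field Lw] [Field K'v] [Field Mw]
  [Algebra Kv Lw] [Algebra Kv K'v] [Algebra Lw Mw] [Algebra K'v Mw] [Algebra Kv Mw]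
  [IsScalarTower Kv Lw Mw] [IsScalarTower Kv K'v Mw]

/-- the two ways of restricting `σ ∈ Gal(Mw/K'v)` to `Gal(L/K)` agree -/
theorem gel_res_square [Normal K L] [Normal K' M] [Normal Kv Lw] (ιL : L →+* Lw) (ιM : M →+* Mw)
    (hLM : ∀ x : L, ιM (algebraMap L M x) = algebraMap Lw Mw (ιL x))
    (hK' : ∀ x : K', ιM (algebraMap K' M x) ∈ Set.range (algebraMap K'v Mw))
    (σ : Mw ≃ₐ[K'v] Mw) :
    geRes (K := K) (Kv := Kv) ιL (lfGalRes Kv Lw K'v Mw σ) =
      lfGalRes K L K' M (geRes (K := K') (Kv := K'v) ιM σ) := by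
  apply geRes_eq_of_spec
  intro x
  apply (algebraMap Lw Mw).injective
  rw [← hLM, lfGalRes_commutes K L K' M, geRes_spec (K := K') ιM hK' σ, hLM,
    lfGalRes_commutes Kv Lw K'v Mw]

theorem geLoc_lfBC [Normal K L] [Normal K' M] [Normal Kv Lw] (ιL : L →+* Lw) (ιM : M →+* Mw)
    (hLM : ∀ x : L, ιM (algebraMap L M x) = algebraMap Lw Mw (ιL x))
    (hK : ∀ x : K, ιL (algebraMap K L x) ∈ Set.range (algebraMap Kv Lw))
    (hK' : ∀ x : K', ιM (algebraMap K' M x) ∈ Set.range (algebraMap K'v Mw))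
    (c : (L ≃ₐ[K] L) × (L ≃ₐ[K] L) → Lˣ) :
    geLoc (K := K') (Kv := K'v) ιM (lfBC K L K' M c) =
      lfBC Kv Lw K'v Mw (geLoc (K := K) (Kv := Kv) ιL c) := by
  funext p
  obtain ⟨σ, τ⟩ := p
  rw [geLoc_apply, lfBC_apply, lfBC_apply, geLoc_apply, gel_res_square ιL ιM hLM hK' σ,
    gel_res_square ιL ιM hLM hK' τ]
  apply Units.ext
  simp only [Units.coe_map, MonoidHom.coe_coe]
  exact hLM _

end A1Square

/-! ## Section Descent of `Spec.lean`: global inflation-restriction -/

section Descent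

variable (K E M : Type) [Field K] [Field E] [Field M] [Algebra K E] [Algebra E M] [Algebra K M]
  [IsScalarTower K E M] [FiniteDimensional K M]

theorem gel_lfGalRes_self [Normal K M] (σ : M ≃ₐ[K] M) : lfGalRes K M K M σ = σ := by
  apply AlgEquiv.ext
  intro x
  exact lfGalRes_commutes K M K M σ x

theorem gel_lfBC_self [Normal K M] (c : (M ≃ₐ[K] M) × (M ≃ₐ[K] M) → Mˣ) :
    lfBC K M K M c = c := by
  funext p
  obtain ⟨σ, τ⟩ := p
  rw [lfBC_apply, gel_lfGalRes_self, gel_lfGalRes_self]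
  exact Units.ext rfl

/-- If the restriction to `M/E` of a cocycle of `M/K` is a coboundary, the cocycle is cohomologous
to an inflated one (CO-b + Hilbert 90; global copy of `lbu_exists_descent`). -/
theorem ge_exists_descent [IsGalois K E] [IsGalois K M]
    (c : (M ≃ₐ[K] M) × (M ≃ₐ[K] M) → Mˣ) (hc : IsMulCocycle₂ c)
    (h : IsMulCoboundary₂ (lfBC K M E M c)) :
    ∃ y : (E ≃ₐ[K] E) × (E ≃ₐ[K] E) → Eˣ, IsMulCocycle₂ y ∧
      IsMulCoboundary₂ (c / lfBC K E K M y) := by
  have hres := lbu_restrict_ker K M E M c h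
  rw [gel_lfBC_self] at hres
  exact exists_pullCochain₂_of_restrict (lfGalRes K E K M) (lbu_lfGalRes_surjective K E M)
    (Units.map (algebraMap E M : E →* M)) (Units.map_injective (algebraMap E M).injective)
    (lbu_equivariant K E K M) (lbu_fixed K E M)
    (fun f hf => lfo_hilbert90 (lfGalRes K E K M).ker f hf) c hc hres

/-- Global inflation is injective on classes. -/
theorem ge_inflation_injective [IsGalois K E] [IsGalois K M]
    (y : (E ≃ₐ[K] E) × (E ≃ₐ[K] E) → Eˣ) (hy : IsMulCocycle₂ y)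
    (h : IsMulCoboundary₂ (lfBC K E K M y)) : IsMulCoboundary₂ y :=
  isMulCoboundary₂_of_pullCochain₂ (lfGalRes K E K M) (lbu_lfGalRes_surjective K E M)
    (Units.map (algebraMap E M : E →* M)) (Units.map_injective (algebraMap E M).injective)
    (lbu_equivariant K E K M) (lbu_fixed K E M)
    (fun f hf => lfo_hilbert90 (lfGalRes K E K M).ker f hf) y hy h

end Descent

end Fermat.Agent.S55
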