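/-
S55 / GLOBAL / RECIP, leaf GE-A2 `Recip/LocLG.lean`: localisation at `q`-adic embeddings
(exact statements of `LocLGSpec.lean`, sections A2 + A2Tower).  Complete (no holes).
Black boxes: `LocSpec` (A1: `ge_exists_resHom`, `geRes_injective`, `geLoc_isMulCocycle₂`,
`geLoc_isMulCoboundary₂`, `geLoc_lfBC`), `LocalInv` API.  Real: `LG/Dense.lean` (`lg_isGalois`).
Helper names carry the prefix `lgtow`.
-/
import Fermat.Agent.S55.Global.Recip.LocSpec
import Fermat.Agent.S55.LG.Dense

set_option autoImplicit false
set_option linter.unusedSectionVars false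
set_option linter.unusedVariables false
set_option linter.style.haveILetI false

noncomputable section

namespace Fermat.Agent.S55

open NumberField IsDedekindDomain groupCohomology

section A2

variable (q : ℕ) [Fact q.Prime] {K L : Type} [Field K] [NumberField K] [Field L] [NumberField L]
  [Algebra K L]

theorem lgEmb_algebraMap_mem_range (j : L →+* PadicAlgCl q) (x : K) :
    lgEmb q j (algebraMap K L x) ∈
      Set.range (algebraMap (lgField q (j.comp (algebraMap K L))) (lgField q j)) :=
  ⟨lgEmb q (j.comp (algebraMap K L)) x, (lgEmb_algebraMap q j x).symm⟩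

theorem lgField_adjoin_range_eq_top (j : L →+* PadicAlgCl q) :
    IntermediateField.adjoin (lgField q (j.comp (algebraMap K L))) (Set.range (lgEmb q j)) = ⊤ := by
  set M := IntermediateField.adjoin (lgField q (j.comp (algebraMap K L)))
    (Set.range (lgEmb q j)) with hM
  rw [eq_top_iff]
  intro z _
  let M' : IntermediateField ℚ_[q] (PadicAlgCl q) :=
    (M.restrictScalars ℚ_[q]).map (lgField q j).val
  have hle : lgField q j ≤ M' := by
    rw [lgField, IntermediateField.adjoin_le_iff]
    rintro _ ⟨y, rfl⟩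
    exact ⟨lgEmb q j y, IntermediateField.subset_adjoin _ _ ⟨y, rfl⟩, rfl⟩
  obtain ⟨z', hz', hzz'⟩ := hle z.2
  have : z' = z := Subtype.ext hzz'
  rw [← this]
  exact hz'

/-- The restriction map `Gal(L_j/K_j) → Gal(L/K)` as an injective monoid hom. -/
theorem ge_exists_resHomLG [IsGalois K L] (j : L →+* PadicAlgCl q) :
    ∃ r : (lgField q j ≃ₐ[lgField q (j.comp (algebraMap K L))] lgField q j) →* (L ≃ₐ[K] L),
      (∀ σ, r σ = geRes (K := K) (lgEmb q j) σ) ∧ (∀ σ x, lgEmb q j (r σ x) = σ (lgEmb q j x)) ∧
      Function.Injective r := by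
  obtain ⟨r, hr1, hr2⟩ := ge_exists_resHom (K := K) (Kv := lgField q (j.comp (algebraMap K L)))
    (lgEmb q j) (lgEmb_algebraMap_mem_range q j)
  refine ⟨r, hr1, hr2, ?_⟩
  have hinj := geRes_injective (K := K) (Kv := lgField q (j.comp (algebraMap K L)))
    (lgEmb q j) (lgEmb_algebraMap_mem_range q j) (lgField_adjoin_range_eq_top q j)
  intro σ τ h
  apply hinj
  rw [← hr1, ← hr1, h]

theorem geLocLG_isMulCocycle₂ [IsGalois K L] (j : L →+* PadicAlgCl q)
    (c : (L ≃ₐ[K] L) × (L ≃ₐ[K] L) → Lˣ) (hc : IsMulCocycle₂ c) :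
    IsMulCocycle₂ (geLocLG q j c) :=
  geLoc_isMulCocycle₂ (K := K) (Kv := lgField q (j.comp (algebraMap K L)))
    (lgEmb q j) (lgEmb_algebraMap_mem_range q j) c hc

theorem geLocLG_isMulCoboundary₂ [IsGalois K L] (j : L →+* PadicAlgCl q)
    (c : (L ≃ₐ[K] L) × (L ≃ₐ[K] L) → Lˣ) (hc : IsMulCoboundary₂ c) :
    IsMulCoboundary₂ (geLocLG q j c) :=
  geLoc_isMulCoboundary₂ (K := K) (Kv := lgField q (j.comp (algebraMap K L)))
    (lgEmb q j) (lgEmb_algebraMap_mem_range q j) c hc

theorem geInv_mul [IsGalois K L] (j : L →+* PadicAlgCl q)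
    {c c' : (L ≃ₐ[K] L) × (L ≃ₐ[K] L) → Lˣ} (hc : IsMulCocycle₂ c) (hc' : IsMulCocycle₂ c') :
    geInv q j (c * c') = geInv q j c + geInv q j c' := by
  haveI : IsGalois (lgField q (j.comp (algebraMap K L))) (lgField q j) := lg_isGalois q j
  unfold geInv geLocLG
  rw [geLoc_mul]
  exact localInv_mul q _ _ (geLocLG_isMulCocycle₂ q j c hc) (geLocLG_isMulCocycle₂ q j c' hc')

theorem geInv_eq_zero_iff [IsGalois K L] (j : L →+* PadicAlgCl q)
    {c : (L ≃ₐ[K] L) × (L ≃ₐ[K] L) → Lˣ} (hc : IsMulCocycle₂ c) :
    geInv q j c = 0 ↔ IsMulCoboundary₂ (geLocLG q j c) := by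
  haveI : IsGalois (lgField q (j.comp (algebraMap K L))) (lgField q j) := lg_isGalois q j
  exact localInv_eq_zero_iff q _ _ (geLocLG_isMulCocycle₂ q j c hc)

/-- Cohomologous global cocycles have the same local invariants. -/
theorem geInv_eq_of_isMulCoboundary₂_div [IsGalois K L] (j : L →+* PadicAlgCl q)
    {c c' : (L ≃ₐ[K] L) × (L ≃ₐ[K] L) → Lˣ} (hc : IsMulCocycle₂ c) (hc' : IsMulCocycle₂ c')
    (h : IsMulCoboundary₂ (c / c')) : geInv q j c = geInv q j c' := by
  haveI : IsGalois (lgField q (j.comp (algebraMap K L))) (lgField q j) := lg_isGalois q j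
  apply localInv_eq_of_div q _ _ (geLocLG_isMulCocycle₂ q j c' hc')
  have := geLocLG_isMulCoboundary₂ q j (c / c') h
  unfold geLocLG at this ⊢
  rwa [geLoc_div] at this

/-- The local degree divides the global degree, hence `[L:K]` kills the local invariants. -/
theorem lg_finrank_dvd [IsGalois K L] (j : L →+* PadicAlgCl q) :
    Module.finrank (lgField q (j.comp (algebraMap K L))) (lgField q j) ∣ Module.finrank K L := by
  haveI : IsGalois (lgField q (j.comp (algebraMap K L))) (lgField q j) := lg_isGalois q j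
  obtain ⟨r, -, -, hinj⟩ := ge_exists_resHomLG (K := K) q j
  rw [← IsGalois.card_aut_eq_finrank, ← IsGalois.card_aut_eq_finrank]
  exact Subgroup.card_dvd_of_injective r hinj

theorem geInv_nsmul [IsGalois K L] (j : L →+* PadicAlgCl q)
    {c : (L ≃ₐ[K] L) × (L ≃ₐ[K] L) → Lˣ} (hc : IsMulCocycle₂ c) :
    Module.finrank K L • geInv q j c = 0 := by
  haveI : IsGalois (lgField q (j.comp (algebraMap K L))) (lgField q j) := lg_isGalois q j
  obtain ⟨m, hm⟩ := lg_finrank_dvd (K := K) q j
  rw [hm, mul_comm, mul_smul]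
  unfold geInv
  rw [localInv_nsmul q _ _ (geLocLG_isMulCocycle₂ q j c hc), smul_zero]

end A2

section Incl

variable (q : ℕ) [Fact q.Prime]

/-- The inclusion algebra between two intermediate fields of `PadicAlgCl q / ℚ_q` (NOT an
instance). -/
abbrev lgtowAlgebra {A B : IntermediateField ℚ_[q] (PadicAlgCl q)} (h : A ≤ B) : Algebra A B :=
  (IntermediateField.inclusion h).toRingHom.toAlgebra

theorem lgtow_algebraMap_coe {A B : IntermediateField ℚ_[q] (PadicAlgCl q)} (h : A ≤ B) (x : A) :
    letI := lgtowAlgebra q h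
    ((algebraMap A B x : B) : PadicAlgCl q) = (x : PadicAlgCl q) := rfl

theorem lgtow_isScalarTower_base {A B : IntermediateField ℚ_[q] (PadicAlgCl q)} (h : A ≤ B) :
    letI := lgtowAlgebra q h
    IsScalarTower ℚ_[q] A B := by
  letI := lgtowAlgebra q h
  exact IsScalarTower.of_algebraMap_eq (fun x => Subtype.ext rfl)

theorem lgtow_isScalarTower {A B C : IntermediateField ℚ_[q] (PadicAlgCl q)} (hAB : A ≤ B)
    (hBC : B ≤ C) :
    letI := lgtowAlgebra q hAB
    letI := lgtowAlgebra q hBC
    letI := lgtowAlgebra q (hAB.trans hBC)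
    IsScalarTower A B C := by
  letI := lgtowAlgebra q hAB
  letI := lgtowAlgebra q hBC
  letI := lgtowAlgebra q (hAB.trans hBC)
  exact IsScalarTower.of_algebraMap_eq (fun x => Subtype.ext rfl)

theorem lgtow_finrank_eq_one {A B : IntermediateField ℚ_[q] (PadicAlgCl q)} (h : A = B) :
    letI := lgtowAlgebra q (le_of_eq h)
    Module.finrank A B = 1 := by
  subst h
  letI := lgtowAlgebra q (le_refl A)
  have : (algebraMap A A) = RingHom.id A := by
    ext x
    rfl
  exact Module.finrank_self A

end Incl


section A2Tower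

variable (q : ℕ) [Fact q.Prime] {K E M : Type} [Field K] [NumberField K] [Field E] [NumberField E]
  [Field M] [NumberField M] [Algebra K E] [Algebra E M] [Algebra K M] [IsScalarTower K E M]

theorem lgtow_comp_eq (J : M →+* PadicAlgCl q) :
    (J.comp (algebraMap E M)).comp (algebraMap K E) = J.comp (algebraMap K M) := by
  ext x
  simp only [RingHom.comp_apply]
  rw [← IsScalarTower.algebraMap_apply K E M]

theorem lgtow_field_eq (J : M →+* PadicAlgCl q) :
    lgField q ((J.comp (algebraMap E M)).comp (algebraMap K E)) =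
      lgField q (J.comp (algebraMap K M)) := by
  rw [lgtow_comp_eq]

theorem lgtow_field_le (J : M →+* PadicAlgCl q) :
    lgField q (J.comp (algebraMap K M)) ≤ lgField q (J.comp (algebraMap E M)) := by
  rw [← lgtow_field_eq (K := K) (E := E) q J]
  exact lgField_comp_le q (J.comp (algebraMap E M))

/-- INFLATION: for `K ⊆ E ⊆ M` with `E/K`, `M/K` Galois, a cocycle `c` of `E/K` and an embedding
`J` of `M`: the invariant at `J` of the inflation of `c` is the invariant of `c` at `J|_E`. -/
theorem geInv_inflation [IsGalois K E] [IsGalois K M] (J : M →+* PadicAlgCl q)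
    {c : (E ≃ₐ[K] E) × (E ≃ₐ[K] E) → Eˣ} (hc : IsMulCocycle₂ c) :
    geInv q J (lfBC K E K M c) = geInv q (J.comp (algebraMap E M)) c := by
  -- the local square `K' ⊆ E_J ⊆ M_J`, `K' ⊆ K_J ⊆ M_J` with `K' = K_J`
  have hK'K := lgtow_field_eq (K := K) (E := E) q J
  have hK'E := lgField_comp_le (K := K) q (J.comp (algebraMap E M))
  have hEM := lgField_comp_le (K := E) q J
  have hKM := lgField_comp_le (K := K) q J
  letI iKK : Algebra (lgField q ((J.comp (algebraMap E M)).comp (algebraMap K E)))
      (lgField q (J.comp (algebraMap K M))) := lgtowAlgebra q (le_of_eq hK'K)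
  letI iKM : Algebra (lgField q ((J.comp (algebraMap E M)).comp (algebraMap K E)))
      (lgField q J) := lgtowAlgebra q (hK'E.trans hEM)
  haveI t1 : IsScalarTower (lgField q ((J.comp (algebraMap E M)).comp (algebraMap K E)))
      (lgField q (J.comp (algebraMap E M))) (lgField q J) := lgtow_isScalarTower q hK'E hEM
  haveI t2 : IsScalarTower (lgField q ((J.comp (algebraMap E M)).comp (algebraMap K E)))
      (lgField q (J.comp (algebraMap K M))) (lgField q J) :=
    lgtow_isScalarTower q (le_of_eq hK'K) hKM
  haveI t3 : IsScalarTower ℚ_[q] (lgField q ((J.comp (algebraMap E M)).comp (algebraMap K E)))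
      (lgField q (J.comp (algebraMap K M))) := lgtow_isScalarTower_base q (le_of_eq hK'K)
  haveI t4 : IsScalarTower ℚ_[q] (lgField q ((J.comp (algebraMap E M)).comp (algebraMap K E)))
      (lgField q J) := lgtow_isScalarTower_base q (hK'E.trans hEM)
  haveI g1 : IsGalois (lgField q ((J.comp (algebraMap E M)).comp (algebraMap K E)))
      (lgField q (J.comp (algebraMap E M))) := lg_isGalois q (J.comp (algebraMap E M))
  haveI g2 : IsGalois (lgField q (J.comp (algebraMap K M))) (lgField q J) := lg_isGalois q J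
  have key := geLoc_lfBC (K := K) (L := E) (K' := K) (M := M)
    (Kv := lgField q ((J.comp (algebraMap E M)).comp (algebraMap K E)))
    (Lw := lgField q (J.comp (algebraMap E M)))
    (K'v := lgField q (J.comp (algebraMap K M))) (Mw := lgField q J)
    (lgEmb q (J.comp (algebraMap E M))) (lgEmb q J)
    (fun x => lgEmb_algebraMap q J x)
    (fun x => ⟨lgEmb q ((J.comp (algebraMap E M)).comp (algebraMap K E)) x,
      (lgEmb_algebraMap q (J.comp (algebraMap E M)) x).symm⟩)
    (fun x => ⟨lgEmb q (J.comp (algebraMap K M)) x, (lgEmb_algebraMap q J x).symm⟩) c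
  have hcoc : IsMulCocycle₂ (geLoc (K := K)
      (Kv := lgField q ((J.comp (algebraMap E M)).comp (algebraMap K E)))
      (lgEmb q (J.comp (algebraMap E M))) c) :=
    geLoc_isMulCocycle₂ (K := K)
      (Kv := lgField q ((J.comp (algebraMap E M)).comp (algebraMap K E)))
      (lgEmb q (J.comp (algebraMap E M)))
      (fun x => ⟨lgEmb q ((J.comp (algebraMap E M)).comp (algebraMap K E)) x,
      (lgEmb_algebraMap q (J.comp (algebraMap E M)) x).symm⟩) c hc
  have hbc := localInv_baseChange q
    (lgField q ((J.comp (algebraMap E M)).comp (algebraMap K E)))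
    (lgField q (J.comp (algebraMap E M))) (lgField q (J.comp (algebraMap K M))) (lgField q J) hcoc
  unfold geInv geLocLG
  rw [key, hbc, lgtow_finrank_eq_one q hK'K, one_smul]


/-- Localisation commutes with inflation up to the (equal) base fields; coboundary form. -/
theorem geLocLG_inflation_isMulCoboundary₂_iff [IsGalois K E] [IsGalois K M]
    (J : M →+* PadicAlgCl q) {c : (E ≃ₐ[K] E) × (E ≃ₐ[K] E) → Eˣ} (hc : IsMulCocycle₂ c) :
    IsMulCoboundary₂ (geLocLG q J (lfBC K E K M c)) ↔
      IsMulCoboundary₂ (geLocLG q (J.comp (algebraMap E M)) c) := by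
  have hbc : IsMulCocycle₂ (lfBC K E K M c) := lfinv_BC_coc K E K M c hc
  rw [← geInv_eq_zero_iff q J hbc, ← geInv_eq_zero_iff q (J.comp (algebraMap E M)) hc,
    geInv_inflation q J hc]

/-- The square used for restriction: `geLoc` commutes with `lfBC K M E M`. -/
theorem lgtow_geLoc_restriction [IsGalois K M] (J : M →+* PadicAlgCl q)
    (c : (M ≃ₐ[K] M) × (M ≃ₐ[K] M) → Mˣ) :
    letI : Algebra (lgField q (J.comp (algebraMap K M))) (lgField q (J.comp (algebraMap E M))) :=
      lgtowAlgebra q (lgtow_field_le q J)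
    haveI : IsScalarTower (lgField q (J.comp (algebraMap K M)))
        (lgField q (J.comp (algebraMap E M))) (lgField q J) :=
      lgtow_isScalarTower q (lgtow_field_le q J) (lgField_comp_le (K := E) q J)
    haveI : Normal (lgField q (J.comp (algebraMap K M))) (lgField q J) :=
      (lg_isGalois (K := K) q J).to_normal
    geLocLG (K := E) q J (lfBC K M E M c) =
      lfBC (lgField q (J.comp (algebraMap K M))) (lgField q J)
        (lgField q (J.comp (algebraMap E M))) (lgField q J) (geLocLG (K := K) q J c) := by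
  letI : Algebra (lgField q (J.comp (algebraMap K M))) (lgField q (J.comp (algebraMap E M))) :=
    lgtowAlgebra q (lgtow_field_le q J)
  haveI : IsScalarTower (lgField q (J.comp (algebraMap K M)))
      (lgField q (J.comp (algebraMap E M))) (lgField q J) :=
    lgtow_isScalarTower q (lgtow_field_le q J) (lgField_comp_le (K := E) q J)
  haveI : IsGalois (lgField q (J.comp (algebraMap K M))) (lgField q J) := lg_isGalois q J
  haveI : IsGalois E M := IsGalois.tower_top_of_isGalois K E M
  exact geLoc_lfBC (K := K) (L := M) (K' := E) (M := M)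
    (Kv := lgField q (J.comp (algebraMap K M))) (Lw := lgField q J)
    (K'v := lgField q (J.comp (algebraMap E M))) (Mw := lgField q J)
    (lgEmb q J) (lgEmb q J) (fun x => rfl)
    (fun x => ⟨lgEmb q (J.comp (algebraMap K M)) x, (lgEmb_algebraMap q J x).symm⟩)
    (fun x => ⟨lgEmb q (J.comp (algebraMap E M)) x, (lgEmb_algebraMap q J x).symm⟩) c

/-- RESTRICTION: for `K ⊆ E ⊆ M` with `M/K` Galois, a cocycle `c` of `M/K` and an embedding `J`
of `M`: the invariant at `J` of the restriction of `c` to `M/E` is `[E_J : K_J]` times the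
invariant of `c` (local degree written with absolute degrees over `ℚ_q`). -/
theorem geInv_restriction [IsGalois K M] (J : M →+* PadicAlgCl q)
    {c : (M ≃ₐ[K] M) × (M ≃ₐ[K] M) → Mˣ} (hc : IsMulCocycle₂ c) :
    geInv (K := E) q J (lfBC K M E M c) =
      (Module.finrank ℚ_[q] (lgField q (J.comp (algebraMap E M))) /
        Module.finrank ℚ_[q] (lgField q (J.comp (algebraMap K M)))) • geInv (K := K) q J c := by
  letI : Algebra (lgField q (J.comp (algebraMap K M))) (lgField q (J.comp (algebraMap E M))) :=
    lgtowAlgebra q (lgtow_field_le q J)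
  haveI : IsScalarTower (lgField q (J.comp (algebraMap K M)))
      (lgField q (J.comp (algebraMap E M))) (lgField q J) :=
    lgtow_isScalarTower q (lgtow_field_le q J) (lgField_comp_le (K := E) q J)
  haveI : IsScalarTower ℚ_[q] (lgField q (J.comp (algebraMap K M)))
      (lgField q (J.comp (algebraMap E M))) := lgtow_isScalarTower_base q (lgtow_field_le q J)
  haveI : IsGalois (lgField q (J.comp (algebraMap K M))) (lgField q J) := lg_isGalois q J
  haveI : IsGalois E M := IsGalois.tower_top_of_isGalois K E M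
  haveI : IsGalois (lgField q (J.comp (algebraMap E M))) (lgField q J) := lg_isGalois q J
  have hcoc : IsMulCocycle₂ (geLocLG (K := K) q J c) := geLocLG_isMulCocycle₂ q J c hc
  have hbc := localInv_baseChange q (lgField q (J.comp (algebraMap K M))) (lgField q J)
    (lgField q (J.comp (algebraMap E M))) (lgField q J) hcoc
  have hdeg : Module.finrank (lgField q (J.comp (algebraMap K M)))
      (lgField q (J.comp (algebraMap E M))) =
      Module.finrank ℚ_[q] (lgField q (J.comp (algebraMap E M))) /
        Module.finrank ℚ_[q] (lgField q (J.comp (algebraMap K M))) := by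
    have h1 := Module.finrank_mul_finrank ℚ_[q] (lgField q (J.comp (algebraMap K M)))
      (lgField q (J.comp (algebraMap E M)))
    have hpos : 0 < Module.finrank ℚ_[q] (lgField q (J.comp (algebraMap K M))) :=
      Module.finrank_pos
    rw [← h1, Nat.mul_div_cancel_left _ hpos]
  unfold geInv
  rw [lgtow_geLoc_restriction q J c, hbc, hdeg]

theorem geLocLG_restriction_isMulCoboundary₂ [IsGalois K M] (J : M →+* PadicAlgCl q)
    {c : (M ≃ₐ[K] M) × (M ≃ₐ[K] M) → Mˣ} (hc : IsMulCocycle₂ c)
    (h : IsMulCoboundary₂ (geLocLG (K := K) q J c)) :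
    IsMulCoboundary₂ (geLocLG (K := E) q J (lfBC K M E M c)) := by
  haveI : IsGalois E M := IsGalois.tower_top_of_isGalois K E M
  have hbc : IsMulCocycle₂ (lfBC K M E M c) := lfinv_BC_coc K M E M c hc
  rw [← geInv_eq_zero_iff (K := E) q J hbc, geInv_restriction q J hc,
    (geInv_eq_zero_iff (K := K) q J hc).mpr h, smul_zero]

/-- The local degree of `E/K` at `J|_E`, in absolute terms. -/
theorem lg_finrank_eq_div (J : M →+* PadicAlgCl q) :
    Module.finrank (lgField q ((J.comp (algebraMap E M)).comp (algebraMap K E)))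
        (lgField q (J.comp (algebraMap E M))) =
      Module.finrank ℚ_[q] (lgField q (J.comp (algebraMap E M))) /
        Module.finrank ℚ_[q] (lgField q (J.comp (algebraMap K M))) := by
  have h1 := Module.finrank_mul_finrank ℚ_[q]
    (lgField q ((J.comp (algebraMap E M)).comp (algebraMap K E)))
    (lgField q (J.comp (algebraMap E M)))
  have hpos : 0 < Module.finrank ℚ_[q]
      (lgField q ((J.comp (algebraMap E M)).comp (algebraMap K E))) := Module.finrank_pos
  rw [← lgtow_field_eq (K := K) (E := E) q J, ← h1, Nat.mul_div_cancel_left _ hpos]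

end A2Tower

end Fermat.Agent.S55
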