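/-
S55 / GLOBAL / RECIP, leaf GE-A3 `Recip/LocCyc.lean`: localisation of cyclic cocycles.
Proves the statements of `LocCycSpec.lean` VERBATIM.  Black boxes: `LocLGSpec` (A2:
`ge_exists_resHomLG`, `geLocLG_isMulCocycle₂`), the local layer (`cycCocycle_isMulCoboundary₂_iff_mem_norm`,
`localInv_eq_of_div`, `localInv_unramified`, `mem_zpowers_lfFrob`, `orderOf_lfFrob`), CO-a
(`pullCochain₂_cycCocycle`), LG-A (`lg_isGalois`).  Helper names prefixed `gecyc`.
-/
import Fermat.Agent.S55.Global.Recip.LocLGSpec
import Fermat.Agent.S55.LG.Dense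

set_option autoImplicit false
set_option linter.unusedSectionVars false
set_option linter.unusedVariables false
set_option linter.style.haveILetI false

noncomputable section

namespace Fermat.Agent.S55

open NumberField IsDedekindDomain groupCohomology

/-- In a finite cyclic group `G = ⟨τ⟩`, an injective hom `r : H →* G` has a generator `s` of `H`
with `r s = τ ^ (|G| / |H|)`. -/
theorem gecyc_exists_generator {G H : Type} [Group G] [Finite G] [Group H] [Finite H] (τ : G)
    (hτ : ∀ g : G, g ∈ Subgroup.zpowers τ) (r : H →* G) (hr : Function.Injective r) :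
    ∃ s : H, (∀ h : H, h ∈ Subgroup.zpowers s) ∧ r s = τ ^ (Nat.card G / Nat.card H) := by
  classical
  haveI : Fintype G := Fintype.ofFinite G
  haveI : IsCyclic G := ⟨τ, hτ⟩
  set n := Nat.card G with hn
  set m := Nat.card H with hm
  have hn0 : 0 < n := Nat.card_pos
  have hm0 : 0 < m := Nat.card_pos
  have hoτ : orderOf τ = n := orderOf_eq_card_of_forall_mem_zpowers hτ
  have hcardrange : Nat.card r.range = m := by
    rw [hm]
    exact (Nat.card_congr (MonoidHom.ofInjective hr).toEquiv).symm
  have hmn : m ∣ n := by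
    rw [← hcardrange]
    exact Subgroup.card_subgroup_dvd_card _
  -- the set of elements killed by `m`
  have hA : (Finset.univ.filter (fun g : G => g ^ m = 1)).card ≤ m :=
    IsCyclic.card_pow_eq_one_le hm0
  have hsub : ∀ g ∈ r.range, g ^ m = 1 := by
    rintro _ ⟨h, rfl⟩
    rw [← map_pow, hm, pow_card_eq_one', map_one]
  have ht : (τ ^ (n / m)) ^ m = 1 := by
    rw [← pow_mul, Nat.div_mul_cancel hmn, ← hoτ, pow_orderOf_eq_one]
  have hmem : τ ^ (n / m) ∈ r.range := by
    by_contra hnot
    -- r.range ∪ {t} ⊆ A has m + 1 elements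
    have hfin : Fintype r.range := Fintype.ofFinite _
    have h1 : (Finset.univ.filter (fun g : G => g ∈ r.range)).card = m := by
      rw [← hcardrange, Nat.card_eq_fintype_card, Fintype.card_subtype]
    have h2 : insert (τ ^ (n / m)) (Finset.univ.filter (fun g : G => g ∈ r.range)) ⊆
        Finset.univ.filter (fun g : G => g ^ m = 1) := by
      intro g hg
      rw [Finset.mem_insert] at hg
      rw [Finset.mem_filter]
      refine ⟨Finset.mem_univ _, ?_⟩
      rcases hg with rfl | hg
      · exact ht
      · exact hsub g (Finset.mem_filter.1 hg).2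
    have h3 := Finset.card_le_card h2
    rw [Finset.card_insert_of_notMem (by simpa using hnot), h1] at h3
    omega
  obtain ⟨s, hs⟩ := hmem
  refine ⟨s, ?_, hs⟩
  have hos : orderOf s = m := by
    rw [← orderOf_injective r hr s, hs]
    have hd : n / m ∣ orderOf τ := by
      rw [hoτ]
      exact Nat.div_dvd_of_dvd hmn
    have hne : n / m ≠ 0 := (Nat.div_pos (Nat.le_of_dvd hn0 hmn) hm0).ne'
    rw [orderOf_pow_of_dvd hne hd, hoτ, Nat.div_div_self hmn hn0.ne']
  have htop : Subgroup.zpowers s = ⊤ := by
    apply Subgroup.eq_top_of_card_eq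
    rw [Nat.card_zpowers, hos]
  intro h
  rw [htop]
  exact Subgroup.mem_top h


section A3

variable (q : ℕ) [Fact q.Prime] {K L : Type} [Field K] [NumberField K] [Field L] [NumberField L]
  [Algebra K L]

/-- The image of `a ∈ Kˣ` in `L_j` comes from `K_j`. -/
theorem gecyc_map_units (j : L →+* PadicAlgCl q) (a : Kˣ) :
    Units.map (lgEmb q j : L →* lgField q j) (Units.map (algebraMap K L : K →* L) a) =
      Units.map (algebraMap (lgField q (j.comp (algebraMap K L))) (lgField q j) :
          lgField q (j.comp (algebraMap K L)) →* lgField q j)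
        (Units.map (lgEmb q (j.comp (algebraMap K L)) : K →* lgField q (j.comp (algebraMap K L))) a) := by
  apply Units.ext
  exact lgEmb_algebraMap q j (a : K)

/-- The localisation of `cyc(τ,a)` is cohomologous to `cyc(s, a_j ^ (d |G_j| / |G|))` when
`res s = τ ^ d`, `s` a generator of `G_j`. -/
theorem gecyc_pull [IsGalois K L] (τ : L ≃ₐ[K] L)
    (hτ : ∀ g : L ≃ₐ[K] L, g ∈ Subgroup.zpowers τ) (a : Kˣ) (j : L →+* PadicAlgCl q)
    (s : lgField q j ≃ₐ[lgField q (j.comp (algebraMap K L))] lgField q j)
    (hs : ∀ h, h ∈ Subgroup.zpowers s) (d : ℕ)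
    (hd : geRes (K := K) (lgEmb q j) s = τ ^ d) :
    IsMulCoboundary₂ (geLocLG q j (cycCocycle τ (Units.map (algebraMap K L : K →* L) a)) /
      cycCocycle s (Units.map (algebraMap (lgField q (j.comp (algebraMap K L))) (lgField q j) :
          lgField q (j.comp (algebraMap K L)) →* lgField q j)
        (Units.map (lgEmb q (j.comp (algebraMap K L)) :
          K →* lgField q (j.comp (algebraMap K L))) a ^
          (d * Nat.card (lgField q j ≃ₐ[lgField q (j.comp (algebraMap K L))] lgField q j) /
            Nat.card (L ≃ₐ[K] L))))) := by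
  obtain ⟨r, hr1, hr2, hr3⟩ := ge_exists_resHomLG (K := K) q j
  have hfun : geLocLG q j (cycCocycle τ (Units.map (algebraMap K L : K →* L) a)) =
      pullCochain₂ r (Units.map (lgEmb q j : L →* lgField q j))
        (cycCocycle τ (Units.map (algebraMap K L : K →* L) a)) := by
    funext p
    change Units.map (lgEmb q j : L →* lgField q j) _ = Units.map (lgEmb q j : L →* lgField q j) _
    rw [hr1, hr1]
  have hj : ∀ (h : lgField q j ≃ₐ[lgField q (j.comp (algebraMap K L))] lgField q j) (x : Lˣ),
      Units.map (lgEmb q j : L →* lgField q j) (r h • x) =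
        h • Units.map (lgEmb q j : L →* lgField q j) x := by
    intro h x
    apply Units.ext
    exact hr2 h (x : L)
  have ha : τ • Units.map (algebraMap K L : K →* L) a = Units.map (algebraMap K L : K →* L) a := by
    apply Units.ext
    exact τ.commutes (a : K)
  have hd' : r s = τ ^ d := by rw [hr1, hd]
  haveI : FiniteDimensional (lgField q (j.comp (algebraMap K L))) (lgField q j) :=
    FiniteDimensional.right ℚ_[q] _ _
  have key := pullCochain₂_cycCocycle r (Units.map (lgEmb q j : L →* lgField q j)) hj τ hτ s hs d hd'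
    (Units.map (algebraMap K L : K →* L) a) ha
  rw [hfun]
  rw [gecyc_map_units, ← map_pow] at key
  exact key

/-- For cyclic `L/K` with generator `τ`: the localisation at `j` of `cycCocycle τ a` is a
coboundary iff `a` is a local norm at `j`. -/
theorem geLocLG_cycCocycle_isMulCoboundary₂_iff [IsGalois K L] (τ : L ≃ₐ[K] L)
    (hτ : ∀ g : L ≃ₐ[K] L, g ∈ Subgroup.zpowers τ) (a : Kˣ) (j : L →+* PadicAlgCl q) :
    IsMulCoboundary₂ (geLocLG q j (cycCocycle τ (Units.map (algebraMap K L : K →* L) a))) ↔
      GeLocalNormAt q j a := by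
  obtain ⟨r, hr1, hr2, hr3⟩ := ge_exists_resHomLG (K := K) q j
  haveI : FiniteDimensional (lgField q (j.comp (algebraMap K L))) (lgField q j) :=
    FiniteDimensional.right ℚ_[q] _ _
  haveI : FiniteDimensional K L := inferInstance
  haveI hgal : IsGalois (lgField q (j.comp (algebraMap K L))) (lgField q j) := lg_isGalois q j
  obtain ⟨s, hs, hrs⟩ := gecyc_exists_generator τ hτ r hr3
  have hd : geRes (K := K) (lgEmb q j) s =
      τ ^ (Nat.card (L ≃ₐ[K] L) /
        Nat.card (lgField q j ≃ₐ[lgField q (j.comp (algebraMap K L))] lgField q j)) := by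
    rw [← hr1, hrs]
  have hdvd : Nat.card (lgField q j ≃ₐ[lgField q (j.comp (algebraMap K L))] lgField q j) ∣
      Nat.card (L ≃ₐ[K] L) := by
    have h1 : Nat.card r.range =
        Nat.card (lgField q j ≃ₐ[lgField q (j.comp (algebraMap K L))] lgField q j) :=
      (Nat.card_congr (MonoidHom.ofInjective hr3).toEquiv).symm
    rw [← h1]
    exact Subgroup.card_subgroup_dvd_card _
  have key := gecyc_pull q τ hτ a j s hs _ hd
  rw [Nat.div_mul_cancel hdvd, Nat.div_self Nat.card_pos, pow_one] at key
  have hnorm := cycCocycle_isMulCoboundary₂_iff_mem_norm q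
    (lgField q (j.comp (algebraMap K L))) (lgField q j) s hs
    (Units.map (lgEmb q (j.comp (algebraMap K L)) :
      K →* lgField q (j.comp (algebraMap K L))) a)
  unfold GeLocalNormAt
  rw [← hnorm]
  constructor
  · intro h
    have := lfinv_cob_div h key
    rwa [div_div_cancel] at this
  · intro h
    have := lfinv_cob_mul key h
    rwa [div_mul_cancel] at this

/-- Unramified formula: `inv_j (cyc(τ,a)) = ord_j(a) · e / |G|` where `res(Frob_j) = τ^e`. -/
theorem geInv_cycCocycle_of_unramified [IsGalois K L] (τ : L ≃ₐ[K] L)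
    (hτ : ∀ g : L ≃ₐ[K] L, g ∈ Subgroup.zpowers τ) (a : Kˣ) (j : L →+* PadicAlgCl q)
    (hur : LfUnramified q (lgField q (j.comp (algebraMap K L))) (lgField q j)) :
    geInv q j (cycCocycle τ (Units.map (algebraMap K L : K →* L) a)) =
      ((((lfOrd q (lgField q (j.comp (algebraMap K L)))
          (lgEmb q (j.comp (algebraMap K L)) (a : K)) *
        (cycExp τ (geRes (K := K) (lgEmb q j)
          (lfFrob q (lgField q (j.comp (algebraMap K L))) (lgField q j))) : ℤ) : ℤ) : ℚ) /
        (orderOf τ : ℚ) : ℚ) : AddCircle (1 : ℚ)) := by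
  obtain ⟨r, hr1, hr2, hr3⟩ := ge_exists_resHomLG (K := K) q j
  haveI : FiniteDimensional (lgField q (j.comp (algebraMap K L))) (lgField q j) :=
    FiniteDimensional.right ℚ_[q] _ _
  haveI hgal : IsGalois (lgField q (j.comp (algebraMap K L))) (lgField q j) := lg_isGalois q j
  set s := lfFrob q (lgField q (j.comp (algebraMap K L))) (lgField q j) with hsdef
  have hs : ∀ h, h ∈ Subgroup.zpowers s := mem_zpowers_lfFrob q _ _ hur
  set e := cycExp τ (geRes (K := K) (lgEmb q j) s) with hedef
  have hd : geRes (K := K) (lgEmb q j) s = τ ^ e := (cycExp_spec τ hτ _).symm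
  set m := Nat.card (lgField q j ≃ₐ[lgField q (j.comp (algebraMap K L))] lgField q j) with hm
  set n := Nat.card (L ≃ₐ[K] L) with hn
  have hm0 : 0 < m := Nat.card_pos
  have hn0 : 0 < n := Nat.card_pos
  have hnτ : n = orderOf τ := cyc_card_eq τ hτ
  have hmrank : Module.finrank (lgField q (j.comp (algebraMap K L))) (lgField q j) = m :=
    (IsGalois.card_aut_eq_finrank _ _).symm
  have hdvd : n ∣ e * m := by
    rw [hnτ]
    apply orderOf_dvd_of_pow_eq_one
    rw [pow_mul, ← hd, ← hr1, ← map_pow, hm, pow_card_eq_one', map_one]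
  have key := gecyc_pull q τ hτ a j s hs e hd
  have hcoc : IsMulCocycle₂ (cycCocycle s
      (Units.map (algebraMap (lgField q (j.comp (algebraMap K L))) (lgField q j) :
          lgField q (j.comp (algebraMap K L)) →* lgField q j)
        (Units.map (lgEmb q (j.comp (algebraMap K L)) :
          K →* lgField q (j.comp (algebraMap K L))) a ^ (e * m / n)))) := by
    refine cycCocycle_isMulCocycle₂ s hs _ ?_
    apply Units.ext
    exact s.commutes _
  unfold geInv
  rw [localInv_eq_of_div q _ _ hcoc key, localInv_unramified q _ _ hur, hmrank]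
  congr 1
  rw [Units.val_pow_eq_pow_val, lfOrd_pow, Units.coe_map, MonoidHom.coe_coe]
  obtain ⟨k, hk⟩ := hdvd
  have hk' : e * m / n = k := by rw [hk, Nat.mul_div_cancel_left _ hn0]
  rw [hk', ← hnτ]
  have hmQ : (m : ℚ) ≠ 0 := Nat.cast_ne_zero.2 hm0.ne'
  have hnQ : (n : ℚ) ≠ 0 := Nat.cast_ne_zero.2 hn0.ne'
  have hkQ : (e : ℚ) * (m : ℚ) = (n : ℚ) * (k : ℚ) := by exact_mod_cast hk
  push_cast
  rw [div_eq_div_iff hmQ hnQ]
  linear_combination (lfOrd q (lgField q (j.comp (algebraMap K L)))
    (lgEmb q (j.comp (algebraMap K L)) (a : K)) : ℚ) * (-hkQ)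

end A3

end Fermat.Agent.S55
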