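/-
S55 / GLOBAL / RECIP, leaf GE-F1: congruent integers have congruent norms; the absolute norm of a
principal ideal as a product over the places.
-/
import Mathlib
import Fermat.Agent.S14.Defs
import Fermat.Agent.S14.NormDiv

set_option autoImplicit false
set_option linter.unusedSectionVars false
set_option linter.unusedVariables false

noncomputable section

namespace Fermat.Agent.S55

open NumberField IsDedekindDomain groupCohomology

section NormCongr

variable {K : Type} [Field K] [NumberField K]

/-- congruent integers have congruent norms -/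
theorem ge_norm_congr (r : ℕ) (α β : 𝓞 K) (h : α - β ∈ Ideal.span {((r : ℕ) : 𝓞 K)}) :
    ((Algebra.norm ℤ α : ℤ) : ZMod r) = ((Algebra.norm ℤ β : ℤ) : ZMod r) := by
  classical
  obtain ⟨γ, hγ⟩ := Ideal.mem_span_singleton'.mp h
  have hα : α = β + γ * (r : 𝓞 K) := by
    rw [hγ]
    ring
  let b := RingOfIntegers.basis K
  rw [Algebra.norm_eq_matrix_det b, Algebra.norm_eq_matrix_det b]
  have h1 : ∀ M : Matrix (Module.Free.ChooseBasisIndex ℤ (𝓞 K))
      (Module.Free.ChooseBasisIndex ℤ (𝓞 K)) ℤ,
      ((M.det : ℤ) : ZMod r) = ((Int.castRingHom (ZMod r)).mapMatrix M).det := by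
    intro M
    exact RingHom.map_det (Int.castRingHom (ZMod r)) M
  rw [h1, h1]
  congr 1
  rw [hα, map_add, map_mul, map_natCast, map_add, map_mul, map_natCast]
  have h0 : ((r : ℕ) : Matrix (Module.Free.ChooseBasisIndex ℤ (𝓞 K))
      (Module.Free.ChooseBasisIndex ℤ (𝓞 K)) (ZMod r)) = 0 := by
    rw [← map_natCast (algebraMap (ZMod r) (Matrix (Module.Free.ChooseBasisIndex ℤ (𝓞 K))
      (Module.Free.ChooseBasisIndex ℤ (𝓞 K)) (ZMod r))) r, ZMod.natCast_self, map_zero]
  rw [h0, mul_zero, add_zero]

theorem ge_natAbs_cast (r : ℕ) (a : ℤ) :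
    ((a.natAbs : ℕ) : ZMod r) = (a : ZMod r) ∨ ((a.natAbs : ℕ) : ZMod r) = -(a : ZMod r) := by
  rcases Int.natAbs_eq a with h | h
  · left
    conv_rhs => rw [h]
    simp
  · right
    conv_rhs => rw [h]
    simp

/-- Congruent integers have congruent norms, hence absolute norms congruent up to sign. -/
theorem ge_absNorm_span_congr (r : ℕ) (α β : 𝓞 K)
    (h : α - β ∈ Ideal.span {((r : ℕ) : 𝓞 K)}) :
    (Ideal.absNorm (Ideal.span {α}) : ZMod r) = (Ideal.absNorm (Ideal.span {β}) : ZMod r) ∨
    (Ideal.absNorm (Ideal.span {α}) : ZMod r) = -(Ideal.absNorm (Ideal.span {β}) : ZMod r) := by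
  rw [Ideal.absNorm_span_singleton, Ideal.absNorm_span_singleton]
  have hc := ge_norm_congr r α β h
  rcases ge_natAbs_cast r (Algebra.norm ℤ α) with h1 | h1 <;>
    rcases ge_natAbs_cast r (Algebra.norm ℤ β) with h2 | h2
  · left; rw [h1, h2, hc]
  · right; rw [h1, h2, hc, neg_neg]
  · right; rw [h1, h2, hc]
  · left; rw [h1, h2, hc]

/-- The absolute norm of a principal ideal as the product over the places. -/
theorem ge_absNorm_span_eq_finprod (α : 𝓞 K) (hα : α ≠ 0) :
    Ideal.absNorm (Ideal.span {α}) =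
      ∏ᶠ v : HeightOneSpectrum (𝓞 K),
        Ideal.absNorm v.asIdeal ^ (S14.divOf K (α : K) v).toNat := by
  have hI : (Ideal.span {α} : Ideal (𝓞 K)) ≠ 0 := by simpa using hα
  conv_lhs => rw [← Ideal.finprod_heightOneSpectrum_factorization hI]
  rw [map_finprod Ideal.absNorm (Ideal.hasFiniteMulSupport hI)]
  refine finprod_congr fun v => ?_
  rw [HeightOneSpectrum.maxPowDividing, map_pow]
  congr 1
  have h1 := S14.divOf_algebraMap α hα v
  have h2 : S14.divOf K (α : K) v =
      ((Associates.mk v.asIdeal).count (Associates.mk (Ideal.span {α})).factors : ℤ) := h1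
  rw [h2, Int.toNat_natCast]

end NormCongr

end Fermat.Agent.S55
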