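/-
S55 / GLOBAL / RECIP, leaf GE-G: almost all local invariants vanish.
-/
import Fermat.Agent.S55.Global.Recip.LocLGSpec
import Fermat.Agent.S55.LG.Spec

set_option autoImplicit false
set_option linter.unusedSectionVars false
set_option linter.unusedVariables false

noncomputable section

namespace Fermat.Agent.S55

open NumberField IsDedekindDomain groupCohomology

section Prime

variable {K : Type} [Field K] [NumberField K]

/-- two distinct rational primes cannot lie in the same proper ideal -/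
theorem gesup_eq_of_mem {ℓ ℓ' : ℕ} (hℓ : ℓ.Prime) (hℓ' : ℓ'.Prime) (I : Ideal (𝓞 K))
    (hI : I ≠ ⊤) (h1 : ((ℓ : ℕ) : 𝓞 K) ∈ I) (h2 : ((ℓ' : ℕ) : 𝓞 K) ∈ I) : ℓ = ℓ' := by
  by_contra hne
  have hcop : Nat.Coprime ℓ ℓ' := (Nat.coprime_primes hℓ hℓ').mpr hne
  have hbez : (ℓ : ℤ) * Nat.gcdA ℓ ℓ' + (ℓ' : ℤ) * Nat.gcdB ℓ ℓ' = 1 := by
    have := Nat.gcd_eq_gcd_ab ℓ ℓ'
    rw [hcop.gcd_eq_one] at this
    exact_mod_cast this.symm
  have hone : (1 : 𝓞 K) ∈ I := by
    have h3 : ((ℓ : ℕ) : 𝓞 K) * ((Nat.gcdA ℓ ℓ' : ℤ) : 𝓞 K) +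
        ((ℓ' : ℕ) : 𝓞 K) * ((Nat.gcdB ℓ ℓ' : ℤ) : 𝓞 K) ∈ I :=
      I.add_mem (I.mul_mem_right _ h1) (I.mul_mem_right _ h2)
    have h4 : ((ℓ : ℕ) : 𝓞 K) * ((Nat.gcdA ℓ ℓ' : ℤ) : 𝓞 K) +
        ((ℓ' : ℕ) : 𝓞 K) * ((Nat.gcdB ℓ ℓ' : ℤ) : 𝓞 K) = 1 := by
      have := congrArg (fun z : ℤ => (z : 𝓞 K)) hbez
      simp only [Int.cast_add, Int.cast_mul, Int.cast_natCast, Int.cast_one] at this
      exact this
    rw [h4] at h3
    exact h3
  exact hI ((Ideal.eq_top_iff_one _).mpr hone)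

/-- a natural number prime to `q` has norm one at every `q`-adic embedding -/
theorem gesup_norm_natCast_eq_one (q : ℕ) [Fact q.Prime] (i : K →+* PadicAlgCl q) (n : ℕ)
    (hn : ¬ q ∣ n) : ‖i ((n : ℕ) : K)‖ = 1 := by
  have hle : ‖i (((n : ℕ) : 𝓞 K) : K)‖ ≤ 1 := lg_norm_le_one q i _
  have hcast : (((n : ℕ) : 𝓞 K) : K) = ((n : ℕ) : K) := by simp
  rw [hcast] at hle
  refine le_antisymm hle (not_lt.mp fun hlt => ?_)
  have hmem : ((n : ℕ) : 𝓞 K) ∈ lgIdeal q i := by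
    rw [mem_lgIdeal_iff, hcast]
    exact hlt
  -- every prime factor of `n` ... use Bezout with `q` directly
  have hcop : Nat.Coprime q n := (Nat.Prime.coprime_iff_not_dvd (Fact.out : q.Prime)).mpr hn
  have hbez : (q : ℤ) * Nat.gcdA q n + (n : ℤ) * Nat.gcdB q n = 1 := by
    have := Nat.gcd_eq_gcd_ab q n
    rw [hcop.gcd_eq_one] at this
    exact_mod_cast this.symm
  have hone : (1 : 𝓞 K) ∈ lgIdeal q i := by
    have h3 : ((q : ℕ) : 𝓞 K) * ((Nat.gcdA q n : ℤ) : 𝓞 K) +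
        ((n : ℕ) : 𝓞 K) * ((Nat.gcdB q n : ℤ) : 𝓞 K) ∈ lgIdeal q i :=
      (lgIdeal q i).add_mem ((lgIdeal q i).mul_mem_right _ (natCast_mem_lgIdeal q i))
        ((lgIdeal q i).mul_mem_right _ hmem)
    have h4 : ((q : ℕ) : 𝓞 K) * ((Nat.gcdA q n : ℤ) : 𝓞 K) +
        ((n : ℕ) : 𝓞 K) * ((Nat.gcdB q n : ℤ) : 𝓞 K) = 1 := by
      have := congrArg (fun z : ℤ => (z : 𝓞 K)) hbez
      simp only [Int.cast_add, Int.cast_mul, Int.cast_natCast, Int.cast_one] at this
      exact this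
    rw [h4] at h3
    exact h3
  exact (lgIdeal_isPrime q i).ne_top ((Ideal.eq_top_iff_one _).mpr hone)

/-- the residue characteristic is the unique rational prime in `v` -/
theorem gePrime_eq_of_mem (v : HeightOneSpectrum (𝓞 K)) {ℓ : ℕ} (hℓ : ℓ.Prime)
    (h : ((ℓ : ℕ) : 𝓞 K) ∈ v.asIdeal) : gePrime K v = ℓ := by
  have hmax : (Ideal.span {(ℓ : ℤ)}).IsMaximal :=
    @Int.ideal_span_isMaximal_of_prime ℓ ⟨hℓ⟩
  have hle : Ideal.span {(ℓ : ℤ)} ≤ v.asIdeal.under ℤ := by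
    rw [Ideal.span_singleton_le_iff_mem, Ideal.under_def, Ideal.mem_comap]
    simpa using h
  have hne : v.asIdeal.under ℤ ≠ ⊤ := by
    have : (v.asIdeal.under ℤ).IsPrime := Ideal.IsPrime.under ℤ v.asIdeal
    exact Ideal.IsPrime.ne_top inferInstance
  have heq : Ideal.span {(ℓ : ℤ)} = v.asIdeal.under ℤ := hmax.eq_of_le hne hle
  have : v.asIdeal.LiesOver (Ideal.span {(ℓ : ℤ)}) := ⟨heq⟩
  have hpow := Ideal.absNorm_eq_pow_inertiaDeg' v.asIdeal hℓ
  have hf : (Ideal.span {(ℓ : ℤ)}).inertiaDeg' v.asIdeal ≠ 0 := by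
    intro h0
    rw [h0, pow_zero] at hpow
    exact v.isPrime.ne_top (Ideal.absNorm_eq_one_iff.mp hpow)
  unfold gePrime
  rw [hpow]
  exact hℓ.pow_minFac hf

end Prime

section Support

variable {K L : Type} [Field K] [NumberField K] [Field L] [NumberField L] [Algebra K L]

/-- The residue characteristic: `gePrime K v ∈ v`. -/
theorem natCast_gePrime_mem (v : HeightOneSpectrum (𝓞 K)) :
    ((gePrime K v : ℕ) : 𝓞 K) ∈ v.asIdeal := by
  have : NeZero v.asIdeal := ⟨v.ne_bot⟩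
  have hp : (Ideal.absNorm (v.asIdeal.under ℤ)).Prime := Nat.absNorm_under_prime v.asIdeal
  have hmem : ((Ideal.absNorm (v.asIdeal.under ℤ) : ℕ) : 𝓞 K) ∈ v.asIdeal :=
    Int.absNorm_under_mem v.asIdeal
  rw [gePrime_eq_of_mem v hp hmem]
  exact hmem

/-- An embedding over `v` is `gePrime K v`-adic. -/
theorem gePrime_lgPlace (q : ℕ) [Fact q.Prime] (i : K →+* PadicAlgCl q) :
    gePrime K (lgPlace q i) = q :=
  gePrime_eq_of_mem (lgPlace q i) (Fact.out : q.Prime) (natCast_mem_lgIdeal q i)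

theorem gePrime_finite_fiber (q : ℕ) : {v : HeightOneSpectrum (𝓞 K) | gePrime K v = q}.Finite := by
  by_cases hq : q.Prime
  · have hq0 : Ideal.span {((q : ℕ) : 𝓞 K)} ≠ 0 := by
      rw [Ne, Ideal.zero_eq_bot, Ideal.span_singleton_eq_bot]
      exact_mod_cast hq.ne_zero
    refine (Ideal.finite_factors hq0).subset ?_
    intro v hv
    have hv' : gePrime K v = q := hv
    show v.asIdeal ∣ Ideal.span {((q : ℕ) : 𝓞 K)}
    rw [Ideal.dvd_iff_le, Ideal.span_singleton_le_iff_mem, ← hv']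
    exact natCast_gePrime_mem v
  · convert Set.finite_empty
    ext v
    simp only [Set.mem_ofPred_eq, Set.mem_empty_iff_false, iff_false]
    intro hv
    exact hq (hv ▸ (gePrime_fact K v).out)

/-- Almost all primes are unramified in `L/K`, at every embedding. -/
theorem ge_exists_finset_unramified :
    ∃ B : Finset ℕ, ∀ (q : ℕ) [Fact q.Prime], q ∉ B → ∀ j : L →+* PadicAlgCl q,
      LfUnramified q (lgField q (j.comp (algebraMap K L))) (lgField q j) := by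
  classical
  have hD : differentIdeal (𝓞 K) (𝓞 L) ≠ ⊥ := differentIdeal_ne_bot
  have hfin : {w : HeightOneSpectrum (𝓞 L) | w.asIdeal ∣ differentIdeal (𝓞 K) (𝓞 L)}.Finite :=
    Ideal.finite_factors hD
  refine ⟨hfin.toFinset.image (gePrime L), ?_⟩
  intro q _ hq j
  have hnd : ¬ (lgPlace q j).asIdeal ∣ differentIdeal (𝓞 K) (𝓞 L) := by
    intro hdvd
    apply hq
    rw [Finset.mem_image]
    refine ⟨lgPlace q j, ?_, gePrime_lgPlace q j⟩
    rw [Set.Finite.mem_toFinset]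
    exact hdvd
  have : (lgPlace q j).asIdeal.IsPrime := (lgPlace q j).isPrime
  have : Algebra.IsUnramifiedAt (𝓞 K) (lgPlace q j).asIdeal := not_dvd_differentIdeal_iff.mp hnd
  unfold LfUnramified
  rw [lfRamIdx_lgField]
  exact Ideal.ramificationIdx_eq_one (lgPlace q j).asIdeal (𝓞 K)

/-- a nonzero integer of `L` has norm one at almost all primes -/
theorem gesup_exists_finset_int (a : 𝓞 L) (ha : a ≠ 0) :
    ∃ B : Finset ℕ, ∀ (q : ℕ) [Fact q.Prime], q ∉ B → ∀ j : L →+* PadicAlgCl q,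
      ‖j (a : L)‖ = 1 := by
  set n : ℕ := Ideal.absNorm (Ideal.span {a}) with hn
  have hn0 : n ≠ 0 := by
    rw [hn, Ne, Ideal.absNorm_eq_zero_iff, Ideal.span_singleton_eq_bot]
    exact ha
  have hmem : ((n : ℕ) : 𝓞 L) ∈ Ideal.span {a} := Ideal.absNorm_mem _
  obtain ⟨c, hc⟩ := Ideal.mem_span_singleton'.mp hmem
  refine ⟨n.primeFactors, ?_⟩
  intro q _ hq j
  have hqn : ¬ q ∣ n := by
    intro hdvd
    exact hq (Nat.mem_primeFactors.mpr ⟨Fact.out, hdvd, hn0⟩)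
  have h1 : ‖j ((n : ℕ) : L)‖ = 1 := gesup_norm_natCast_eq_one q j n hqn
  have h2 : ((n : ℕ) : L) = (c : L) * (a : L) := by
    have := congrArg (fun z : 𝓞 L => (z : L)) hc
    simp only [map_mul, map_natCast] at this
    exact this.symm
  rw [h2, map_mul, norm_mul] at h1
  have hc1 : ‖j (c : L)‖ ≤ 1 := lg_norm_le_one q j c
  have ha1 : ‖j (a : L)‖ ≤ 1 := lg_norm_le_one q j a
  refine le_antisymm ha1 ?_
  by_contra hlt
  rw [not_le] at hlt
  have : ‖j (c : L)‖ * ‖j (a : L)‖ < 1 := by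
    calc ‖j (c : L)‖ * ‖j (a : L)‖ ≤ 1 * ‖j (a : L)‖ :=
          mul_le_mul_of_nonneg_right hc1 (norm_nonneg _)
      _ < 1 := by rwa [one_mul]
  rw [h1] at this
  exact lt_irrefl _ this

/-- A nonzero element of `L` is a unit at almost all primes, at every embedding. -/
theorem ge_exists_finset_norm_eq_one (x : L) (hx : x ≠ 0) :
    ∃ B : Finset ℕ, ∀ (q : ℕ) [Fact q.Prime], q ∉ B → ∀ j : L →+* PadicAlgCl q, ‖j x‖ = 1 := by
  classical
  obtain ⟨a, b, hb, hab⟩ := IsFractionRing.div_surjective (A := 𝓞 L) x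
  have hb0 : b ≠ 0 := nonZeroDivisors.ne_zero hb
  have ha0 : a ≠ 0 := by
    rintro rfl
    rw [map_zero, zero_div] at hab
    exact hx hab.symm
  obtain ⟨Ba, hBa⟩ := gesup_exists_finset_int a ha0
  obtain ⟨Bb, hBb⟩ := gesup_exists_finset_int b hb0
  refine ⟨Ba ∪ Bb, ?_⟩
  intro q _ hq j
  rw [Finset.mem_union, not_or] at hq
  have h1 := hBa q hq.1 j
  have h2 := hBb q hq.2 j
  have h3 : x = (a : L) / (b : L) := hab.symm
  rw [h3, map_div₀, norm_div, h1, h2, div_one]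

/-- norm one at `j` means unit of `L_j` -/
theorem gesup_mem_lfUnits (q : ℕ) [Fact q.Prime] (j : L →+* PadicAlgCl q) (y : Lˣ)
    (hy : ‖j (y : L)‖ = 1) :
    Units.map (lgEmb q j : L →* lgField q j) y ∈ lfUnits q (lgField q j) := by
  rw [mem_lfUnits_iff]
  have hy0 : lgEmb q j (y : L) ≠ 0 := (map_ne_zero (lgEmb q j)).2 y.ne_zero
  have hsn : spectralNorm ℚ_[q] (lgField q j) (lgEmb q j (y : L)) = 1 := by
    rw [lgp_spectralNorm_lgEmb, hy]
  have h1 : 0 ≤ lfOrd q (lgField q j) (lgEmb q j (y : L)) := by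
    rw [← mem_lfInt_iff_lfOrd q _ hy0, mem_lfInt_iff, hsn]
  have h2 : ¬ 0 < lfOrd q (lgField q j) (lgEmb q j (y : L)) := by
    rw [← spectralNorm_lt_one_iff_lfOrd q _ hy0, hsn]
    exact lt_irrefl _
  show lfOrd q (lgField q j) (lgEmb q j (y : L)) = 0
  omega

/-- Unit-valued cocycles of unramified extensions have invariant `0`. -/
theorem geInv_eq_zero_of_unramified_of_units [IsGalois K L] (q : ℕ) [Fact q.Prime]
    (j : L →+* PadicAlgCl q)
    (hur : LfUnramified q (lgField q (j.comp (algebraMap K L))) (lgField q j))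
    (c : (L ≃ₐ[K] L) × (L ≃ₐ[K] L) → Lˣ) (hc : IsMulCocycle₂ c)
    (hu : ∀ s, ‖j ((c s : Lˣ) : L)‖ = 1) : geInv q j c = 0 := by
  unfold geInv
  apply localInv_eq_zero_of_units q _ _ hur (geLocLG_isMulCocycle₂ q j c hc)
  intro s
  exact gesup_mem_lfUnits q j _ (hu _)

/-- FINITE SUPPORT: the local invariants of a global cocycle vanish outside a finite set of
primes, at every embedding. -/
theorem geInv_exists_finset [IsGalois K L] (c : (L ≃ₐ[K] L) × (L ≃ₐ[K] L) → Lˣ)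
    (hc : IsMulCocycle₂ c) :
    ∃ B : Finset ℕ, ∀ (q : ℕ) [Fact q.Prime], q ∉ B → ∀ j : L →+* PadicAlgCl q,
      geInv q j c = 0 := by
  classical
  obtain ⟨B0, hB0⟩ := ge_exists_finset_unramified (K := K) (L := L)
  have hex : ∀ s : (L ≃ₐ[K] L) × (L ≃ₐ[K] L), ∃ B : Finset ℕ, ∀ (q : ℕ) [Fact q.Prime], q ∉ B →
      ∀ j : L →+* PadicAlgCl q, ‖j ((c s : Lˣ) : L)‖ = 1 :=
    fun s => ge_exists_finset_norm_eq_one ((c s : Lˣ) : L) (c s).ne_zero
  choose Bs hBs using hex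
  refine ⟨B0 ∪ Finset.univ.biUnion Bs, ?_⟩
  intro q _ hq j
  rw [Finset.mem_union, not_or] at hq
  apply geInv_eq_zero_of_unramified_of_units q j (hB0 q hq.1 j) c hc
  intro s
  apply hBs s q _ j
  intro hmem
  exact hq.2 (Finset.mem_biUnion.mpr ⟨s, Finset.mem_univ s, hmem⟩)

variable (K L) in
/-- Choices of embeddings exist. -/
theorem geChoice_nonempty : Nonempty (GeChoice K L) := by
  have hex : ∀ v : HeightOneSpectrum (𝓞 K), ∃ j : L →+* PadicAlgCl (gePrime K v),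
      lgPlace (gePrime K v) (j.comp (algebraMap K L)) = v := by
    intro v
    obtain ⟨i, hi⟩ := exists_lgEmb (gePrime K v) v (natCast_gePrime_mem v)
    obtain ⟨j, hj⟩ := ge_exists_extend (L := L) (gePrime K v) i
    exact ⟨j, by rw [hj, hi]⟩
  choose emb hemb using hex
  exact ⟨⟨emb, hemb⟩⟩

/-- The support of the family of local invariants along a choice of embeddings is finite. -/
theorem geInv_support_finite [IsGalois K L] (c : (L ≃ₐ[K] L) × (L ≃ₐ[K] L) → Lˣ)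
    (hc : IsMulCocycle₂ c) (𝔧 : GeChoice K L) :
    (Function.support fun v : HeightOneSpectrum (𝓞 K) =>
      geInv (gePrime K v) (𝔧.emb v) c).Finite := by
  obtain ⟨B, hB⟩ := geInv_exists_finset c hc
  have hfin : (⋃ q ∈ B, {v : HeightOneSpectrum (𝓞 K) | gePrime K v = q}).Finite :=
    Set.Finite.biUnion B.finite_toSet (fun q _ => gePrime_finite_fiber q)
  refine hfin.subset ?_
  intro v hv
  rw [Function.mem_support] at hv
  simp only [Set.mem_iUnion, Set.mem_ofPred_eq, exists_prop]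
  refine ⟨gePrime K v, ?_, rfl⟩
  by_contra hnot
  exact hv (hB (gePrime K v) hnot (𝔧.emb v))

end Support

end Fermat.Agent.S55
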