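/-
S55 / GLOBAL / RECIP, leaf GE-G (supplement): `ge_absNorm_lgPlace`, the absolute norm of the place
induced by a `q`-adic embedding is `q ^ f` with `0 < f ≤ [K : ℚ]`.
-/
import Fermat.Agent.S55.Global.Recip.Defs

set_option autoImplicit false

noncomputable section

namespace Fermat.Agent.S55

open NumberField IsDedekindDomain

section SupportAbsNorm

variable {K : Type} [Field K] [NumberField K]

/-- The absolute norm of the principal ideal generated by a natural number. -/
theorem gesa_absNorm_span_natCast (n : ℕ) :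
    Ideal.absNorm (Ideal.span {((n : ℕ) : 𝓞 K)}) = n ^ Module.finrank ℚ K := by
  rw [Ideal.absNorm_span_singleton]
  have h1 : ((n : ℕ) : 𝓞 K) = algebraMap ℤ (𝓞 K) (n : ℤ) := by
    simp
  rw [h1, Algebra.norm_algebraMap_of_basis (RingOfIntegers.basis K), ← Module.finrank_eq_card_basis
    (RingOfIntegers.basis K), RingOfIntegers.rank]
  rw [← Nat.cast_pow, Int.natAbs_natCast]

/-- The absolute norm of the place induced by a `q`-adic embedding is `q ^ f` with
`0 < f ≤ [K:ℚ]`. -/
theorem ge_absNorm_lgPlace (q : ℕ) [Fact q.Prime] (i : K →+* PadicAlgCl q) :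
    ∃ f : ℕ, f ≠ 0 ∧ f ≤ Module.finrank ℚ K ∧ Ideal.absNorm (lgPlace q i).asIdeal = q ^ f := by
  have hq : q.Prime := Fact.out
  have hmem : ((q : ℕ) : 𝓞 K) ∈ (lgPlace q i).asIdeal := natCast_mem_lgIdeal q i
  have hle : Ideal.span {((q : ℕ) : 𝓞 K)} ≤ (lgPlace q i).asIdeal :=
    (Ideal.span_singleton_le_iff_mem _).mpr hmem
  have hdvd : Ideal.absNorm (lgPlace q i).asIdeal ∣ q ^ Module.finrank ℚ K := by
    rw [← gesa_absNorm_span_natCast (K := K) q]
    exact Ideal.absNorm_dvd_absNorm_of_le hle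
  obtain ⟨f, hf, hfeq⟩ := (Nat.dvd_prime_pow hq).mp hdvd
  refine ⟨f, ?_, hf, hfeq⟩
  rintro rfl
  rw [pow_zero] at hfeq
  exact (lgPlace q i).isPrime.ne_top (Ideal.absNorm_eq_one_iff.mp hfeq)

end SupportAbsNorm

end Fermat.Agent.S55
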