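/-
S55 / GLOBAL / RECIP, leaf GE-F3: reciprocity for cyclic cyclotomic extensions
(`ge_cyc_reciprocity`).  Black boxes: the spec files imported below.
Helper names are prefixed `gecr_`.
-/
import Fermat.Agent.S55.Global.Recip.LocCycSpec
import Fermat.Agent.S55.Global.Recip.SupportSpec
import Fermat.Agent.S55.Global.Recip.NormCongrSpec
import Fermat.Agent.S55.Global.Recip.CycApproxSpec
import Fermat.Agent.S14.Approx

set_option autoImplicit false
set_option linter.unusedSectionVars false
set_option linter.unusedVariables false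

noncomputable section

namespace Fermat.Agent.S55

open NumberField IsDedekindDomain groupCohomology

/-! ## Elementary lemmas -/

section Elementary

/-- A character into an odd cyclic group kills `-1`. -/
theorem gecr_char_neg_one {r n : ℕ} [NeZero n] (hn : Odd n)
    (ψ : (ZMod r)ˣ →* Multiplicative (ZMod n)) : ψ (-1) = 1 := by
  have h1 : ψ (-1) * ψ (-1) = 1 := by
    rw [← map_mul, neg_mul_neg, one_mul, map_one]
  have h2 : Multiplicative.toAdd (ψ (-1)) + Multiplicative.toAdd (ψ (-1)) = 0 := by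
    rw [← toAdd_mul, h1, toAdd_one]
  have h3 : (2 : ZMod n) * Multiplicative.toAdd (ψ (-1)) = 0 := by
    rw [two_mul]
    exact h2
  have hu : IsUnit (2 : ZMod n) := by
    have hcop : Nat.Coprime 2 n := (Nat.coprime_two_left).mpr hn
    have := (ZMod.isUnit_iff_coprime 2 n).mpr hcop
    simpa using this
  have h4 : Multiplicative.toAdd (ψ (-1)) = 0 := by
    rcases hu with ⟨u, hu⟩
    rw [← hu] at h3
    exact (Units.mul_right_eq_zero u).mp h3
  exact Multiplicative.toAdd.injective h4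

/-- An integer multiple of the denominator gives `0` in `ℚ/ℤ`. -/
theorem gecr_coe_eq_zero {N : ℕ} (hN : N ≠ 0) {T : ℤ} (h : (N : ℤ) ∣ T) :
    (((T : ℚ) / (N : ℚ) : ℚ) : AddCircle (1 : ℚ)) = 0 := by
  obtain ⟨t, rfl⟩ := h
  rw [AddCircle.coe_eq_zero_iff]
  refine ⟨t, ?_⟩
  have hN' : (N : ℚ) ≠ 0 := Nat.cast_ne_zero.mpr hN
  rw [zsmul_eq_mul, mul_one]
  push_cast
  field_simp

end Elementary

/-! ## The norm-residue character on divisors -/

section DivChar

variable {K : Type} [Field K] [NumberField K] (r : ℕ)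

open Classical in
/-- The unit `N v mod r` (junk `1` if `N v` is not prime to `r`). -/
def gecrUnit (v : HeightOneSpectrum (𝓞 K)) : (ZMod r)ˣ :=
  if h : IsUnit ((Ideal.absNorm v.asIdeal : ℕ) : ZMod r) then h.unit else 1

theorem gecrUnit_coe (v : HeightOneSpectrum (𝓞 K))
    (h : IsUnit ((Ideal.absNorm v.asIdeal : ℕ) : ZMod r)) :
    ((gecrUnit r v : (ZMod r)ˣ) : ZMod r) = ((Ideal.absNorm v.asIdeal : ℕ) : ZMod r) := by
  classical
  unfold gecrUnit
  rw [dif_pos h]
  exact h.unit_spec

/-- `D ↦ ∏_v (N v mod r) ^ D v`, additively. -/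
def gecrU : S14.Div K →+ Additive (ZMod r)ˣ :=
  Finsupp.liftAddHom (fun v : HeightOneSpectrum (𝓞 K) =>
    zmultiplesHom (Additive (ZMod r)ˣ) (Additive.ofMul (gecrUnit r v)))

theorem gecrU_apply (D : S14.Div K) :
    gecrU r D = ∑ v ∈ D.support, D v • Additive.ofMul (gecrUnit r v) := by
  unfold gecrU
  rw [Finsupp.liftAddHom_apply, Finsupp.sum]
  rfl

/-- For an integer `α` all of whose prime divisors have norm prime to `r`:
`U (div α) = N(α) mod r`. -/
theorem gecrU_divOf_coe (α : 𝓞 K) (hα : α ≠ 0)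
    (hgood : ∀ v : HeightOneSpectrum (𝓞 K), α ∈ v.asIdeal →
      IsUnit ((Ideal.absNorm v.asIdeal : ℕ) : ZMod r)) :
    ((Additive.toMul (gecrU r (S14.divOf K (α : K))) : (ZMod r)ˣ) : ZMod r) =
      ((Ideal.absNorm (Ideal.span {α}) : ℕ) : ZMod r) := by
  classical
  set D := S14.divOf K (α : K) with hD
  rw [gecrU_apply, toMul_sum, Units.coe_prod, ge_absNorm_span_eq_finprod α hα,
    finprod_eq_prod_of_mulSupport_subset (s := D.support), Nat.cast_prod]
  · apply Finset.prod_congr rfl
    intro v hv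
    have hv0 : D v ≠ 0 := Finsupp.mem_support_iff.mp hv
    obtain ⟨hnn, hiff⟩ := S14.divOf_algebraMap_nonneg α hα v
    have hmem : α ∈ v.asIdeal := by
      by_contra hc
      exact hv0 (hiff.mpr hc)
    have hcast : D v = ((D v).toNat : ℤ) := (Int.toNat_of_nonneg hnn).symm
    rw [toMul_zsmul, toMul_ofMul, hcast, zpow_natCast, Units.val_pow_eq_pow_val,
      gecrUnit_coe r v (hgood v hmem), Nat.cast_pow, ← hcast]
  · intro v hv
    rw [Function.mem_mulSupport] at hv
    rw [Finset.mem_coe, Finsupp.mem_support_iff]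
    intro h0
    apply hv
    rw [← hD, h0, Int.toNat_zero, pow_zero]

/-- The divisor of an element `≡ 1 mod× r` goes to `±1`. -/
theorem gecrU_divOf_of_oneMod (x : K) (h : gdOneMod K (Ideal.span {((r : ℕ) : 𝓞 K)}) x)
    (hunit : ∀ v : HeightOneSpectrum (𝓞 K), ((r : ℕ) : 𝓞 K) ∉ v.asIdeal →
      IsUnit ((Ideal.absNorm v.asIdeal : ℕ) : ZMod r)) :
    gecrU r (S14.divOf K x) = 0 ∨ gecrU r (S14.divOf K x) = Additive.ofMul (-1) := by
  obtain ⟨α, β, hα, hβ, hcα, hcβ, hmem, rfl⟩ := h
  have hα' : (α : K) ≠ 0 := by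
    intro h0
    exact hα (by exact_mod_cast h0)
  have hβ' : (β : K) ≠ 0 := by
    intro h0
    exact hβ (by exact_mod_cast h0)
  have hgood : ∀ γ : 𝓞 K, IsCoprime (Ideal.span {γ}) (Ideal.span {((r : ℕ) : 𝓞 K)}) →
      ∀ v : HeightOneSpectrum (𝓞 K), γ ∈ v.asIdeal →
        IsUnit ((Ideal.absNorm v.asIdeal : ℕ) : ZMod r) := by
    intro γ hγ v hv
    apply hunit v
    intro hr
    have h1 : Ideal.span {γ} ⊔ Ideal.span {((r : ℕ) : 𝓞 K)} = ⊤ :=
      Ideal.isCoprime_iff_sup_eq.mp hγ
    have h2 : Ideal.span {γ} ⊔ Ideal.span {((r : ℕ) : 𝓞 K)} ≤ v.asIdeal :=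
      sup_le ((Ideal.span_singleton_le_iff_mem _).mpr hv)
        ((Ideal.span_singleton_le_iff_mem _).mpr hr)
    rw [h1] at h2
    exact v.isPrime.ne_top (top_le_iff.mp h2)
  have hUα := gecrU_divOf_coe r α hα (hgood α hcα)
  have hUβ := gecrU_divOf_coe r β hβ (hgood β hcβ)
  rw [S14.approx_divOf_div hα' hβ', map_sub]
  set A := gecrU r (S14.divOf K (α : K)) with hA
  set B := gecrU r (S14.divOf K (β : K)) with hB
  rcases ge_absNorm_span_congr r α β hmem with hc | hc
  · left
    have : Additive.toMul A = Additive.toMul B := by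
      apply Units.ext
      rw [hUα, hUβ]
      exact hc
    rw [sub_eq_zero]
    exact Additive.toMul.injective this
  · right
    have : Additive.toMul A = - Additive.toMul B := by
      apply Units.ext
      rw [Units.val_neg, hUα, hUβ]
      exact hc
    apply Additive.toMul.injective
    rw [toMul_sub, this, toMul_ofMul, neg_div, div_self']

/-- At a place whose norm is divisible by `r` the unit is the junk value `1`. -/
theorem gecrUnit_eq_one_of_dvd [Fact r.Prime] (v : HeightOneSpectrum (𝓞 K))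
    (h : r ∣ Ideal.absNorm v.asIdeal) : gecrUnit r v = 1 := by
  classical
  unfold gecrUnit
  rw [dif_neg]
  intro hu
  have h0 : ((Ideal.absNorm v.asIdeal : ℕ) : ZMod r) = 0 := (ZMod.natCast_eq_zero_iff _ _).mpr h
  rw [h0] at hu
  exact not_isUnit_zero hu

/-- `ψ (U D)` as a sum over the support. -/
theorem gecr_toAdd_char_gecrU {n : ℕ} (ψ : (ZMod r)ˣ →* Multiplicative (ZMod n)) (D : S14.Div K) :
    Multiplicative.toAdd (ψ (Additive.toMul (gecrU r D))) =
      ∑ v ∈ D.support, D v • Multiplicative.toAdd (ψ (gecrUnit r v)) := by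
  rw [gecrU_apply, toMul_sum, map_prod, toAdd_prod]
  apply Finset.sum_congr rfl
  intro v _
  rw [toMul_zsmul, toMul_ofMul, map_zpow, toAdd_zpow]

end DivChar

/-! ## The main theorem -/

section CycRecip

variable {K E : Type} [Field K] [NumberField K] [Field E] [NumberField E] [Algebra K E]

/-- Globally, the cyclic cocycle of a norm is a coboundary. -/
theorem gecr_cycCocycle_norm_isMulCoboundary₂ [IsGalois K E] (τ : E ≃ₐ[K] E)
    (hτ : ∀ g : E ≃ₐ[K] E, g ∈ Subgroup.zpowers τ) (β : Eˣ) :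
    IsMulCoboundary₂ (cycCocycle τ (Units.map (algebraMap K E : K →* E)
      (Units.map (Algebra.norm K : E →* K) β))) := by
  have ha : τ • Units.map (algebraMap K E : K →* E) (Units.map (Algebra.norm K : E →* K) β) =
      Units.map (algebraMap K E : K →* E) (Units.map (Algebra.norm K : E →* K) β) := by
    apply Units.ext
    change τ (algebraMap K E _) = algebraMap K E _
    exact τ.commutes _
  rw [cycCocycle_isMulCoboundary₂_iff τ hτ _ ha]
  refine ⟨β, ?_⟩
  apply Units.ext
  have h1 := lfo_prod_pow_eq_norm hτ (β : E)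
  rw [cycNorm, Units.coe_prod]
  exact h1

/-- The unit `N v mod r` exists at the places of residue characteristic `≠ r`. -/
theorem gecr_isUnit_absNorm (r : ℕ) [Fact r.Prime] (𝔧 : GeChoice K E)
    (v : HeightOneSpectrum (𝓞 K)) (hv : gePrime K v ≠ r) :
    IsUnit ((Ideal.absNorm v.asIdeal : ℕ) : ZMod r) := by
  obtain ⟨f, hf0, hfd, hfN⟩ :=
    ge_absNorm_lgPlace (gePrime K v) ((𝔧.emb v).comp (algebraMap K E))
  rw [𝔧.place_eq v] at hfN
  rw [hfN]
  have hq : (gePrime K v).Prime := Fact.out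
  have hr : r.Prime := Fact.out
  have hcop : ((gePrime K v) ^ f).Coprime r :=
    Nat.Coprime.pow_left f ((Nat.coprime_primes hq hr).mpr hv)
  exact (ZMod.isUnit_iff_coprime _ _).mpr hcop

theorem ge_cyc_reciprocity [IsGalois K E] (n : ℕ) [NeZero n] (hn : Odd n)
    (χ : (E ≃ₐ[K] E) →* Multiplicative (ZMod n)) (hχ : Function.Injective χ)
    (r : ℕ) [Fact r.Prime] (ψ : (ZMod r)ˣ →* Multiplicative (ZMod n))
    (hfrob : ∀ (q : ℕ) [Fact q.Prime], q ≠ r → ∀ jE : E →+* PadicAlgCl q,
      LfUnramified q (lgField q (jE.comp (algebraMap K E))) (lgField q jE) ∧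
      ∀ u : (ZMod r)ˣ, (u : ZMod r) =
          (Ideal.absNorm (lgPlace q (jE.comp (algebraMap K E))).asIdeal : ZMod r) →
        χ (geRes (K := K) (lgEmb q jE)
          (lfFrob q (lgField q (jE.comp (algebraMap K E))) (lgField q jE))) = ψ u)
    (y : (E ≃ₐ[K] E) × (E ≃ₐ[K] E) → Eˣ) (hy : IsMulCocycle₂ y)
    (hr : ∀ jE : E →+* PadicAlgCl r, geInv r jE y = 0) (𝔧 : GeChoice K E) :
    ∑ᶠ v : HeightOneSpectrum (𝓞 K), geInv (gePrime K v) (𝔧.emb v) y = 0 := by
  classical
  -- the Galois group is cyclic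
  have : IsCyclic (E ≃ₐ[K] E) := isCyclic_of_injective χ hχ
  obtain ⟨τ, hτ⟩ := IsCyclic.exists_generator (α := E ≃ₐ[K] E)
  set N := orderOf τ with hN
  have hNpos : 0 < N := orderOf_pos τ
  -- `y` is cohomologous to a cyclic cocycle with parameter in `K`
  obtain ⟨hfix, hcob⟩ := exists_cycCocycle_of_isMulCocycle₂ τ hτ y hy
  set a₀ : Eˣ := ∏ i ∈ Finset.range (orderOf τ), y (τ ^ i, τ) with ha₀
  have hfix' : ∀ g : E ≃ₐ[K] E, g • a₀ = a₀ := cyc_smul_eq τ hτ hfix
  obtain ⟨a, ha⟩ : ∃ a : Kˣ, Units.map (algebraMap K E : K →* E) a = a₀ := by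
    have hmem : (a₀ : E) ∈ Set.range (algebraMap K E) := by
      rw [IsGalois.mem_range_algebraMap_iff_fixed]
      intro f
      have := congrArg (fun u : Eˣ => (u : E)) (hfix' f)
      exact this
    obtain ⟨x, hx⟩ := hmem
    have hx0 : x ≠ 0 := by
      rintro rfl
      rw [map_zero] at hx
      exact a₀.ne_zero hx.symm
    refine ⟨Units.mk0 x hx0, ?_⟩
    apply Units.ext
    exact hx
  rw [← ha] at hcob
  have hcyc : ∀ b : Kˣ, IsMulCocycle₂ (cycCocycle τ (Units.map (algebraMap K E : K →* E) b)) := by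
    intro b
    apply cycCocycle_isMulCocycle₂ τ hτ
    apply Units.ext
    change τ (algebraMap K E _) = algebraMap K E _
    exact τ.commutes _
  -- `a` is a local norm at the `r`-adic embeddings
  have hloc : ∀ jE : E →+* PadicAlgCl r, GeLocalNormAt r jE a := by
    intro jE
    rw [← geLocLG_cycCocycle_isMulCoboundary₂_iff r τ hτ a jE, ← geInv_eq_zero_iff r jE (hcyc a),
      ← geInv_eq_of_isMulCoboundary₂_div r jE hy (hcyc a) hcob]
    exact hr jE
  obtain ⟨β, hβ⟩ := ge_exists_norm_mul_oneMod r a hloc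
  set a' : Kˣ := a * (Units.map (Algebra.norm K : E →* K) β)⁻¹ with ha'
  have hcob' : IsMulCoboundary₂ (y / cycCocycle τ (Units.map (algebraMap K E : K →* E) a')) := by
    have h1 : cycCocycle τ (Units.map (algebraMap K E : K →* E) a) =
        cycCocycle τ (Units.map (algebraMap K E : K →* E) a') *
          cycCocycle τ (Units.map (algebraMap K E : K →* E)
            (Units.map (Algebra.norm K : E →* K) β)) := by
      rw [← cycCocycle_mul, ← map_mul, ha', inv_mul_cancel_right]
    have h2 : y / cycCocycle τ (Units.map (algebraMap K E : K →* E) a') =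
        (y / cycCocycle τ (Units.map (algebraMap K E : K →* E) a)) *
          cycCocycle τ (Units.map (algebraMap K E : K →* E)
            (Units.map (Algebra.norm K : E →* K) β)) := by
      rw [h1, div_mul_eq_mul_div, mul_div_mul_right_eq_div]
    rw [h2]
    exact lfu_isMulCoboundary₂_mul hcob (gecr_cycCocycle_norm_isMulCoboundary₂ τ hτ β)
  have hinv : ∀ (q : ℕ) [Fact q.Prime] (j : E →+* PadicAlgCl q),
      geInv q j y = geInv q j (cycCocycle τ (Units.map (algebraMap K E : K →* E) a')) :=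
    fun q _ j => geInv_eq_of_isMulCoboundary₂_div q j hy (hcyc a') hcob'
  have hr' : ∀ (q : ℕ) [Fact q.Prime] (j : E →+* PadicAlgCl q), q = r → geInv q j y = 0 := by
    intro q _ j hq
    subst hq
    exact hr j
  -- the local formula
  set D : S14.Div K := S14.divOf K ((a' : Kˣ) : K) with hD
  set Fv : HeightOneSpectrum (𝓞 K) → (E ≃ₐ[K] E) := fun v =>
    geRes (K := K) (lgEmb (gePrime K v) (𝔧.emb v))
      (lfFrob (gePrime K v) (lgField (gePrime K v) ((𝔧.emb v).comp (algebraMap K E)))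
        (lgField (gePrime K v) (𝔧.emb v))) with hFv
  set T : HeightOneSpectrum (𝓞 K) → ℤ := fun v =>
    if gePrime K v = r then 0 else D v * (cycExp τ (Fv v) : ℤ) with hT
  have hformula : ∀ v : HeightOneSpectrum (𝓞 K), geInv (gePrime K v) (𝔧.emb v) y =
      ((((T v : ℤ) : ℚ) / (N : ℚ) : ℚ) : AddCircle (1 : ℚ)) := by
    intro v
    by_cases hv : gePrime K v = r
    · rw [hr' _ _ hv, hT]
      simp only [if_pos hv, Int.cast_zero, zero_div]
      rfl
    · obtain ⟨hur, hF⟩ := hfrob (gePrime K v) hv (𝔧.emb v)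
      rw [hinv, geInv_cycCocycle_of_unramified (gePrime K v) τ hτ a' (𝔧.emb v) hur,
        lfOrd_lgEmb_eq_divOf, 𝔧.place_eq v, hT]
      simp only [if_neg hv]
      rfl
  -- the divisibility `N ∣ ∑ T v`
  set x : ZMod n := Multiplicative.toAdd (χ τ) with hx
  have hχg : ∀ g : E ≃ₐ[K] E, Multiplicative.toAdd (χ g) = ((cycExp τ g : ℕ) : ℤ) • x := by
    intro g
    conv_lhs => rw [← cycExp_spec τ hτ g]
    rw [map_pow, toAdd_pow, natCast_zsmul]
  have hunit : ∀ v : HeightOneSpectrum (𝓞 K), ((r : ℕ) : 𝓞 K) ∉ v.asIdeal →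
      IsUnit ((Ideal.absNorm v.asIdeal : ℕ) : ZMod r) := by
    intro v hv
    apply gecr_isUnit_absNorm r 𝔧 v
    intro h
    apply hv
    have := natCast_gePrime_mem v
    rw [h] at this
    exact this
  have hTx : ∀ v ∈ D.support, T v • x = D v • Multiplicative.toAdd (ψ (gecrUnit r v)) := by
    intro v _
    by_cases hv : gePrime K v = r
    · have h1 : gecrUnit r v = 1 := by
        apply gecrUnit_eq_one_of_dvd
        rw [← hv]
        exact Nat.minFac_dvd _
      rw [h1, map_one, toAdd_one, smul_zero, hT]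
      simp only [if_pos hv, zero_smul]
    · obtain ⟨hur, hF⟩ := hfrob (gePrime K v) hv (𝔧.emb v)
      have hu := gecrUnit_coe r v (gecr_isUnit_absNorm r 𝔧 v hv)
      have h2 := hF (gecrUnit r v) (by rw [hu, 𝔧.place_eq v])
      rw [hT]
      simp only [if_neg hv]
      rw [mul_smul, ← hχg, ← h2]
  have hsumx : (∑ v ∈ D.support, T v) • x = 0 := by
    rw [Finset.sum_smul, Finset.sum_congr rfl hTx, ← gecr_toAdd_char_gecrU]
    rcases gecrU_divOf_of_oneMod r _ hβ hunit with h0 | h1
    · rw [h0, toMul_zero, map_one, toAdd_one]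
    · rw [h1, toMul_ofMul, gecr_char_neg_one hn ψ, toAdd_one]
  have hdvd : (N : ℤ) ∣ ∑ v ∈ D.support, T v := by
    rw [hN, orderOf_dvd_iff_zpow_eq_one]
    apply hχ
    rw [map_one, map_zpow]
    apply Multiplicative.toAdd.injective
    rw [toAdd_zpow, toAdd_one]
    exact hsumx
  -- conclusion
  rw [finsum_congr hformula, finsum_eq_sum_of_support_subset (s := D.support)]
  · have hcoe : ∑ v ∈ D.support, ((((T v : ℤ) : ℚ) / (N : ℚ) : ℚ) : AddCircle (1 : ℚ)) =
        (((((∑ v ∈ D.support, T v : ℤ) : ℤ) : ℚ) / (N : ℚ) : ℚ) : AddCircle (1 : ℚ)) := by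
      rw [Int.cast_sum, Finset.sum_div]
      exact (map_sum (QuotientAddGroup.mk' (AddSubgroup.zmultiples (1 : ℚ))) _ _).symm
    rw [hcoe]
    exact gecr_coe_eq_zero hNpos.ne' hdvd
  · intro v hv
    rw [Function.mem_support] at hv
    rw [Finset.mem_coe, Finsupp.mem_support_iff]
    intro h0
    apply hv
    have hT0 : T v = 0 := by
      rw [hT]
      by_cases hvr : gePrime K v = r
      · simp only [if_pos hvr]
      · simp only [if_neg hvr]
        rw [h0, zero_mul]
    rw [hT0, Int.cast_zero, zero_div]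
    rfl

end CycRecip

end Fermat.Agent.S55
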