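/-
S55 / GLOBAL / RECIP, leaf GE-E `Recip/Cyclotomic.lean` (helper19): the cyclic cyclotomic splitting
field.  EXACT statement `ge_exists_cyclotomic` of `Recip/CyclotomicSpec.lean` (origin/helper6 20c208d).
Imports: the spec's import `Recip/Defs` + helper2's REAL LG files `LG/Dense`, `LG/Place`, `LG/Decomp`
(`lgdense_mem_span`, `lg_isGalois`, `lfResCard_lgField`, `lg_exists_galois_of_extends`).

Route.  `C = CyclotomicField r K`, `κ = ψ ∘ (cyclotomic character) : Gal(C/K) → ℤ/n`,
`E = C^{ker κ}` (an `IntermediateField K C`), `χ` = the character induced by `κ` on `Gal(E/K)`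
(`gecyc_exists_character`), `M` = the compositum of `L` and `E` inside an algebraic closure
(`gecyc_exists_compositum`: `Gal(M/E)` injects into `Gal(L/K)`).  Local part (`gecyc_local`):
a `q`-adic embedding `jE` of `E` extends to `jC` on `C`; `C_jC = K_i(ζ)` is unramified over `K_i`
as `q ≠ r` (`gecyc_adjoin_eq_top` + `lfUnramified_of_adjoin_root`), its Frobenius raises `ζ` to the
power `N v`, it comes from a global `g ∈ Gal(C/K)` (`gecyc_exists_global`) and restricts to the
Frobenius of `E_jE/K_i` (`gecyc_geRes_frob_eq`).  Helper names are prefixed `gecyc`.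
-/
import Fermat.Agent.S55.Global.Recip.Defs
import Fermat.Agent.S55.LG.Dense
import Fermat.Agent.S55.LG.Place
import Fermat.Agent.S55.LG.Decomp

set_option autoImplicit false
set_option linter.unusedSectionVars false
set_option linter.unusedVariables false

noncomputable section

namespace Fermat.Agent.S55

open NumberField IsDedekindDomain groupCohomology

section GlobalAbstract

/-- The character induced on the fixed field of the kernel. -/
theorem gecyc_exists_character {K C : Type*} [Field K] [Field C] [Algebra K C]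
    [FiniteDimensional K C] [IsGalois K C] {A : Type*} [Group A] (κ : (C ≃ₐ[K] C) →* A) :
    ∃ χ : (IntermediateField.fixedField κ.ker ≃ₐ[K] IntermediateField.fixedField κ.ker) →* A,
      Function.Injective χ ∧ ∀ g : C ≃ₐ[K] C,
        χ (AlgEquiv.restrictNormalHom (IntermediateField.fixedField κ.ker) g) = κ g := by
  have hsurj : Function.Surjective
      (AlgEquiv.restrictNormalHom (F := K) (K₁ := C) (IntermediateField.fixedField κ.ker)) :=
    AlgEquiv.restrictNormalHom_surjective C
  have hker : (AlgEquiv.restrictNormalHom (F := K) (K₁ := C)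
      (IntermediateField.fixedField κ.ker)).ker = κ.ker := by
    rw [IntermediateField.restrictNormalHom_ker, IntermediateField.fixingSubgroup_fixedField]
  refine ⟨(AlgEquiv.restrictNormalHom (IntermediateField.fixedField κ.ker)).liftOfSurjective hsurj
    ⟨κ, hker.le⟩, ?_, ?_⟩
  · rw [injective_iff_map_eq_one]
    intro y hy
    obtain ⟨g, rfl⟩ := hsurj y
    rw [MonoidHom.liftOfRightInverse_comp_apply] at hy
    have h1 : g ∈ κ.ker := hy
    rw [← hker] at h1
    exact h1
  · intro g
    exact MonoidHom.liftOfRightInverse_comp_apply _ _ _ _ g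

/-- The fixed subfield of a `K`-automorphism. -/
def gecycFix {K M : Type*} [Field K] [Field M] [Algebra K M] (σ : M ≃ₐ[K] M) :
    IntermediateField K M :=
  (RingHom.eqLocusField (σ : M →+* M) (RingHom.id M)).toIntermediateField
    (fun x => by
      change σ (algebraMap K M x) = algebraMap K M x
      exact σ.commutes x)

theorem mem_gecycFix {K M : Type*} [Field K] [Field M] [Algebra K M] (σ : M ≃ₐ[K] M) (x : M) :
    x ∈ gecycFix σ ↔ σ x = x := Iff.rfl

/-- The compositum of two finite Galois extensions (as external types). -/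
theorem gecyc_exists_compositum (K L E : Type) [Field K] [Field L] [Field E] [Algebra K L]
    [Algebra K E] [FiniteDimensional K L] [FiniteDimensional K E] [IsGalois K L] [IsGalois K E] :
    ∃ (M : Type) (_ : Field M) (_ : Algebra K M) (_ : Algebra L M) (_ : Algebra E M)
      (_ : IsScalarTower K L M) (_ : IsScalarTower K E M) (_ : FiniteDimensional K M)
      (_ : IsGalois K M), Module.finrank E M ∣ Module.finrank K L := by
  let Ω := AlgebraicClosure L
  let f : L →ₐ[K] Ω := IsScalarTower.toAlgHom K L Ω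
  let g : E →ₐ[K] Ω := IsAlgClosed.lift
  let A : IntermediateField K Ω := f.fieldRange
  let B : IntermediateField K Ω := g.fieldRange
  have hgA : IsGalois K A := IsGalois.of_algEquiv f.equivFieldRange
  have hgB : IsGalois K B := IsGalois.of_algEquiv g.equivFieldRange
  have hfA : FiniteDimensional K A := f.equivFieldRange.toLinearEquiv.finiteDimensional
  have hfB : FiniteDimensional K B := g.equivFieldRange.toLinearEquiv.finiteDimensional
  let M : IntermediateField K Ω := A ⊔ B
  have hAM : A ≤ M := le_sup_left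
  have hBM : B ≤ M := le_sup_right
  let fM : L →ₐ[K] M := f.codRestrict M.toSubalgebra (fun x => hAM ⟨x, rfl⟩)
  let gM : E →ₐ[K] M := g.codRestrict M.toSubalgebra (fun x => hBM ⟨x, rfl⟩)
  let algL : Algebra L M := fM.toRingHom.toAlgebra
  let algE : Algebra E M := gM.toRingHom.toAlgebra
  have towL : IsScalarTower K L M := IsScalarTower.of_algebraMap_eq (fun x => (fM.commutes x).symm)
  have towE : IsScalarTower K E M := IsScalarTower.of_algebraMap_eq (fun x => (gM.commutes x).symm)
  have hfM : FiniteDimensional K M := IntermediateField.finiteDimensional_sup A B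
  have hgM : IsGalois K M := inferInstance
  refine ⟨M, inferInstance, inferInstance, algL, algE, towL, towE, hfM, hgM, ?_⟩
  have hgalEM : IsGalois E M := IsGalois.tower_top_of_isGalois K E M
  have hfinEM : FiniteDimensional E M := FiniteDimensional.right K E M
  let φ : (M ≃ₐ[E] M) →* (L ≃ₐ[K] L) :=
    (AlgEquiv.restrictNormalHom L).comp (AlgEquiv.restrictScalarsHom K)
  have hφ : Function.Injective φ := by
    rw [injective_iff_map_eq_one]
    intro σ hσ
    have hL : ∀ l : L, σ (algebraMap L M l) = algebraMap L M l := by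
      intro l
      have h1 := AlgEquiv.restrictNormal_commutes (σ.restrictScalars K) L l
      have h2 : (σ.restrictScalars K).restrictNormal L = 1 := hσ
      rw [h2] at h1
      exact h1.symm
    have hE : ∀ e : E, σ (algebraMap E M e) = algebraMap E M e := fun e => σ.commutes e
    have hle : M ≤ (gecycFix (σ.restrictScalars K)).map M.val := by
      apply sup_le
      · rintro _ ⟨l, rfl⟩
        exact ⟨algebraMap L M l, hL l, rfl⟩
      · rintro _ ⟨e, rfl⟩
        exact ⟨algebraMap E M e, hE e, rfl⟩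
    ext x
    obtain ⟨y, hy, hyx⟩ := hle x.2
    have hxy : y = x := Subtype.ext hyx
    rw [← hxy]
    exact congrArg Subtype.val ((mem_gecycFix _ y).1 hy)
  rw [← IsGalois.card_aut_eq_finrank E M, ← IsGalois.card_aut_eq_finrank K L]
  exact Subgroup.card_dvd_of_injective φ hφ

end GlobalAbstract

section LocalAbstract

/-- Restriction of the Frobenius in a tower, seen globally. -/
theorem gecyc_geRes_frob_eq (q : ℕ) [Fact q.Prime]
    {K E C : Type} [Field K] [Field E] [Field C] [Algebra K E] [Algebra E C] [Algebra K C]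
    [IsScalarTower K E C] [Normal K E]
    (K₁ : Type) [Field K₁] [Algebra ℚ_[q] K₁] [FiniteDimensional ℚ_[q] K₁]
    (E₁ : Type) [Field E₁] [Algebra ℚ_[q] E₁] [FiniteDimensional ℚ_[q] E₁]
    (C₁ : Type) [Field C₁] [Algebra ℚ_[q] C₁] [FiniteDimensional ℚ_[q] C₁]
    [Algebra K₁ E₁] [IsScalarTower ℚ_[q] K₁ E₁] [Algebra E₁ C₁] [IsScalarTower ℚ_[q] E₁ C₁]
    [Algebra K₁ C₁] [IsScalarTower ℚ_[q] K₁ C₁] [IsScalarTower K₁ E₁ C₁] [Normal K₁ E₁]
    (ιE : E →+* E₁) (ιC : C →+* C₁)
    (hι : ∀ x, ιC (algebraMap E C x) = algebraMap E₁ C₁ (ιE x))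
    (hur : LfUnramified q K₁ C₁) (g : C ≃ₐ[K] C)
    (hg : ∀ x, ιC (g x) = lfFrob q K₁ C₁ (ιC x)) :
    geRes (K := K) ιE (lfFrob q K₁ E₁) = AlgEquiv.restrictNormalHom E g := by
  apply geRes_eq_of_spec
  intro x
  apply (algebraMap E₁ C₁).injective
  rw [← hι]
  have h1 : algebraMap E C (AlgEquiv.restrictNormalHom E g x) = g (algebraMap E C x) :=
    AlgEquiv.restrictNormal_commutes g E x
  rw [h1, hg, hι]
  have h2 : algebraMap E₁ C₁ (AlgEquiv.restrictNormalHom E₁ (lfFrob q K₁ C₁) (ιE x)) =
      lfFrob q K₁ C₁ (algebraMap E₁ C₁ (ιE x)) :=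
    AlgEquiv.restrictNormal_commutes (lfFrob q K₁ C₁) E₁ (ιE x)
  rw [← h2, lfFrob_restrictNormal q K₁ E₁ C₁ hur]

/-- If `C = K[ζ]` then `C_j = K₁[ζ]` for any presentation `K₁` of the local base field. -/
theorem gecyc_adjoin_eq_top (q : ℕ) [Fact q.Prime] {K C : Type} [Field K] [NumberField K]
    [Field C] [NumberField C] [Algebra K C] (jC : C →+* PadicAlgCl q)
    (K₁ : IntermediateField ℚ_[q] (PadicAlgCl q))
    (hK : ∀ x : K, jC (algebraMap K C x) ∈ K₁) [Algebra K₁ (lgField q jC)]
    (halg : ∀ x : K₁, ((algebraMap K₁ (lgField q jC) x : lgField q jC) : PadicAlgCl q) = x)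
    (ζ : C) (hζ : Algebra.adjoin K {ζ} = ⊤) :
    Algebra.adjoin K₁ {lgEmb q jC ζ} = ⊤ := by
  have hrange : ∀ y : C, lgEmb q jC y ∈ Algebra.adjoin K₁ {lgEmb q jC ζ} := by
    intro y
    have hy : y ∈ Algebra.adjoin K {ζ} := by rw [hζ]; exact Algebra.mem_top
    rw [Algebra.adjoin_singleton_eq_range_aeval] at hy
    obtain ⟨P, rfl⟩ := hy
    change lgEmb q jC (Polynomial.aeval ζ P) ∈ _
    rw [Polynomial.aeval_eq_sum_range, map_sum]
    apply sum_mem
    intro k _
    rw [Algebra.smul_def, map_mul, map_pow]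
    apply mul_mem
    · have h1 : lgEmb q jC (algebraMap K C (P.coeff k)) =
          algebraMap K₁ (lgField q jC) ⟨jC (algebraMap K C (P.coeff k)), hK _⟩ := by
        apply Subtype.ext
        rw [halg]
        rfl
      rw [h1]
      exact Subalgebra.algebraMap_mem _ _
    · exact pow_mem (Algebra.subset_adjoin (Set.mem_singleton _)) k
  rw [eq_top_iff]
  intro z _
  have hz := lgdense_mem_span q jC z
  have key : ∀ y : PadicAlgCl q, y ∈ Submodule.span ℚ_[q] (Set.range jC) →
      ∃ a : lgField q jC, a ∈ Algebra.adjoin K₁ {lgEmb q jC ζ} ∧ (a : PadicAlgCl q) = y := by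
    intro y hy
    induction hy using Submodule.span_induction with
    | mem y hy =>
      obtain ⟨x, rfl⟩ := hy
      exact ⟨lgEmb q jC x, hrange x, rfl⟩
    | zero => exact ⟨0, zero_mem _, rfl⟩
    | add y₁ y₂ _ _ h₁ h₂ =>
      obtain ⟨a₁, ha₁, rfl⟩ := h₁
      obtain ⟨a₂, ha₂, rfl⟩ := h₂
      exact ⟨a₁ + a₂, add_mem ha₁ ha₂, rfl⟩
    | smul c y _ h =>
      obtain ⟨a, ha, rfl⟩ := h
      refine ⟨algebraMap K₁ (lgField q jC) (algebraMap ℚ_[q] K₁ c) * a,
        mul_mem (Subalgebra.algebraMap_mem _ _) ha, ?_⟩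
      rw [Algebra.smul_def]
      change ((algebraMap K₁ (lgField q jC) (algebraMap ℚ_[q] K₁ c) : lgField q jC) :
        PadicAlgCl q) * (a : PadicAlgCl q) = _
      rw [halg]
      rfl
  obtain ⟨a, ha, haz⟩ := key _ hz
  have : a = z := Subtype.ext haz
  rw [← this]
  exact ha

/-- Local automorphisms come from global ones (any presentation of the base field). -/
theorem gecyc_exists_global (q : ℕ) [Fact q.Prime] {K C : Type} [Field K] [NumberField K]
    [Field C] [NumberField C] [Algebra K C] [IsGalois K C] (jC : C →+* PadicAlgCl q)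
    (K₁ : IntermediateField ℚ_[q] (PadicAlgCl q))
    (hK : ∀ x : K, jC (algebraMap K C x) ∈ K₁) [Algebra K₁ (lgField q jC)]
    (halg : ∀ x : K₁, ((algebraMap K₁ (lgField q jC) x : lgField q jC) : PadicAlgCl q) = x)
    (σ : lgField q jC ≃ₐ[K₁] lgField q jC) :
    ∃ g : C ≃ₐ[K] C, ∀ x, lgEmb q jC (g x) = σ (lgEmb q jC x) := by
  let j' : C →+* PadicAlgCl q :=
    ((lgField q jC).val : lgField q jC →+* PadicAlgCl q).comp
      ((σ : lgField q jC →+* lgField q jC).comp (lgEmb q jC))
  have h : j'.comp (algebraMap K C) = jC.comp (algebraMap K C) := by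
    ext x
    change ((σ (lgEmb q jC (algebraMap K C x)) : lgField q jC) : PadicAlgCl q) =
      jC (algebraMap K C x)
    have h1 : lgEmb q jC (algebraMap K C x) =
        algebraMap K₁ (lgField q jC) ⟨jC (algebraMap K C x), hK _⟩ := by
      apply Subtype.ext
      rw [halg]
      rfl
    rw [h1, σ.commutes, halg]
  obtain ⟨g, hg⟩ := lg_exists_galois_of_extends q jC j' h
  refine ⟨g, fun x => ?_⟩
  apply Subtype.ext
  exact (RingHom.congr_fun hg x).symm

end LocalAbstract

section Local

/-- The local behaviour of a subfield `E` of `C = K(ζ_r)` at a prime `q ≠ r`. -/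
theorem gecyc_local (q r : ℕ) [Fact q.Prime] [Fact r.Prime] (hqr : q ≠ r) {K C : Type}
    [Field K] [NumberField K] [Field C] [NumberField C] [Algebra K C] [IsGalois K C]
    (ζ : C) (hζ : IsPrimitiveRoot ζ r) (htop : Algebra.adjoin K {ζ} = ⊤)
    (E : IntermediateField K C) [IsGalois K E] (jE : E →+* PadicAlgCl q) :
    LfUnramified q (lgField q (jE.comp (algebraMap K E))) (lgField q jE) ∧
      ∃ g : C ≃ₐ[K] C,
        g ζ = ζ ^ Ideal.absNorm (lgPlace q (jE.comp (algebraMap K E))).asIdeal ∧
        geRes (K := K) (lgEmb q jE)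
          (lfFrob q (lgField q (jE.comp (algebraMap K E))) (lgField q jE)) =
            AlgEquiv.restrictNormalHom E g := by
  obtain ⟨jC, rfl⟩ := ge_exists_extend (K := E) (L := C) q jE
  have hqr' : ¬ q ∣ r := by
    rw [Nat.prime_dvd_prime_iff_eq Fact.out Fact.out]
    exact hqr
  have hKC : lgField q ((jC.comp (algebraMap E C)).comp (algebraMap K E)) ≤ lgField q jC :=
    (lgField_comp_le q _).trans (lgField_comp_le q jC)
  let algKC : Algebra (lgField q ((jC.comp (algebraMap E C)).comp (algebraMap K E)))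
      (lgField q jC) := (IntermediateField.inclusion hKC).toRingHom.toAlgebra
  have tow1 : IsScalarTower ℚ_[q] (lgField q ((jC.comp (algebraMap E C)).comp (algebraMap K E)))
      (lgField q jC) := IsScalarTower.of_algebraMap_eq (fun x => Subtype.ext rfl)
  have tow2 : IsScalarTower (lgField q ((jC.comp (algebraMap E C)).comp (algebraMap K E)))
      (lgField q (jC.comp (algebraMap E C))) (lgField q jC) :=
    IsScalarTower.of_algebraMap_eq (fun x => Subtype.ext rfl)
  have hgal₁ : IsGalois (lgField q ((jC.comp (algebraMap E C)).comp (algebraMap K E)))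
      (lgField q (jC.comp (algebraMap E C))) := lg_isGalois q (jC.comp (algebraMap E C))
  have hnorm₁ : Normal (lgField q ((jC.comp (algebraMap E C)).comp (algebraMap K E)))
      (lgField q (jC.comp (algebraMap E C))) := hgal₁.to_normal
  have hK : ∀ x : K, jC (algebraMap K C x) ∈
      lgField q ((jC.comp (algebraMap E C)).comp (algebraMap K E)) := fun x =>
    range_le_lgField q ((jC.comp (algebraMap E C)).comp (algebraMap K E)) x
  have halg : ∀ x : lgField q ((jC.comp (algebraMap E C)).comp (algebraMap K E)),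
      ((algebraMap (lgField q ((jC.comp (algebraMap E C)).comp (algebraMap K E))) (lgField q jC) x :
        lgField q jC) : PadicAlgCl q) = x := fun x => rfl
  have hζ₁ : IsPrimitiveRoot (lgEmb q jC ζ) r := hζ.map_of_injective (lgEmb_injective q jC)
  have hur : LfUnramified q (lgField q ((jC.comp (algebraMap E C)).comp (algebraMap K E)))
      (lgField q jC) :=
    lfUnramified_of_adjoin_root q _ _ r hqr' (lgEmb q jC ζ) hζ₁
      (gecyc_adjoin_eq_top q jC _ hK halg ζ htop)
  have hurE := ((lfUnramified_tower_iff q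
    (lgField q ((jC.comp (algebraMap E C)).comp (algebraMap K E)))
    (lgField q (jC.comp (algebraMap E C))) (lgField q jC)).1 hur).1
  obtain ⟨g, hg⟩ := gecyc_exists_global q jC _ hK halg
    (lfFrob q (lgField q ((jC.comp (algebraMap E C)).comp (algebraMap K E))) (lgField q jC))
  refine ⟨hurE, g, ?_, ?_⟩
  · apply lgEmb_injective q jC
    rw [hg, map_pow, lu_frob_apply_root q _ _ (isLfFrob_lfFrob q _ _ hur) hqr' hζ₁.pow_eq_one,
      lfResCard_lgField]
  · exact gecyc_geRes_frob_eq q _ _ (lgField q jC) (lgEmb q (jC.comp (algebraMap E C)))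
      (lgEmb q jC) (fun x => Subtype.ext rfl) hur g hg

end Local

section Cyclotomic

/-- A primitive root raised to two exponents. -/
theorem gecyc_zmod_eq_of_pow_eq {C : Type*} [CommRing C] [IsDomain C] {r : ℕ} [NeZero r] {ζ : C}
    (hζ : IsPrimitiveRoot ζ r) (a : ZMod r) (N : ℕ) (h : ζ ^ a.val = ζ ^ N) : a = (N : ZMod r) := by
  have h1 : ζ ^ N = ζ ^ (N % r) := by
    have h0 := pow_mod_orderOf ζ N
    rw [← hζ.eq_orderOf] at h0
    exact h0.symm
  rw [h1] at h
  have h2 := hζ.pow_inj (ZMod.val_lt a) (Nat.mod_lt N (NeZero.pos r)) h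
  rw [← ZMod.natCast_zmod_val a, h2, ZMod.natCast_mod]

theorem ge_exists_cyclotomic {p : ℕ} [Fact p.Prime] {K L : Type} [Field K] [NumberField K]
    [Field L] [NumberField L] [Algebra K L] [IsGalois K L] {m : ℕ}
    (hdeg : Module.finrank K L = p ^ m) (r : ℕ) [Fact r.Prime] (n : ℕ) [NeZero n]
    (ψ : (ZMod r)ˣ →* Multiplicative (ZMod n)) :
    ∃ (E : Type) (_ : Field E) (_ : NumberField E) (_ : Algebra K E)
      (M : Type) (_ : Field M) (_ : NumberField M) (_ : Algebra K M) (_ : Algebra L M)
      (_ : Algebra E M) (_ : IsScalarTower K L M) (_ : IsScalarTower K E M)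
      (_ : IsGalois K E) (_ : IsGalois K M)
      (χ : (E ≃ₐ[K] E) →* Multiplicative (ZMod n)),
      Function.Injective χ ∧ (∃ m' : ℕ, Module.finrank E M = p ^ m') ∧
      ∀ (q : ℕ) [Fact q.Prime], q ≠ r → ∀ jE : E →+* PadicAlgCl q,
        LfUnramified q (lgField q (jE.comp (algebraMap K E))) (lgField q jE) ∧
        ∀ u : (ZMod r)ˣ, (u : ZMod r) =
            (Ideal.absNorm (lgPlace q (jE.comp (algebraMap K E))).asIdeal : ZMod r) →
          χ (geRes (K := K) (lgEmb q jE)
            (lfFrob q (lgField q (jE.comp (algebraMap K E))) (lgField q jE))) = ψ u := by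
  have hr0 : NeZero r := ⟨(Fact.out : r.Prime).ne_zero⟩
  have hgalC : IsGalois K (CyclotomicField r K) := IsCyclotomicExtension.isGalois {r} K _
  have hfinC : FiniteDimensional K (CyclotomicField r K) :=
    IsCyclotomicExtension.finiteDimensional {r} K _
  have hζ : IsPrimitiveRoot (IsCyclotomicExtension.zeta r K (CyclotomicField r K)) r :=
    IsCyclotomicExtension.zeta_spec r K (CyclotomicField r K)
  have htop : Algebra.adjoin K {IsCyclotomicExtension.zeta r K (CyclotomicField r K)} = ⊤ :=
    IsCyclotomicExtension.adjoin_primitive_root_eq_top hζ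
  obtain ⟨χ, hχinj, hχ⟩ := gecyc_exists_character (ψ.comp (hζ.autToPow K))
  have hfinL : FiniteDimensional K L := inferInstance
  obtain ⟨M, iF, iKM, iLM, iEM, towL, towE, hfinM, hgalM, hdvd⟩ :=
    gecyc_exists_compositum K L (IntermediateField.fixedField (ψ.comp (hζ.autToPow K)).ker)
  have hnfM : NumberField M := NumberField.of_module_finite K M
  refine ⟨IntermediateField.fixedField (ψ.comp (hζ.autToPow K)).ker, inferInstance, inferInstance,
    inferInstance, M, iF, hnfM, iKM, iLM, iEM, towL, towE, inferInstance, hgalM, χ, hχinj, ?_, ?_⟩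
  · rw [hdeg] at hdvd
    obtain ⟨m', _, hm'⟩ := (Nat.dvd_prime_pow Fact.out).1 hdvd
    exact ⟨m', hm'⟩
  · intro q _ hqr jE
    obtain ⟨hur, g, hgζ, hres⟩ := gecyc_local q r hqr _ hζ htop _ jE
    refine ⟨hur, fun u hu => ?_⟩
    rw [hres, hχ g]
    change ψ (hζ.autToPow K g) = ψ u
    congr 1
    apply Units.ext
    rw [hu]
    apply gecyc_zmod_eq_of_pow_eq hζ
    rw [hζ.autToPow_spec K g, hgζ]

end Cyclotomic

end Fermat.Agent.S55
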