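/-
S55 / GLOBAL / RECIP, leaf GE-B3 `Recip/HasseNorm.lean`: HASSE NORM THEOREM (T1) in the GE language.
Wrapper of helper3's `Hasse` package (`hn_hasse_norm`, `hn_exists_S`).
-/
import Fermat.Agent.S55.Global.Recip.Defs
import Fermat.Agent.S55.Hasse.HasseNorm

set_option autoImplicit false
set_option linter.unusedSectionVars false
set_option linter.unusedVariables false

noncomputable section

namespace Fermat.Agent.S55

open NumberField IsDedekindDomain groupCohomology

section HasseNorm

variable {K L : Type} [Field K] [NumberField K] [Field L] [NumberField L] [Algebra K L]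

/-- Enlarging `S`: unramified outside, both `S`-class groups trivial, containing a given set. -/
theorem ge_exists_good_finset [IsGalois K L] (S₀ : Finset (HeightOneSpectrum (𝓞 K))) :
    ∃ S : Finset (HeightOneSpectrum (𝓞 K)), S₀ ⊆ S ∧
      GfiUnramOutside K L (S : Set (HeightOneSpectrum (𝓞 K))) ∧
      GfiClassTrivial K (S : Set (HeightOneSpectrum (𝓞 K))) ∧
      GfiClassTrivial L (gfiAbove K L (S : Set (HeightOneSpectrum (𝓞 K)))) := by
  obtain ⟨S, h0, h1, h2, h3, -⟩ := hn_exists_S (L := L) S₀ (1 : Kˣ)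
  exact ⟨S, h0, h1, h2, h3⟩

/-- HASSE NORM THEOREM for cyclic extensions of odd prime degree `p` with `μ_p ⊆ K`. -/
theorem ge_hasse_norm {p : ℕ} [Fact p.Prime] (hp2 : p ≠ 2) [IsGalois K L]
    (hdeg : Module.finrank K L = p) {ζ : K} (hζ : IsPrimitiveRoot ζ p) (a : Kˣ)
    (hloc : GeLocalNorm K L a) : ∃ y : Lˣ, Units.map (Algebra.norm K : L →* K) y = a :=
  hn_hasse_norm hp2 hdeg hζ a (fun q _ j => hloc q j)

end HasseNorm

end Fermat.Agent.S55
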