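/-
S55 / GLOBAL / RECIP, leaf GE-B1 `Recip/NormIndex.lean`: the index of the local norms at a finite set
of places is the product of the local degrees (exact statements of `NormIndexSpec.lean`).
Helper lemmas are prefixed `gni`.
-/
import Fermat.Agent.S55.Global.Recip.NormOpenSpec
import Fermat.Agent.S55.Global.Recip.SupportSpec
import Fermat.Agent.S55.GFI.FirstIneq

set_option autoImplicit false
set_option linter.unusedSectionVars false
set_option linter.unusedVariables false

noncomputable section

namespace Fermat.Agent.S55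

open NumberField IsDedekindDomain groupCohomology

/-- Abstract index computation: simultaneous surjectivity modulo the `N i` gives the index of the
intersection of the preimages as the product of the indices. -/
theorem gni_index_iInf_comap {G : Type*} [Group G] {ι : Type*} [Fintype ι] {H : ι → Type*}
    [∀ i, CommGroup (H i)] (f : ∀ i, G →* H i) (N : ∀ i, Subgroup (H i))
    (hsurj : ∀ t : ∀ i, H i, ∃ g : G, ∀ i, (t i)⁻¹ * f i g ∈ N i) :
    (⨅ i, (N i).comap (f i)).index = ∏ i, (N i).index := by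
  classical
  let φ : G →* ∀ i, H i ⧸ N i := MonoidHom.pi fun i => (QuotientGroup.mk' (N i)).comp (f i)
  have hker : φ.ker = ⨅ i, (N i).comap (f i) := by
    ext g
    rw [MonoidHom.mem_ker, Subgroup.mem_iInf]
    constructor
    · intro h i
      have := congrFun h i
      rw [Subgroup.mem_comap]
      exact (QuotientGroup.eq_one_iff _).mp this
    · intro h
      funext i
      exact (QuotientGroup.eq_one_iff _).mpr (Subgroup.mem_comap.mp (h i))
  have hsur : Function.Surjective φ := by
    intro t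
    choose y hy using fun i => QuotientGroup.mk_surjective (t i)
    obtain ⟨g, hg⟩ := hsurj y
    refine ⟨g, ?_⟩
    funext i
    rw [← hy i, eq_comm]
    exact QuotientGroup.eq.mpr (hg i)
  rw [← hker, Subgroup.index_ker, MonoidHom.range_eq_top.mpr hsur,
    Nat.card_congr Subgroup.topEquiv.toEquiv, Nat.card_pi]
  rfl

section NormIndex

variable {K L : Type} [Field K] [NumberField K] [Field L] [NumberField L] [Algebra K L]

/-- The decomposition group `Gal(L_j/K_j)` of a cyclic extension is cyclic. -/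
theorem gni_isCyclic [IsGalois K L] [IsCyclic (L ≃ₐ[K] L)] (q : ℕ) [Fact q.Prime]
    (j : L →+* PadicAlgCl q) :
    IsCyclic (lgField q j ≃ₐ[lgField q (j.comp (algebraMap K L))] lgField q j) := by
  obtain ⟨r, -, hinj, -⟩ := lg_exists_res (K := K) q j
  exact isCyclic_of_injective r hinj

/-- The local norm index at an embedding. -/
theorem gni_index_lfNormSubgroup [IsGalois K L] [IsCyclic (L ≃ₐ[K] L)] (q : ℕ) [Fact q.Prime]
    (j : L →+* PadicAlgCl q) :
    (lfNormSubgroup (lgField q (j.comp (algebraMap K L))) (lgField q j)).index =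
      Module.finrank (lgField q (j.comp (algebraMap K L))) (lgField q j) := by
  have := lg_isGalois (K := K) q j
  have := gni_isCyclic (K := K) q j
  exact lfNormSubgroup_index_of_isCyclic q _ _

variable (S : Finset (HeightOneSpectrum (𝓞 K))) (𝔧 : GeChoice K L)

/-- The local component map `Kˣ → K_vˣ` at a chosen embedding. -/
def gniLoc (v : HeightOneSpectrum (𝓞 K)) :
    Kˣ →* (lgField (gePrime K v) ((𝔧.emb v).comp (algebraMap K L)))ˣ :=
  Units.map (lgEmb (gePrime K v) ((𝔧.emb v).comp (algebraMap K L)) :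
    K →* lgField (gePrime K v) ((𝔧.emb v).comp (algebraMap K L)))

theorem gni_geNormAt_eq_iInf [IsGalois K L] :
    geNormAt K L (S : Set (HeightOneSpectrum (𝓞 K))) =
      ⨅ v : ↥S, (lfNormSubgroup (lgField (gePrime K v.1) ((𝔧.emb v.1).comp (algebraMap K L)))
        (lgField (gePrime K v.1) (𝔧.emb v.1))).comap (gniLoc 𝔧 v.1) := by
  ext a
  rw [Subgroup.mem_iInf, mem_geNormAt]
  constructor
  · intro h v
    rw [Subgroup.mem_comap]
    have hmem : lgPlace (gePrime K v.1) ((𝔧.emb v.1).comp (algebraMap K L)) ∈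
        (S : Set (HeightOneSpectrum (𝓞 K))) := by
      rw [𝔧.place_eq v.1]
      exact v.2
    exact h (gePrime K v.1) (𝔧.emb v.1) hmem
  · intro h q _ j hj
    obtain ⟨v, hvS, hv⟩ : ∃ v ∈ S, lgPlace q (j.comp (algebraMap K L)) = v := ⟨_, hj, rfl⟩
    have hq : gePrime K v = q := by
      rw [← hv]
      exact gePrime_lgPlace q _
    subst hq
    have h1 := h ⟨v, hvS⟩
    rw [Subgroup.mem_comap] at h1
    have h2 : lgPlace (gePrime K v) (j.comp (algebraMap K L)) =
        lgPlace (gePrime K v) ((𝔧.emb v).comp (algebraMap K L)) := by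
      rw [hv, 𝔧.place_eq v]
    exact (geLocalNormAt_iff_of_lgPlace_eq (gePrime K v) j (𝔧.emb v) h2 a).mpr h1

theorem gni_surj [IsGalois K L]
    (y : ∀ v : ↥S, (lgField (gePrime K v.1) ((𝔧.emb v.1).comp (algebraMap K L)))ˣ) :
    ∃ x : Kˣ, ∀ v : ↥S, (y v)⁻¹ * gniLoc 𝔧 v.1 x ∈
      lfNormSubgroup (lgField (gePrime K v.1) ((𝔧.emb v.1).comp (algebraMap K L)))
        (lgField (gePrime K v.1) (𝔧.emb v.1)) := by
  classical
  -- openness of the norm groups
  have hε : ∀ v : ↥S, ∃ ε : ℝ, 0 < ε ∧
      ∀ z : (lgField (gePrime K v.1) ((𝔧.emb v.1).comp (algebraMap K L)))ˣ,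
        spectralNorm ℚ_[gePrime K v.1] (lgField (gePrime K v.1) ((𝔧.emb v.1).comp (algebraMap K L)))
          ((z : lgField (gePrime K v.1) ((𝔧.emb v.1).comp (algebraMap K L))) - 1) < ε →
        z ∈ lfNormSubgroup (lgField (gePrime K v.1) ((𝔧.emb v.1).comp (algebraMap K L)))
          (lgField (gePrime K v.1) (𝔧.emb v.1)) := fun v =>
    lf_mem_norm_of_close (gePrime K v.1) _ _
  choose ε hεpos hε using hε
  -- a common `ε`
  obtain ⟨ε₀, hε₀pos, hε₀⟩ : ∃ ε₀ : ℝ, 0 < ε₀ ∧ ∀ v, ε₀ ≤ ε v := by
    rcases isEmpty_or_nonempty ↥S with hS | hS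
    · exact ⟨1, one_pos, fun v => isEmptyElim v⟩
    · obtain ⟨v₀, hv₀⟩ := Finite.exists_min ε
      exact ⟨ε v₀, hεpos v₀, hv₀⟩
  have hne : ∀ k k' : ↥S, k ≠ k' →
      lgPlace (gePrime K k.1) ((𝔧.emb k.1).comp (algebraMap K L)) ≠
        lgPlace (gePrime K k'.1) ((𝔧.emb k'.1).comp (algebraMap K L)) := by
    intro k k' hkk' h
    rw [𝔧.place_eq, 𝔧.place_eq] at h
    exact hkk' (Subtype.ext h)
  obtain ⟨x, hx⟩ := lg_weak_approx_units (fun v : ↥S => gePrime K v.1)
    (fun v : ↥S => (𝔧.emb v.1).comp (algebraMap K L)) hne y hε₀pos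
  refine ⟨x, fun v => ?_⟩
  apply hε v
  rw [spectralNorm_lgField]
  refine lt_of_lt_of_le ?_ (hε₀ v)
  have := hx v
  simpa [gniLoc] using this

/-- For cyclic `L/K` and a finite set `S` of places of `K`, the index in `Kˣ` of the elements
which are local norms at all places of `S` is the product of the local degrees
(weak approximation + local norm index theorem + openness of norm groups). -/
theorem geNormAt_index [IsGalois K L] [IsCyclic (L ≃ₐ[K] L)]
    (S : Finset (HeightOneSpectrum (𝓞 K))) (𝔧 : GeChoice K L) :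
    (geNormAt K L (S : Set (HeightOneSpectrum (𝓞 K)))).index =
      ∏ v ∈ S, Module.finrank (lgField (gePrime K v) ((𝔧.emb v).comp (algebraMap K L)))
        (lgField (gePrime K v) (𝔧.emb v)) := by
  rw [gni_geNormAt_eq_iInf S 𝔧, gni_index_iInf_comap _ _ (gni_surj S 𝔧),
    ← Finset.prod_coe_sort S]
  apply Finset.prod_congr rfl
  intro v _
  exact gni_index_lfNormSubgroup (K := K) (gePrime K v.1) (𝔧.emb v.1)

/-- Degree `p`: the local degree at `v` is `p` if `v` is nonsplit (one prime above) and `1`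
otherwise. -/
theorem ge_finrank_eq_of_prime_degree [IsGalois K L] {p : ℕ} [Fact p.Prime]
    (hdeg : Module.finrank K L = p) (q : ℕ) [Fact q.Prime] (j : L →+* PadicAlgCl q) :
    Module.finrank (lgField q (j.comp (algebraMap K L))) (lgField q j) =
      if (gfiFiber K L (lgPlace q (j.comp (algebraMap K L)))).ncard = 1 then p else 1 := by
  have hp : p.Prime := Fact.out
  have hlo : (lgPlace q j).asIdeal.LiesOver (lgPlace q (j.comp (algebraMap K L))).asIdeal :=
    lgp_liesOver q j
  have key := Ideal.ncard_primesOver_mul_ramificationIdxIn_mul_inertiaDegIn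
    (lgPlace q (j.comp (algebraMap K L))).asIdeal (𝓞 L) (L ≃ₐ[K] L)
  rw [IsGalois.card_aut_eq_finrank, hdeg,
    Ideal.ramificationIdxIn_eq_ramificationIdx (lgPlace q (j.comp (algebraMap K L))).asIdeal
      (lgPlace q j).asIdeal (L ≃ₐ[K] L),
    Ideal.inertiaDegIn_eq_inertiaDeg (lgPlace q (j.comp (algebraMap K L))).asIdeal
      (lgPlace q j).asIdeal (L ≃ₐ[K] L),
    ← gfipl_ncard_fiber, ← lg_finrank_eq] at key
  split_ifs with h
  · rw [h, one_mul] at key
    exact key
  · rcases gfiFiber_ncard hdeg (lgPlace q (j.comp (algebraMap K L))) with h' | h'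
    · exact absurd h' h
    · rw [h'] at key
      exact Nat.eq_of_mul_eq_mul_left hp.pos (by rw [key, mul_one])

theorem geNormAt_index_of_prime_degree [IsGalois K L] {p : ℕ} [Fact p.Prime]
    (hdeg : Module.finrank K L = p) (S : Finset (HeightOneSpectrum (𝓞 K))) :
    (geNormAt K L (S : Set (HeightOneSpectrum (𝓞 K)))).index = p ^ (gfiNonsplit K L S).card := by
  classical
  have hp : p.Prime := Fact.out
  have : IsCyclic (L ≃ₐ[K] L) := by
    apply isCyclic_of_prime_card (p := p)
    rw [IsGalois.card_aut_eq_finrank, hdeg]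
  obtain ⟨𝔧⟩ := geChoice_nonempty K L
  rw [geNormAt_index S 𝔧]
  have h1 : ∀ v ∈ S, Module.finrank (lgField (gePrime K v) ((𝔧.emb v).comp (algebraMap K L)))
      (lgField (gePrime K v) (𝔧.emb v)) = if (gfiFiber K L v).ncard = 1 then p else 1 := by
    intro v _
    rw [ge_finrank_eq_of_prime_degree hdeg (gePrime K v) (𝔧.emb v), 𝔧.place_eq v]
  rw [Finset.prod_congr rfl h1, Finset.prod_ite, Finset.prod_const, Finset.prod_const_one, mul_one]
  rfl

end NormIndex

end Fermat.Agent.S55
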