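/-
S55 / GLOBAL / RECIP, leaf GE-B2 `Recip/SemiLocal.lean`: second inequality, semilocal form.
Proves the statements of `SemiLocalSpec.lean` verbatim; black boxes = the imports of that spec file.
-/
import Fermat.Agent.S55.Global.Recip.NormOpenSpec
import Fermat.Agent.S55.GFI.FirstIneq

set_option autoImplicit false
set_option linter.unusedSectionVars false
set_option linter.unusedVariables false

noncomputable section

namespace Fermat.Agent.S55

open NumberField IsDedekindDomain groupCohomology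

section SemiLocal

variable {K L : Type} [Field K] [NumberField K] [Field L] [NumberField L] [Algebra K L]

/-- The valuation of a nonzero element in terms of its divisor. -/
theorem gesl_valuation_eq_exp_neg_divOf (v : HeightOneSpectrum (𝓞 K)) {a : K} (ha : a ≠ 0) :
    v.valuation K a = WithZero.exp (-(S14.divOf K a v)) := by
  rw [S14.divOf_apply]
  exact gfict_valuation_eq_exp_neg_count v ha

/-- The norm of a divisor of `L` is, at a place `v`, divisible by the common residue degree of the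
places above `v` (Galois case). -/
theorem gesl_inertiaDeg_dvd_normDiv [IsGalois K L] (v : HeightOneSpectrum (𝓞 K))
    (w : HeightOneSpectrum (𝓞 L)) (hw : S14.placeBelow K L w = v) (E : S14.Div L) :
    ((w.asIdeal.inertiaDeg (𝓞 K) : ℕ) : ℤ) ∣ S14.normDiv K L E v := by
  classical
  have key : S14.normDiv K L E =
      ∑ w' ∈ E.support, S14.normDiv K L (Finsupp.single w' (E w')) := by
    rw [← map_sum]
    congr 1
    exact (Finsupp.sum_single E).symm
  rw [key, Finsupp.finsetSum_apply]
  refine Finset.dvd_sum fun w' _ => ?_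
  rw [S14.normDiv_single, Finsupp.single_apply]
  split_ifs with h
  · have h1 : w'.asIdeal.LiesOver v.asIdeal := ⟨by rw [← h]; rfl⟩
    have h2 : w.asIdeal.LiesOver v.asIdeal := ⟨by rw [← hw]; rfl⟩
    have h3 : w'.asIdeal.inertiaDeg (𝓞 K) = w.asIdeal.inertiaDeg (𝓞 K) :=
      Ideal.inertiaDeg_eq_of_isGaloisGroup v.asIdeal w'.asIdeal w.asIdeal (L ≃ₐ[K] L)
    rw [h3]
    exact Dvd.intro _ rfl
  · exact dvd_zero _

/-- An element whose divisor outside `S` is the norm of a divisor of `L` is a local norm at all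
places outside `S`, if `L/K` is unramified outside `S`. -/
theorem mem_geNormOutside_of_divOf_eq_normDiv [IsGalois K L]
    (S : Finset (HeightOneSpectrum (𝓞 K)))
    (hunr : GfiUnramOutside K L (S : Set (HeightOneSpectrum (𝓞 K)))) (b : Kˣ) (E : S14.Div L)
    (h : ∀ v : HeightOneSpectrum (𝓞 K), v ∉ S → S14.divOf K (b : K) v = S14.normDiv K L E v) :
    b ∈ geNormOutside K L (S : Set (HeightOneSpectrum (𝓞 K))) := by
  rw [mem_geNormOutside]
  intro q _ j hj
  have hj' : lgPlace q (j.comp (algebraMap K L)) ∉ S := hj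
  have hwv : (lgPlace q j).under (𝓞 K) = lgPlace q (j.comp (algebraMap K L)) :=
    HeightOneSpectrum.ext (lgPlace_under q j)
  have hram : gfiRamIdx K (lgPlace q j) = 1 := hunr (lgPlace q j) (by rw [hwv]; exact hj)
  have hlies : (lgPlace q j).asIdeal.LiesOver (lgPlace q (j.comp (algebraMap K L))).asIdeal :=
    ⟨(lgPlace_under q j).symm⟩
  have hur : LfUnramified q (lgField q (j.comp (algebraMap K L))) (lgField q j) := by
    unfold LfUnramified
    rw [lfRamIdx_lgField, ← Ideal.ramificationIdx'_eq_ramificationIdx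
      (lgPlace q (j.comp (algebraMap K L))).asIdeal (lgPlace q j).asIdeal
      (lgPlace q (j.comp (algebraMap K L))).ne_bot]
    unfold gfiRamIdx at hram
    rw [hwv] at hram
    exact hram
  rw [geLocalNormAt_iff_of_unramified q j hur b, lfOrd_lgEmb_eq_divOf, h _ hj']
  have hfin : Module.finrank (lgField q (j.comp (algebraMap K L))) (lgField q j) =
      (lgPlace q j).asIdeal.inertiaDeg (𝓞 K) := by
    have h1 := lfRamIdx_mul_lfInertiaDeg q (lgField q (j.comp (algebraMap K L))) (lgField q j)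
    have h2 : lfRamIdx q (lgField q (j.comp (algebraMap K L))) (lgField q j) = 1 := hur
    rw [h2, one_mul, lfInertiaDeg_lgField] at h1
    exact h1.symm
  rw [hfin]
  exact gesl_inertiaDeg_dvd_normDiv _ (lgPlace q j) (HeightOneSpectrum.ext (lgPlace_under q j)) E

/-- SECOND INEQUALITY, SEMILOCAL FORM (degree `p`): `S ⊇` ramified places, `Cl_S(K) = 1`.  Then
`Kˣ / (W · V_S)` has order at most `p`, where `W` = local norms outside `S`, `V_S` = local norms
at `S`. -/
theorem ge_second_semilocal {p : ℕ} [Fact p.Prime] [IsGalois K L]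
    (hdeg : Module.finrank K L = p) (S : Finset (HeightOneSpectrum (𝓞 K)))
    (hunr : GfiUnramOutside K L (S : Set (HeightOneSpectrum (𝓞 K))))
    (hCl : GfiClassTrivial K (S : Set (HeightOneSpectrum (𝓞 K)))) :
    (geNormOutside K L (S : Set (HeightOneSpectrum (𝓞 K))) ⊔
      geNormAt K L (S : Set (HeightOneSpectrum (𝓞 K)))).index ≠ 0 ∧
    (geNormOutside K L (S : Set (HeightOneSpectrum (𝓞 K))) ⊔
      geNormAt K L (S : Set (HeightOneSpectrum (𝓞 K)))).index ≤ p := by
  classical
  have hp : p.Prime := Fact.out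
  obtain ⟨𝔪, h𝔪, h𝔪S, hmod⟩ := ge_exists_modulus (L := L) S
  obtain ⟨D₀, hD₀, hrep⟩ := gd_second_inequality K (F := L) hdeg 𝔪 h𝔪
  -- an element with divisor `D₀` outside `S`
  obtain ⟨x₀, hx₀⟩ := hCl (-D₀)
  have hx₀div : ∀ v : HeightOneSpectrum (𝓞 K), v ∉ S → S14.divOf K (x₀ : K) v = D₀ v := by
    intro v hv
    have h1 := hx₀ v (by exact_mod_cast hv)
    rw [gesl_valuation_eq_exp_neg_divOf v x₀.ne_zero, Finsupp.neg_apply] at h1
    exact neg_inj.mp (WithZero.exp_injective h1)
  set H : Subgroup Kˣ := geNormOutside K L (S : Set (HeightOneSpectrum (𝓞 K))) ⊔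
      geNormAt K L (S : Set (HeightOneSpectrum (𝓞 K))) with hH
  -- every element is congruent to a power of `x₀`
  have hkey : ∀ x : Kˣ, ∃ k : ℕ, x / x₀ ^ k ∈ H := by
    intro x
    set D : S14.Div K := (S14.divOf K (x : K)).filter (fun v => v ∉ S) with hD
    have hDprime : gdPrimeTo K 𝔪 D := fun v hv =>
      Finsupp.filter_apply_neg _ _ (not_not.mpr ((h𝔪S v).mp hv))
    obtain ⟨k, y, E, hy, hE, hDeq⟩ := hrep D hDprime
    have hy0 : y ≠ 0 := by
      obtain ⟨a, b, ha, hb, -, -, -, rfl⟩ := hy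
      exact div_ne_zero (RingOfIntegers.coe_ne_zero_iff.mpr ha)
        (RingOfIntegers.coe_ne_zero_iff.mpr hb)
    refine ⟨k, ?_⟩
    have hyV : Units.mk0 y hy0 ∈ geNormAt K L (S : Set (HeightOneSpectrum (𝓞 K))) :=
      hmod (Units.mk0 y hy0) hy
    have hzW : x / x₀ ^ k / Units.mk0 y hy0 ∈
        geNormOutside K L (S : Set (HeightOneSpectrum (𝓞 K))) := by
      apply mem_geNormOutside_of_divOf_eq_normDiv S hunr _ E
      intro v hv
      have hDv : D v = S14.divOf K (x : K) v := Finsupp.filter_apply_pos _ _ hv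
      have h2 := DFunLike.congr_fun hDeq v
      rw [hDv, Finsupp.add_apply, Finsupp.add_apply, Finsupp.smul_apply, ← hx₀div v hv] at h2
      have hx₀k : ((x₀ : K) ^ k) ≠ 0 := pow_ne_zero _ x₀.ne_zero
      rw [Units.val_div_eq_div_val, Units.val_div_eq_div_val, Units.val_pow_eq_pow_val,
        Units.val_mk0, div_eq_mul_inv, div_eq_mul_inv,
        S14.fi_divOf_mul K (mul_ne_zero x.ne_zero (inv_ne_zero hx₀k)) (inv_ne_zero hy0),
        S14.fi_divOf_mul K x.ne_zero (inv_ne_zero hx₀k), S14.fi_divOf_inv, S14.fi_divOf_inv,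
        S14.fi_divOf_pow K x₀.ne_zero, Finsupp.add_apply, Finsupp.add_apply, Finsupp.neg_apply,
        Finsupp.neg_apply, Finsupp.smul_apply, h2]
      ring
    have h3 : x / x₀ ^ k = x / x₀ ^ k / Units.mk0 y hy0 * Units.mk0 y hy0 :=
      (div_mul_cancel _ _).symm
    rw [h3]
    exact Subgroup.mul_mem_sup hzW hyV
  -- the `p`-th power of `x₀` is a norm outside `S`
  have hpow : x₀ ^ p ∈ H := by
    obtain ⟨E', hE', hEq⟩ := gd_nsmul_eq_normDiv K (F := L) 𝔪 D₀ hD₀
    rw [hdeg] at hEq
    apply Subgroup.mem_sup_left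
    apply mem_geNormOutside_of_divOf_eq_normDiv S hunr _ E'
    intro v hv
    rw [Units.val_pow_eq_pow_val, S14.fi_divOf_pow K x₀.ne_zero, Finsupp.smul_apply,
      hx₀div v hv, ← Finsupp.smul_apply, hEq]
  -- the quotient is generated by the class of `x₀`, which is killed by `p`
  let φ : Fin p → Kˣ ⧸ H := fun r => QuotientGroup.mk (x₀ ^ (r : ℕ))
  have hφ : Function.Surjective φ := by
    intro c
    induction c using QuotientGroup.induction_on with
    | H x =>
      obtain ⟨k, hk⟩ := hkey x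
      refine ⟨⟨k % p, Nat.mod_lt _ hp.pos⟩, ?_⟩
      show (QuotientGroup.mk (x₀ ^ (k % p)) : Kˣ ⧸ H) = QuotientGroup.mk x
      rw [QuotientGroup.eq]
      have h4 : (x₀ ^ (k % p))⁻¹ * x = x / x₀ ^ k * (x₀ ^ p) ^ (k / p) := by
        have hk' : x₀ ^ k = (x₀ ^ p) ^ (k / p) * x₀ ^ (k % p) := by
          rw [← pow_mul, ← pow_add, Nat.div_add_mod]
        rw [hk', div_mul_eq_mul_div, mul_comm x, mul_div_mul_left_eq_div, div_eq_inv_mul]
      rw [h4]
      exact H.mul_mem hk (H.pow_mem hpow _)
  have hfin : Finite (Kˣ ⧸ H) := Finite.of_surjective φ hφ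
  have hcard : Nat.card (Kˣ ⧸ H) ≤ p := by
    have h5 := Nat.card_le_card_of_surjective φ hφ
    rwa [Nat.card_fin] at h5
  rw [Subgroup.index_eq_card]
  exact ⟨Nat.card_pos.ne', hcard⟩

end SemiLocal

end Fermat.Agent.S55
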