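/-
S55 / GLOBAL / RECIP: SHIM. The statements of this former spec file are proved in `Recip/HasseNorm.lean`.
-/
import Fermat.Agent.S55.Global.Recip.NormIndexSpec
import Fermat.Agent.S55.Global.Recip.SemiLocalSpec
import Fermat.Agent.S55.Global.Recip.HasseNorm
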