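/-
S55 / GLOBAL / RECIP, leaf GE-C `Recip/HassePrinciple.lean`: HASSE PRINCIPLE (T2) for `2`-cocycles
of Galois extensions of `p`-power degree, by dévissage to the cyclic case of degree `p`
(`ge_hasse_norm`).  Helper names are prefixed `gehp`.
-/
import Fermat.Agent.S55.Global.Recip.HasseNormSpec
import Fermat.Agent.S55.Global.Recip.LocCycSpec

set_option autoImplicit false
set_option linter.unusedSectionVars false
set_option linter.unusedVariables false
set_option linter.style.haveILetI false

noncomputable section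

namespace Fermat.Agent.S55

open NumberField IsDedekindDomain groupCohomology

section Aux

/-- over a trivial group every `2`-cocycle is a coboundary -/
theorem gehp_cob_of_subsingleton {G : Type} [Group G] [Subsingleton G] {X : Type} [CommGroup X]
    [MulDistribMulAction G X] (c : G × G → X) : IsMulCoboundary₂ c := by
  refine ⟨fun _ => c (1, 1), fun g h => ?_⟩
  have hg : g = 1 := Subsingleton.elim _ _
  have hh : h = 1 := Subsingleton.elim _ _
  subst hg hh
  simp

/-- if `c / c'` and `c'` are coboundaries then so is `c` -/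
theorem gehp_cob_of_div {G : Type} [Group G] {X : Type} [CommGroup X] [MulDistribMulAction G X]
    {c c' : G × G → X} (h : IsMulCoboundary₂ (c / c')) (h' : IsMulCoboundary₂ c') :
    IsMulCoboundary₂ c := by
  have := lbu_cob_mul h h'
  rwa [div_mul_cancel] at this

/-- if `c / c'` and `c` are coboundaries then so is `c'` -/
theorem gehp_cob_of_div' {G : Type} [Group G] {X : Type} [CommGroup X] [MulDistribMulAction G X]
    {c c' : G × G → X} (h : IsMulCoboundary₂ (c / c')) (h' : IsMulCoboundary₂ c) :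
    IsMulCoboundary₂ c' := by
  have := lbu_cob_div h' h
  rwa [div_div_cancel] at this

/-- a group of order `p ^ (m + 1)` has a normal subgroup of index `p` and order `p ^ m` -/
theorem gehp_exists_normal {G : Type} [Group G] [Finite G] {p : ℕ} [Fact p.Prime] {m : ℕ}
    (hG : Nat.card G = p ^ (m + 1)) :
    ∃ N : Subgroup G, N.Normal ∧ Nat.card N = p ^ m ∧ N.index = p := by
  obtain ⟨N, hN⟩ := Sylow.exists_subgroup_card_pow_prime (G := G) p (n := m)
    (by rw [hG]; exact pow_dvd_pow p (Nat.le_succ m))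
  have hp : p.Prime := Fact.out
  have hidx : N.index = p := by
    have h1 := N.card_mul_index
    rw [hN, hG, pow_succ] at h1
    exact Nat.eq_of_mul_eq_mul_left (pow_pos hp.pos m) h1
  refine ⟨N, ?_, hN, hidx⟩
  apply Subgroup.normal_of_index_eq_minFac_card
  rw [hidx, hG, hp.pow_minFac (Nat.succ_ne_zero m)]

end Aux

section LocLG

variable (q : ℕ) [Fact q.Prime] {K L : Type} [Field K] [NumberField K] [Field L] [NumberField L]
  [Algebra K L]

theorem gehp_geLocLG_div (j : L →+* PadicAlgCl q) (c c' : (L ≃ₐ[K] L) × (L ≃ₐ[K] L) → Lˣ) :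
    geLocLG q j (c / c') = geLocLG q j c / geLocLG q j c' :=
  geLoc_div (K := K) (Kv := lgField q (j.comp (algebraMap K L))) (lgEmb q j) c c'

/-- if `c / c'` is a global coboundary, then `c` is locally a coboundary iff `c'` is -/
theorem gehp_geLocLG_cob_iff [IsGalois K L] (j : L →+* PadicAlgCl q)
    {c c' : (L ≃ₐ[K] L) × (L ≃ₐ[K] L) → Lˣ} (h : IsMulCoboundary₂ (c / c')) :
    IsMulCoboundary₂ (geLocLG q j c) ↔ IsMulCoboundary₂ (geLocLG q j c') := by
  have h1 := geLocLG_isMulCoboundary₂ q j (c / c') h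
  rw [gehp_geLocLG_div] at h1
  exact ⟨fun h2 => gehp_cob_of_div' h1 h2, fun h2 => gehp_cob_of_div h1 h2⟩

end LocLG

section Cyclic

variable {K E : Type} [Field K] [Field E] [Algebra K E] [FiniteDimensional K E] [IsGalois K E]

/-- an element of `Eˣ` fixed by a generator of `Gal(E/K)` comes from `Kˣ` -/
theorem gehp_exists_of_fixed (σ : E ≃ₐ[K] E) (hσ : ∀ g : E ≃ₐ[K] E, g ∈ Subgroup.zpowers σ)
    (x : Eˣ) (hx : σ • x = x) : ∃ a : Kˣ, Units.map (algebraMap K E : K →* E) a = x := by
  have hfix : ∀ g : E ≃ₐ[K] E, g (x : E) = x := by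
    intro g
    have := cyc_smul_eq σ hσ hx g
    exact congrArg Units.val this
  obtain ⟨y, hy⟩ := (IsGalois.mem_range_algebraMap_iff_fixed (F := K) (E := E) (x : E)).2 hfix
  have hy0 : y ≠ 0 := by
    rintro rfl
    rw [map_zero] at hy
    exact x.ne_zero hy.symm
  exact ⟨Units.mk0 y hy0, Units.ext hy⟩

/-- for cyclic `E/K`: if `a` is a global norm then `cycCocycle σ a` is a coboundary -/
theorem gehp_cyc_cob_of_norm (σ : E ≃ₐ[K] E) (hσ : ∀ g : E ≃ₐ[K] E, g ∈ Subgroup.zpowers σ)
    (a : Kˣ) (z : Eˣ) (hz : Units.map (Algebra.norm K : E →* K) z = a) :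
    IsMulCoboundary₂ (cycCocycle σ (Units.map (algebraMap K E : K →* E) a)) := by
  have ha : σ • Units.map (algebraMap K E : K →* E) a = Units.map (algebraMap K E : K →* E) a := by
    apply Units.ext
    change σ (algebraMap K E (a : K)) = algebraMap K E (a : K)
    exact σ.commutes _
  rw [cycCocycle_isMulCoboundary₂_iff σ hσ _ ha]
  refine ⟨z, ?_⟩
  apply Units.ext
  have h1 := lfo_prod_pow_eq_norm hσ (z : E)
  rw [cycNorm, Units.coe_prod]
  simp only [Units.coe_map, MonoidHom.coe_coe]
  rw [← hz]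
  simp only [Units.coe_map]
  rw [← h1]
  rfl

end Cyclic

/-- the induction: HASSE PRINCIPLE for all Galois extensions of degree `p ^ m` -/
theorem gehp_aux {p : ℕ} [Fact p.Prime] (hp2 : p ≠ 2) (m : ℕ) :
    ∀ (K L : Type) [Field K] [NumberField K] [Field L] [NumberField L] [Algebra K L]
      [IsGalois K L], Module.finrank K L = p ^ m → ∀ ζ : K, IsPrimitiveRoot ζ p →
      ∀ c : (L ≃ₐ[K] L) × (L ≃ₐ[K] L) → Lˣ, IsMulCocycle₂ c →
      (∀ (q : ℕ) [Fact q.Prime] (j : L →+* PadicAlgCl q), IsMulCoboundary₂ (geLocLG q j c)) →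
      IsMulCoboundary₂ c := by
  induction m with
  | zero =>
    intro K L _ _ _ _ _ _ hdeg ζ hζ c hc hloc
    have hcard : Nat.card (L ≃ₐ[K] L) = 1 := by
      rw [IsGalois.card_aut_eq_finrank, hdeg, pow_zero]
    have : Subsingleton (L ≃ₐ[K] L) := (Nat.card_eq_one_iff_unique.1 hcard).1
    exact gehp_cob_of_subsingleton c
  | succ m ih =>
    intro K L _ _ _ _ _ _ hdeg ζ hζ c hc hloc
    have hp : p.Prime := Fact.out
    have hcard : Nat.card (L ≃ₐ[K] L) = p ^ (m + 1) := by
      rw [IsGalois.card_aut_eq_finrank, hdeg]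
    obtain ⟨N, hNn, hNcard, hNidx⟩ := gehp_exists_normal hcard
    -- the fixed field
    let E : IntermediateField K L := IntermediateField.fixedField N
    haveI : IsGalois K E := IsGalois.of_fixedField_normal_subgroup N
    have hEL : Module.finrank E L = p ^ m := by
      rw [IntermediateField.finrank_fixedField_eq_card, hNcard]
    have hKE : Module.finrank K E = p := by
      have h1 := Module.finrank_mul_finrank K E L
      rw [hEL, hdeg, pow_succ, mul_comm] at h1
      exact Nat.eq_of_mul_eq_mul_left (pow_pos hp.pos m) h1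
    have hζE : IsPrimitiveRoot (algebraMap K E ζ) p :=
      hζ.map_of_injective (algebraMap K E).injective
    -- the restriction to `L/E` is a coboundary by induction
    have hcE : IsMulCocycle₂ (lfBC K L E L c) := lbu_lfBC_cocycle K L E L c hc
    have hres : IsMulCoboundary₂ (lfBC K L E L c) :=
      ih E L hEL (algebraMap K E ζ) hζE (lfBC K L E L c) hcE
        (fun q _ j => geLocLG_restriction_isMulCoboundary₂ q (K := K) (E := E) (M := L) j hc
          (hloc q j))
    -- descent to the cyclic extension `E/K`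
    obtain ⟨y, hy, hcy⟩ := ge_exists_descent K E L c hc hres
    have hcardE : Nat.card (E ≃ₐ[K] E) = p := by
      rw [IsGalois.card_aut_eq_finrank, hKE]
    haveI : IsCyclic (E ≃ₐ[K] E) := isCyclic_of_prime_card hcardE
    obtain ⟨σ, hσ⟩ := IsCyclic.exists_generator (α := E ≃ₐ[K] E)
    obtain ⟨hfix, hycyc⟩ := exists_cycCocycle_of_isMulCocycle₂ σ hσ y hy
    obtain ⟨a, ha⟩ := gehp_exists_of_fixed σ hσ _ hfix
    rw [← ha] at hycyc
    -- `a` is a local norm everywhere
    have hlocE : ∀ (q : ℕ) [Fact q.Prime] (jE : E →+* PadicAlgCl q),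
        IsMulCoboundary₂ (geLocLG q jE y) := by
      intro q _ jE
      obtain ⟨j, rfl⟩ := ge_exists_extend q (K := E) (L := L) jE
      rw [← geLocLG_inflation_isMulCoboundary₂_iff q (K := K) (E := E) (M := L) j hy]
      exact (gehp_geLocLG_cob_iff q j hcy).1 (hloc q j)
    have hnorm : GeLocalNorm K E a := by
      intro q _ jE
      rw [← geLocLG_cycCocycle_isMulCoboundary₂_iff q σ hσ a jE]
      exact (gehp_geLocLG_cob_iff q jE hycyc).1 (hlocE q jE)
    obtain ⟨z, hz⟩ := ge_hasse_norm hp2 hKE hζ a hnorm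
    -- conclusion
    have hcyc : IsMulCoboundary₂ (cycCocycle σ (Units.map (algebraMap K E : K →* E) a)) :=
      gehp_cyc_cob_of_norm σ hσ a z hz
    have hycob : IsMulCoboundary₂ y := gehp_cob_of_div hycyc hcyc
    exact gehp_cob_of_div hcy (lbu_lfBC_coboundary K E K L y hycob)

section HassePrinciple

variable {K L : Type} [Field K] [NumberField K] [Field L] [NumberField L] [Algebra K L]

/-- HASSE PRINCIPLE for `2`-cocycles of Galois extensions of `p`-power degree (`p` odd,
`μ_p ⊆ K`): a cocycle which is locally a coboundary at every embedding is a coboundary. -/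
theorem ge_hasse_principle {p : ℕ} [Fact p.Prime] (hp2 : p ≠ 2) [IsGalois K L] {m : ℕ}
    (hdeg : Module.finrank K L = p ^ m) {ζ : K} (hζ : IsPrimitiveRoot ζ p)
    (c : (L ≃ₐ[K] L) × (L ≃ₐ[K] L) → Lˣ) (hc : IsMulCocycle₂ c)
    (hloc : ∀ (q : ℕ) [Fact q.Prime] (j : L →+* PadicAlgCl q),
      IsMulCoboundary₂ (geLocLG q j c)) : IsMulCoboundary₂ c :=
  gehp_aux hp2 m K L hdeg ζ hζ c hc hloc

end HassePrinciple

end Fermat.Agent.S55
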