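/-
S55 / GLOBAL / RECIP, leaf GE-H: RECIPROCITY (T3), assembly.
Black boxes: the spec files imported below.
-/
import Fermat.Agent.S55.Global.Recip.CycRecipSpec
import Fermat.Agent.S55.Global.Recip.HassePrincipleSpec
import Fermat.Agent.S55.Global.Recip.AuxPrimeSpec
import Fermat.Agent.S55.Global.Recip.CyclotomicSpec

set_option autoImplicit false
set_option linter.unusedSectionVars false
set_option linter.unusedVariables false

noncomputable section

namespace Fermat.Agent.S55

open NumberField IsDedekindDomain groupCohomology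

section Recip

/-- The character value at a power of a unit: auxiliary arithmetic for the local degrees. -/
theorem gerec_dvd_orderOf {p r k m d : ℕ} [Fact p.Prime] [Fact r.Prime]
    (ψ : (ZMod r)ˣ →* Multiplicative (ZMod (p ^ k))) (hψ : Function.Surjective ψ)
    (hk : k = m + d) (q f : ℕ) (hqr : q.Coprime r)
    (hq : ¬ ∃ y : ZMod r, (q : ZMod r) = y ^ p) (hf0 : f ≠ 0) (hfd : f ≤ d)
    (u : (ZMod r)ˣ) (hu : (u : ZMod r) = ((q ^ f : ℕ) : ZMod r)) :
    p ^ m ∣ orderOf (ψ u) := by
  have hp : p.Prime := Fact.out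
  have hu' : u = ZMod.unitOfCoprime q hqr ^ f := by
    apply Units.ext
    rw [hu, Units.val_pow_eq_pow_val, ZMod.coe_unitOfCoprime, Nat.cast_pow]
  rw [hu']
  apply ge_orderOf_char_pow ψ hψ (ZMod.unitOfCoprime q hqr) _ f m hf0 _ (by omega)
  · rw [ZMod.coe_unitOfCoprime]
    exact hq
  · have h1 : k - m = d := by omega
    rw [h1]
    exact lt_of_le_of_lt hfd (Nat.lt_pow_self hp.one_lt)

variable {K L : Type} [Field K] [NumberField K] [Field L] [NumberField L] [Algebra K L]

/-- **RECIPROCITY (GE2 = T3)**. -/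
theorem ge_reciprocity {p : ℕ} [Fact p.Prime] (hp2 : p ≠ 2) [IsGalois K L] {m : ℕ}
    (hdeg : Module.finrank K L = p ^ m) {ζ : K} (hζ : IsPrimitiveRoot ζ p)
    (c : (L ≃ₐ[K] L) × (L ≃ₐ[K] L) → Lˣ) (hc : IsMulCocycle₂ c) (𝔧 : GeChoice K L) :
    (Function.support fun v : HeightOneSpectrum (𝓞 K) =>
      geInv (gePrime K v) (𝔧.emb v) c).Finite ∧
    ∑ᶠ v : HeightOneSpectrum (𝓞 K), geInv (gePrime K v) (𝔧.emb v) c = 0 := by
  classical
  refine ⟨geInv_support_finite c hc 𝔧, ?_⟩
  have hp : p.Prime := Fact.out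
  -- the bad primes
  obtain ⟨B₀, hB₀⟩ := geInv_exists_finset c hc
  set d : ℕ := Module.finrank ℚ K with hd
  set k : ℕ := m + d with hk
  set Q : Finset ℕ := B₀.filter Nat.Prime with hQ
  -- the auxiliary prime
  obtain ⟨r, hr, hrB, hrQ, hrp, hrk, hnp⟩ :=
    ge_exists_aux_prime hp2 k Q (fun q hq => (Finset.mem_filter.mp hq).2) B₀
  haveI : Fact r.Prime := ⟨hr⟩
  haveI : NeZero (p ^ k) := ⟨pow_ne_zero _ hp.ne_zero⟩
  obtain ⟨ψ, hψ⟩ := ge_exists_surjective_char (r := r) (n := p ^ k) hrk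
  -- the cyclotomic splitting field
  obtain ⟨E, _, _, _, M, _, _, _, _, _, _, _, _, _, χ, hχ, ⟨m', hm'⟩, hfrob⟩ :=
    ge_exists_cyclotomic hdeg r (p ^ k) ψ
  haveI : IsGalois E M := IsGalois.tower_top_of_isGalois K E M
  have hr_notB : ∀ (q : ℕ) [Fact q.Prime], q ∈ B₀ → q ≠ r := by
    intro q _ hq h
    exact hrB (h ▸ hq)
  -- the inflated cocycle and its restriction to `M/E`
  set cM : (M ≃ₐ[K] M) × (M ≃ₐ[K] M) → Mˣ := lfBC K L K M c with hcM
  have hcMc : IsMulCocycle₂ cM := lbu_lfBC_cocycle K L K M c hc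
  set cE : (M ≃ₐ[E] M) × (M ≃ₐ[E] M) → Mˣ := lfBC K M E M cM with hcE
  have hcEc : IsMulCocycle₂ cE := lbu_lfBC_cocycle K M E M cM hcMc
  -- invariants of the inflation
  have hinv : ∀ (q : ℕ) [Fact q.Prime] (J : M →+* PadicAlgCl q),
      geInv q J cM = geInv q (J.comp (algebraMap L M)) c := by
    intro q _ J
    exact geInv_inflation q J hc
  -- `cE` is locally trivial everywhere
  have hloc : ∀ (q : ℕ) [Fact q.Prime] (J : M →+* PadicAlgCl q),
      IsMulCoboundary₂ (geLocLG (K := E) q J cE) := by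
    intro q _ J
    rw [← geInv_eq_zero_iff (K := E) q J hcEc, hcE, geInv_restriction (K := K) (E := E) q J hcMc,
      hinv q J]
    by_cases hqB : q ∈ B₀
    · -- a bad prime: the local degree of `E/K` kills the invariant
      have hqr : q ≠ r := hr_notB q hqB
      have hqprime : q.Prime := Fact.out
      have hqQ : q ∈ Q := Finset.mem_filter.mpr ⟨hqB, hqprime⟩
      set jE : E →+* PadicAlgCl q := J.comp (algebraMap E M) with hjE
      obtain ⟨hur, hF⟩ := hfrob q hqr jE
      obtain ⟨f, hf0, hfd, hfN⟩ := ge_absNorm_lgPlace q (jE.comp (algebraMap K E))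
      have hcop : q.Coprime r := (Nat.coprime_primes hqprime hr).mpr hqr
      set u : (ZMod r)ˣ := ZMod.unitOfCoprime (q ^ f) (Nat.Coprime.pow_left f hcop) with hu
      have hu1 : (u : ZMod r) = ((q ^ f : ℕ) : ZMod r) := ZMod.coe_unitOfCoprime _ _
      have hχu := hF u (by rw [hu1, hfN])
      have hdvd : p ^ m ∣ orderOf (ψ u) :=
        gerec_dvd_orderOf ψ hψ hk q f hcop (hnp q hqQ) hf0 hfd u hu1
      obtain ⟨ρ, hρ1, hρ2, hρinj⟩ := ge_exists_resHomLG (K := K) q jE
      have hord : orderOf (ψ u) =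
          Module.finrank (lgField q (jE.comp (algebraMap K E))) (lgField q jE) := by
        rw [← hχu, ← hρ1, orderOf_injective χ hχ, orderOf_injective ρ hρinj,
          orderOf_lfFrob q _ _ hur]
      rw [← lg_finrank_eq_div q J, ← hord]
      obtain ⟨t, ht⟩ := hdvd
      rw [ht, mul_comm, mul_smul, ← hdeg, geInv_nsmul q _ hc, smul_zero]
    · rw [hB₀ q hqB, smul_zero]
  -- Hasse principle for `M/E`
  have hζE : IsPrimitiveRoot (algebraMap K E ζ) p :=
    hζ.map_of_injective (algebraMap K E).injective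
  have hcEb : IsMulCoboundary₂ cE := ge_hasse_principle hp2 hm' hζE cE hcEc hloc
  -- descent to `E/K`
  obtain ⟨y, hy, hyc⟩ := ge_exists_descent K E M cM hcMc hcEb
  have hyM : IsMulCocycle₂ (lfBC K E K M y) := lbu_lfBC_cocycle K E K M y hy
  have hinvy : ∀ (q : ℕ) [Fact q.Prime] (J : M →+* PadicAlgCl q),
      geInv q (J.comp (algebraMap L M)) c = geInv q (J.comp (algebraMap E M)) y := by
    intro q _ J
    rw [← hinv q J, geInv_eq_of_isMulCoboundary₂_div q J hcMc hyM hyc, geInv_inflation q J hy]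
  -- the invariants of `y` at the `r`-adic embeddings vanish
  have hry : ∀ jE : E →+* PadicAlgCl r, geInv r jE y = 0 := by
    intro jE
    obtain ⟨J, hJ⟩ := ge_exists_extend (K := E) (L := M) r jE
    rw [← hJ, ← hinvy r J]
    exact hB₀ r hrB _
  -- extend the choice of embeddings to `M` and restrict it to `E`
  have hext : ∀ v : HeightOneSpectrum (𝓞 K), ∃ J : M →+* PadicAlgCl (gePrime K v),
      J.comp (algebraMap L M) = 𝔧.emb v := fun v => ge_exists_extend (K := L) (L := M) _ (𝔧.emb v)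
  choose Jv hJv using hext
  have hplace : ∀ v, lgPlace (gePrime K v)
      (((Jv v).comp (algebraMap E M)).comp (algebraMap K E)) = v := by
    intro v
    have h1 : ((Jv v).comp (algebraMap E M)).comp (algebraMap K E) =
        (𝔧.emb v).comp (algebraMap K L) := by
      rw [← hJv v, RingHom.comp_assoc, RingHom.comp_assoc, ← IsScalarTower.algebraMap_eq K E M,
        ← IsScalarTower.algebraMap_eq K L M]
    rw [h1]
    exact 𝔧.place_eq v
  set 𝔧E : GeChoice K E := ⟨fun v => (Jv v).comp (algebraMap E M), hplace⟩ with h𝔧E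
  have hodd : Odd (p ^ k) := (hp.odd_of_ne_two hp2).pow
  have hsum := ge_cyc_reciprocity (p ^ k) hodd χ hχ r ψ hfrob y hy hry 𝔧E
  rw [← hsum]
  apply finsum_congr
  intro v
  have := hinvy (gePrime K v) (Jv v)
  rw [hJv v] at this
  exact this

end Recip

end Fermat.Agent.S55
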