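/-
S55 / GLOBAL / RECIP, leaf GE-I: PRODUCT FORMULA (GE1) for the degree-`p` norm residue symbol,
from the reciprocity law `ge_reciprocity` applied to the Kummer extension `K(b^{1/p})/K` and the
symbol cocycle.  Helper names are prefixed `geprod`.
-/
import Fermat.Agent.S55.Global.Recip.RecipSpec

set_option autoImplicit false
set_option linter.unusedSectionVars false
set_option linter.unusedVariables false

noncomputable section

namespace Fermat.Agent.S55

open NumberField IsDedekindDomain groupCohomology Polynomial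

/-! ### units of `K_i` -/

section Units

variable (q : ℕ) [Fact q.Prime] {K : Type} [Field K] [NumberField K]

theorem geprod_mem_lfUnits (i : K →+* PadicAlgCl q) (a : Kˣ) (ha : ‖i (a : K)‖ = 1) :
    Units.map (lgEmb q i : K →* lgField q i) a ∈ lfUnits q (lgField q i) := by
  have h1 : ((Units.map (lgEmb q i : K →* lgField q i) a : (lgField q i)ˣ) : lgField q i)
      ∈ lfInt q (lgField q i) := by
    rw [mem_lfInt_lgField_iff]
    exact ha.le
  have h2 : (((Units.map (lgEmb q i : K →* lgField q i) a)⁻¹ : (lgField q i)ˣ) : lgField q i)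
      ∈ lfInt q (lgField q i) := by
    rw [mem_lfInt_lgField_iff, ← map_inv]
    show ‖i ((a⁻¹ : Kˣ) : K)‖ ≤ 1
    rw [Units.val_inv_eq_inv_val, map_inv₀, norm_inv, ha, inv_one]
  show Units.map (lgEmb q i : K →* lgField q i) a ∈ (lfInt q (lgField q i)).unitGroup
  rw [ValuationSubring.mem_unitGroup_iff]
  apply le_antisymm
  · exact (ValuationSubring.valuation_le_one_iff _ _).mpr h1
  · have h3 := (ValuationSubring.valuation_le_one_iff _ _).mpr h2
    rw [Units.val_inv_eq_inv_val, map_inv₀] at h3
    exact (inv_le_one₀ (by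
      rw [zero_lt_iff]
      exact (Valuation.ne_zero_iff _).mpr (Units.ne_zero _))).mp h3

end Units

/-! ### localisation of the symbol cocycle -/

section LocSymbol

variable (q : ℕ) [Fact q.Prime] {K L : Type} [Field K] [NumberField K] [Field L] [NumberField L]
  [Algebra K L]

theorem geprod_hι (j : L →+* PadicAlgCl q) (x : K) :
    lgEmb q j (algebraMap K L x) ∈
      Set.range (algebraMap (lgField q (j.comp (algebraMap K L))) (lgField q j)) :=
  ⟨lgEmb q (j.comp (algebraMap K L)) x, (lgEmb_algebraMap q j x).symm⟩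

/-- the Kummer exponent is compatible with localisation -/
theorem geprod_kumExp [IsGalois K L] (j : L →+* PadicAlgCl q) (ζ : K) (β : L)
    (σ : lgField q j ≃ₐ[lgField q (j.comp (algebraMap K L))] lgField q j) :
    lfKumExp ζ β (geRes (K := K) (lgEmb q j) σ)
      = lfKumExp (lgEmb q (j.comp (algebraMap K L)) ζ) (lgEmb q j β) σ := by
  unfold lfKumExp
  congr 1
  ext k
  show (geRes (K := K) (lgEmb q j) σ β = algebraMap K L ζ ^ k * β)
    ↔ (σ (lgEmb q j β) = algebraMap (lgField q (j.comp (algebraMap K L))) (lgField q j)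
      (lgEmb q (j.comp (algebraMap K L)) ζ) ^ k * lgEmb q j β)
  rw [← (lgEmb_injective q j).eq_iff, geRes_spec (lgEmb q j) (geprod_hι q j) σ β, map_mul,
    map_pow, lgEmb_algebraMap]

/-- the localisation of the global symbol cocycle is the local symbol cocycle -/
theorem geprod_geLocLG_symbolCocycle [IsGalois K L] (n : ℕ) (j : L →+* PadicAlgCl q) (ζ : K)
    (a : Kˣ) (β : L) :
    geLocLG q j (lfSymbolCocycle n ζ a β)
      = lfSymbolCocycle n (lgEmb q (j.comp (algebraMap K L)) ζ)
          (Units.map (lgEmb q (j.comp (algebraMap K L)) :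
            K →* lgField q (j.comp (algebraMap K L))) a) (lgEmb q j β) := by
  funext s
  obtain ⟨σ, τ⟩ := s
  have ha : Units.map (lgEmb q j : L →* lgField q j) (Units.map (algebraMap K L : K →* L) a)
      = Units.map (algebraMap (lgField q (j.comp (algebraMap K L))) (lgField q j) :
          lgField q (j.comp (algebraMap K L)) →* lgField q j)
        (Units.map (lgEmb q (j.comp (algebraMap K L)) :
          K →* lgField q (j.comp (algebraMap K L))) a) := by
    apply Units.ext
    exact lgEmb_algebraMap q j (a : K)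
  show Units.map (lgEmb q j : L →* lgField q j)
      (if n ≤ lfKumExp ζ β (geRes (K := K) (lgEmb q j) σ)
          + lfKumExp ζ β (geRes (K := K) (lgEmb q j) τ)
        then Units.map (algebraMap K L : K →* L) a else 1)
    = if n ≤ lfKumExp (lgEmb q (j.comp (algebraMap K L)) ζ) (lgEmb q j β) σ
          + lfKumExp (lgEmb q (j.comp (algebraMap K L)) ζ) (lgEmb q j β) τ
        then Units.map (algebraMap (lgField q (j.comp (algebraMap K L))) (lgField q j) :
            lgField q (j.comp (algebraMap K L)) →* lgField q j)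
          (Units.map (lgEmb q (j.comp (algebraMap K L)) :
            K →* lgField q (j.comp (algebraMap K L))) a) else 1
  rw [geprod_kumExp, geprod_kumExp, apply_ite (Units.map (lgEmb q j : L →* lgField q j)), ha,
    map_one]

/-- the local invariant of the global symbol cocycle is the local symbol -/
theorem geprod_geInv_symbolCocycle [IsGalois K L] {p : ℕ} [Fact p.Prime] {ζ : K}
    (hζ : IsPrimitiveRoot ζ p) (j : L →+* PadicAlgCl q) (a b : Kˣ) (β : L)
    (hβ : β ^ p = algebraMap K L (b : K)) :
    geInv q j (lfSymbolCocycle p ζ a β)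
      = lksIota p (geSymbol q p (j.comp (algebraMap K L)) ζ a b) := by
  have := lg_isGalois q (K := K) j
  have hζi : IsPrimitiveRoot (lgEmb q (j.comp (algebraMap K L)) ζ) p :=
    hζ.map_of_injective (lgEmb_injective q _)
  have hβj : (lgEmb q j β) ^ p
      = algebraMap (lgField q (j.comp (algebraMap K L))) (lgField q j)
        (((Units.map (lgEmb q (j.comp (algebraMap K L)) :
          K →* lgField q (j.comp (algebraMap K L))) b : (lgField q (j.comp (algebraMap K L)))ˣ) :
            lgField q (j.comp (algebraMap K L)))) := by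
    rw [← map_pow, hβ, lgEmb_algebraMap]
    rfl
  unfold geInv
  rw [geprod_geLocLG_symbolCocycle,
    localInv_lfSymbolCocycle q (lgField q (j.comp (algebraMap K L))) p _ hζi (lgField q j) _ _ _
      hβj]
  rfl

end LocSymbol

section Product

variable {K : Type} [Field K] [NumberField K]

/-- The local symbol at `i` only depends on the place of `K` induced by `i`. -/
theorem geSymbol_eq_of_lgPlace_eq (q : ℕ) [Fact q.Prime] {p : ℕ} [Fact p.Prime] {ζ : K}
    (hζ : IsPrimitiveRoot ζ p) (i i' : K →+* PadicAlgCl q) (h : lgPlace q i = lgPlace q i')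
    (a b : Kˣ) : geSymbol q p i ζ a b = geSymbol q p i' ζ a b := by
  obtain ⟨τ, rfl⟩ := (lgPlace_eq_iff q i i').mp h
  -- the isomorphism `K_i ≅ K_{τ i}` induced by `τ`
  have hmem : ∀ x : lgField q i, τ (x : PadicAlgCl q) ∈
      lgField q ((τ : PadicAlgCl q →+* PadicAlgCl q).comp i) := by
    intro x
    rw [lgField_comp_algEquiv]
    exact ⟨x, x.2, rfl⟩
  let φ : lgField q i →ₐ[ℚ_[q]] lgField q ((τ : PadicAlgCl q →+* PadicAlgCl q).comp i) :=
    (((τ : PadicAlgCl q →ₐ[ℚ_[q]] PadicAlgCl q).comp (lgField q i).val).codRestrict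
      (lgField q ((τ : PadicAlgCl q →+* PadicAlgCl q).comp i)).toSubalgebra hmem)
  have hφ : ∀ x : lgField q i, ((φ x : lgField q ((τ : PadicAlgCl q →+* PadicAlgCl q).comp i)) :
      PadicAlgCl q) = τ (x : PadicAlgCl q) := fun x => rfl
  have hφsurj : Function.Surjective φ := by
    rintro ⟨y, hy⟩
    have hy' : y ∈ (lgField q i).map (τ : PadicAlgCl q →ₐ[ℚ_[q]] PadicAlgCl q) := by
      rw [← lgField_comp_algEquiv]
      exact hy
    obtain ⟨x, hx, hxy⟩ := hy'
    exact ⟨⟨x, hx⟩, Subtype.ext hxy⟩
  let _ : Algebra (lgField q i) (lgField q ((τ : PadicAlgCl q →+* PadicAlgCl q).comp i)) :=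
    φ.toRingHom.toAlgebra
  have : IsScalarTower ℚ_[q] (lgField q i)
      (lgField q ((τ : PadicAlgCl q →+* PadicAlgCl q).comp i)) :=
    IsScalarTower.of_algebraMap_eq (fun x => (φ.commutes x).symm)
  have hrank : Module.finrank (lgField q i)
      (lgField q ((τ : PadicAlgCl q →+* PadicAlgCl q).comp i)) = 1 := by
    rw [← Subalgebra.bot_eq_top_iff_finrank_eq_one, eq_comm, ← Algebra.surjective_algebraMap_iff]
    exact hφsurj
  have hemb : ∀ x : K, lgEmb q ((τ : PadicAlgCl q →+* PadicAlgCl q).comp i) x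
      = algebraMap (lgField q i) (lgField q ((τ : PadicAlgCl q →+* PadicAlgCl q).comp i))
        (lgEmb q i x) := fun x => Subtype.ext rfl
  have hunits : ∀ u : Kˣ,
      Units.map (lgEmb q ((τ : PadicAlgCl q →+* PadicAlgCl q).comp i) :
        K →* lgField q ((τ : PadicAlgCl q →+* PadicAlgCl q).comp i)) u
      = Units.map (algebraMap (lgField q i)
          (lgField q ((τ : PadicAlgCl q →+* PadicAlgCl q).comp i)) :
          lgField q i →* lgField q ((τ : PadicAlgCl q →+* PadicAlgCl q).comp i))
        (Units.map (lgEmb q i : K →* lgField q i) u) := fun u => Units.ext (hemb u)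
  have hζi : IsPrimitiveRoot (lgEmb q i ζ) p := hζ.map_of_injective (lgEmb_injective q i)
  unfold geSymbol
  rw [hemb ζ, hunits a, hunits b,
    lfSymbol_baseChange q (lgField q i) p (lgEmb q i ζ) hζi
      (lgField q ((τ : PadicAlgCl q →+* PadicAlgCl q).comp i)), hrank, Nat.cast_one, one_mul]

/-- The symbol of two units at a place not above `p` vanishes; hence finite support. -/
theorem geSymbol_exists_finset {p : ℕ} [Fact p.Prime] {ζ : K} (hζ : IsPrimitiveRoot ζ p)
    (a b : Kˣ) :
    ∃ B : Finset ℕ, ∀ (q : ℕ) [Fact q.Prime], q ∉ B → ∀ i : K →+* PadicAlgCl q,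
      geSymbol q p i ζ a b = 0 := by
  obtain ⟨Ba, hBa⟩ := ge_exists_finset_norm_eq_one (a : K) a.ne_zero
  obtain ⟨Bb, hBb⟩ := ge_exists_finset_norm_eq_one (b : K) b.ne_zero
  refine ⟨insert p (Ba ∪ Bb), fun q _ hq i => ?_⟩
  have hqp : q ≠ p := fun h => hq (h ▸ Finset.mem_insert_self _ _)
  have hqa : q ∉ Ba := fun h => hq (Finset.mem_insert_of_mem (Finset.mem_union_left _ h))
  have hqb : q ∉ Bb := fun h => hq (Finset.mem_insert_of_mem (Finset.mem_union_right _ h))
  have hqn : ¬ q ∣ p := fun h =>
    hqp ((Nat.prime_dvd_prime_iff_eq (Fact.out : q.Prime) (Fact.out : p.Prime)).mp h)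
  have hζi : IsPrimitiveRoot (lgEmb q i ζ) p := hζ.map_of_injective (lgEmb_injective q i)
  exact lfSymbol_units q (lgField q i) p (lgEmb q i ζ) hζi hqn _ _
    (geprod_mem_lfUnits q i a (hBa q hqa i)) (geprod_mem_lfUnits q i b (hBb q hqb i))

/-- **PRODUCT FORMULA (GE1)** for the degree-`p` norm residue symbol, `p` odd, `μ_p ⊆ K`: for any
choice `i v` of an embedding of `K` inducing each finite place `v`,
`∑_v (a,b)_v = 0`. -/
theorem ge_product_formula {p : ℕ} [Fact p.Prime] (hp2 : p ≠ 2) {ζ : K}
    (hζ : IsPrimitiveRoot ζ p) (a b : Kˣ)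
    (i : ∀ v : HeightOneSpectrum (𝓞 K), K →+* PadicAlgCl (gePrime K v))
    (hi : ∀ v, lgPlace (gePrime K v) (i v) = v) :
    (Function.support fun v : HeightOneSpectrum (𝓞 K) =>
      geSymbol (gePrime K v) p (i v) ζ a b).Finite ∧
    ∑ᶠ v : HeightOneSpectrum (𝓞 K), geSymbol (gePrime K v) p (i v) ζ a b = 0 := by
  have hpP : p.Prime := Fact.out
  -- the Kummer extension `L = K[X]/(g)`, `g` an irreducible factor of `X^p - b`
  obtain ⟨g, hgirr, hg⟩ := lkd_exists_factor p (b : K)
  have : Fact (Irreducible g) := ⟨hgirr⟩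
  have : NumberField (LkdField K g) := NumberField.of_module_finite K (LkdField K g)
  have : IsGalois K (LkdField K g) := lkd_isGalois hζ hg
  have hβ : (lkdRoot g) ^ p = algebraMap K (LkdField K g) (b : K) := lkd_root_pow hg
  have htop : Algebra.adjoin K {lkdRoot g} = ⊤ := lkd_adjoin_root g
  -- its degree is `1` or `p`
  have hk : KumcChar p (lfKumExp ζ (lkdRoot g) : (LkdField K g ≃ₐ[K] LkdField K g) → ℕ) :=
    lke_kumcChar hζ b.ne_zero hβ
  have hinj : Function.Injective
      (lfKumExp ζ (lkdRoot g) : (LkdField K g ≃ₐ[K] LkdField K g) → ℕ) :=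
    lke_injective hζ b.ne_zero hβ htop
  have hdvd : Module.finrank K (LkdField K g) ∣ p := by
    rw [← IsGalois.card_aut_eq_finrank]
    have h1 := Subgroup.card_dvd_of_injective (kumcHom hk) (kumcHom_injective hk hinj)
    have h2 : Nat.card (Multiplicative (ZMod p)) = p := by
      rw [Nat.card_eq_fintype_card, Fintype.card_multiplicative, ZMod.card]
    rwa [h2] at h1
  obtain ⟨m, hdeg⟩ : ∃ m : ℕ, Module.finrank K (LkdField K g) = p ^ m := by
    rcases (Nat.dvd_prime hpP).mp hdvd with h | h
    · exact ⟨0, by rw [h, pow_zero]⟩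
    · exact ⟨1, by rw [h, pow_one]⟩
  -- the symbol cocycle
  have hc : IsMulCocycle₂ (lfSymbolCocycle p ζ a (lkdRoot g) :
      (LkdField K g ≃ₐ[K] LkdField K g) × (LkdField K g ≃ₐ[K] LkdField K g) → (LkdField K g)ˣ) :=
    lks_isMulCocycle₂ hζ a b hβ
  -- extensions of the embeddings
  choose j hj using fun v : HeightOneSpectrum (𝓞 K) =>
    ge_exists_extend (gePrime K v) (L := LkdField K g) (i v)
  let 𝔧 : GeChoice K (LkdField K g) :=
    { emb := j
      place_eq := fun v => by rw [hj v]; exact hi v }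
  obtain ⟨hfin, hsum⟩ := ge_reciprocity hp2 hdeg hζ _ hc 𝔧
  have hinv : ∀ v : HeightOneSpectrum (𝓞 K),
      geInv (gePrime K v) (𝔧.emb v) (lfSymbolCocycle p ζ a (lkdRoot g))
        = lksIota p (geSymbol (gePrime K v) p (i v) ζ a b) := by
    intro v
    have h1 := geprod_geInv_symbolCocycle (gePrime K v) hζ (j v) a b (lkdRoot g) hβ
    rw [hj v] at h1
    exact h1
  have hsupp : (Function.support fun v : HeightOneSpectrum (𝓞 K) =>
      geSymbol (gePrime K v) p (i v) ζ a b).Finite := by
    refine hfin.subset fun v hv => ?_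
    rw [Function.mem_support] at hv ⊢
    rw [hinv v]
    exact fun h0 => hv ((lksIota_eq_zero_iff p _).mp h0)
  refine ⟨hsupp, ?_⟩
  let φ : ZMod p →+ AddCircle (1 : ℚ) :=
    { toFun := lksIota p
      map_zero' := lksIota_zero p
      map_add' := lksIota_add p }
  apply lksIota_injective p
  rw [lksIota_zero, ← hsum]
  have h2 := AddMonoidHom.map_finsum φ hsupp
  refine h2.trans (finsum_congr fun v => ?_)
  exact (hinv v).symm

end Product

end Fermat.Agent.S55
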