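/-
S55 / GLOBAL / RECIP, leaf GE-A4 `Recip/Indep.lean`: independence of the embedding
(`geInv_eq_of_lgPlace_eq`, exact statement of `IndepSpec.lean`).  Helper names: prefix `gei`.
-/
import Fermat.Agent.S55.Global.Recip.LocLGSpec
import Fermat.Agent.S55.LG.Spec

set_option autoImplicit false
set_option linter.unusedSectionVars false
set_option linter.unusedVariables false

noncomputable section

namespace Fermat.Agent.S55

open NumberField IsDedekindDomain groupCohomology

/-! ## Conjugation acts trivially on `H²` (multiplicative cochains) -/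

section Conj

theorem gei_add_aux {Y : Type*} [AddCommGroup Y] (A B1 B2 C1 D1 E F G3 H I : Y)
    (h1 : C1 + B1 = A + B2) (h2 : C1 + D1 = E + F) (h3 : G3 + H = I + F) :
    E - I - (B2 - G3) + (B1 - D1) = A - H := by
  have hA : A = C1 + B1 - B2 := by rw [h1]; abel
  have hC : C1 = E + F - D1 := by rw [← h2]; abel
  have hF : F = G3 + H - I := by rw [h3]; abel
  rw [hA, hC, hF]; abel

theorem gei_mul_aux {X : Type*} [CommGroup X] (A B1 B2 C1 D1 E F G3 H I : X)
    (h1 : C1 * B1 = A * B2) (h2 : C1 * D1 = E * F) (h3 : G3 * H = I * F) :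
    E / I / (B2 / G3) * (B1 / D1) = A / H :=
  gei_add_aux (Y := Additive X) A B1 B2 C1 D1 E F G3 H I h1 h2 h3

variable {G X : Type} [Group G] [CommGroup X] [MulDistribMulAction G X]

/-- The conjugate `(s,t) ↦ g • c (g⁻¹ s g, g⁻¹ t g)` of a `2`-cochain. -/
def geiConj (g : G) (c : G × G → X) : G × G → X :=
  fun p => g • c (g⁻¹ * p.1 * g, g⁻¹ * p.2 * g)

theorem geiConj_apply (g : G) (c : G × G → X) (s t : G) :
    geiConj g c (s, t) = g • c (g⁻¹ * s * g, g⁻¹ * t * g) := rfl

/-- A `2`-cocycle is cohomologous to its conjugates. -/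
theorem geiConj_div_isMulCoboundary₂ (c : G × G → X) (hc : IsMulCocycle₂ c) (g : G) :
    IsMulCoboundary₂ (geiConj g c / c) := by
  refine ⟨fun s => c (g, g⁻¹ * s * g) / c (s, g), fun s t => ?_⟩
  have h1 := hc g (g⁻¹ * s * g) (g⁻¹ * t * g)
  have h2 := hc s g (g⁻¹ * t * g)
  have h3 := hc s t g
  have e1 : g * (g⁻¹ * s * g) = s * g := by group
  have e2 : g * (g⁻¹ * t * g) = t * g := by group
  have e3 : g⁻¹ * s * g * (g⁻¹ * t * g) = g⁻¹ * (s * t) * g := by group
  rw [e1, e3] at h1
  rw [e2] at h2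
  show s • (c (g, g⁻¹ * t * g) / c (t, g)) / (c (g, g⁻¹ * (s * t) * g) / c (s * t, g)) *
      (c (g, g⁻¹ * s * g) / c (s, g)) = g • c (g⁻¹ * s * g, g⁻¹ * t * g) / c (s, t)
  rw [smul_div']
  exact gei_mul_aux _ _ _ _ _ _ _ _ _ _ h1 h2 h3

theorem geiConj_isMulCocycle₂ (c : G × G → X) (hc : IsMulCocycle₂ c) (g : G) :
    IsMulCocycle₂ (geiConj g c) := by
  have h1 : geiConj g c = geiConj g c / c * c := by
    funext p
    simp
  rw [h1]
  exact cohord_coc_mul (cohord_coc_of_cob (geiConj_div_isMulCoboundary₂ c hc g)) hc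

end Conj

/-! ## The twisted embedding `φ ∘ j ∘ g` and the isomorphism of local squares -/

section Square

variable (q : ℕ) [Fact q.Prime] {K L : Type} [Field K] [NumberField K] [Field L] [NumberField L]
  [Algebra K L] (j : L →+* PadicAlgCl q) (φ : PadicAlgCl q ≃ₐ[ℚ_[q]] PadicAlgCl q)
  (g : L ≃ₐ[K] L)

/-- The twisted embedding `φ ∘ j ∘ g`. -/
def geiEmb : L →+* PadicAlgCl q :=
  (φ : PadicAlgCl q →+* PadicAlgCl q).comp (j.comp (g : L →+* L))

theorem geiEmb_apply (x : L) : geiEmb q j φ g x = φ (j (g x)) := rfl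

theorem geiEmb_comp_algebraMap :
    (geiEmb q j φ g).comp (algebraMap K L) =
      (φ : PadicAlgCl q →+* PadicAlgCl q).comp (j.comp (algebraMap K L)) := by
  ext x
  show φ (j (g (algebraMap K L x))) = φ (j (algebraMap K L x))
  rw [g.commutes]

theorem lgField_geiEmb [IsGalois K L] :
    lgField q (geiEmb q j φ g) = (lgField q j).map (φ : PadicAlgCl q →ₐ[ℚ_[q]] PadicAlgCl q) := by
  unfold geiEmb
  rw [lgField_comp_algEquiv, lgField_comp_galois]

theorem gei_map_mem_L [IsGalois K L] (x : PadicAlgCl q) (hx : x ∈ lgField q j) :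
    φ x ∈ lgField q (geiEmb q j φ g) := by
  rw [lgField_geiEmb]
  exact ⟨x, hx, rfl⟩

theorem gei_map_mem_K (x : PadicAlgCl q) (hx : x ∈ lgField q (j.comp (algebraMap K L))) :
    φ x ∈ lgField q ((geiEmb q j φ g).comp (algebraMap K L)) := by
  rw [geiEmb_comp_algebraMap, lgField_comp_algEquiv]
  exact ⟨x, hx, rfl⟩

theorem gei_exists_of_mem_K (y : PadicAlgCl q)
    (hy : y ∈ lgField q ((geiEmb q j φ g).comp (algebraMap K L))) :
    ∃ x ∈ lgField q (j.comp (algebraMap K L)), φ x = y := by
  rw [geiEmb_comp_algebraMap, lgField_comp_algEquiv] at hy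
  obtain ⟨x, hx, rfl⟩ := hy
  exact ⟨x, hx, rfl⟩

/-- `φ : L_j → L_{φ j g}`. -/
def geiHomL [IsGalois K L] : lgField q j →+* lgField q (geiEmb q j φ g) :=
  ((φ : PadicAlgCl q →+* PadicAlgCl q).comp (lgField q j).val.toRingHom).codRestrict
    (lgField q (geiEmb q j φ g)).toSubfield.toSubring (fun x => gei_map_mem_L q j φ g x x.2)

/-- `φ : K_j → K_{φ j g}`. -/
def geiHomK : lgField q (j.comp (algebraMap K L)) →+*
    lgField q ((geiEmb q j φ g).comp (algebraMap K L)) :=
  ((φ : PadicAlgCl q →+* PadicAlgCl q).comp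
      (lgField q (j.comp (algebraMap K L))).val.toRingHom).codRestrict
    (lgField q ((geiEmb q j φ g).comp (algebraMap K L))).toSubfield.toSubring
    (fun x => gei_map_mem_K q j φ g x x.2)

theorem geiHomL_coe [IsGalois K L] (x : lgField q j) :
    ((geiHomL q j φ g x : lgField q (geiEmb q j φ g)) : PadicAlgCl q) = φ (x : PadicAlgCl q) := rfl

theorem geiHomK_coe (x : lgField q (j.comp (algebraMap K L))) :
    ((geiHomK q j φ g x : lgField q ((geiEmb q j φ g).comp (algebraMap K L))) : PadicAlgCl q) =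
      φ (x : PadicAlgCl q) := rfl

/-- The local invariant does not change under `j ↦ φ ∘ j ∘ g`. -/
theorem geInv_geiEmb [IsGalois K L] {c : (L ≃ₐ[K] L) × (L ≃ₐ[K] L) → Lˣ}
    (hc : IsMulCocycle₂ c) : geInv q (geiEmb q j φ g) c = geInv q j c := by
  let aL : Algebra (lgField q j) (lgField q (geiEmb q j φ g)) := (geiHomL q j φ g).toAlgebra
  let aK : Algebra (lgField q (j.comp (algebraMap K L)))
      (lgField q ((geiEmb q j φ g).comp (algebraMap K L))) := (geiHomK q j φ g).toAlgebra
  let aKL : Algebra (lgField q (j.comp (algebraMap K L))) (lgField q (geiEmb q j φ g)) :=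
    ((geiHomL q j φ g).comp (algebraMap (lgField q (j.comp (algebraMap K L))) (lgField q j))).toAlgebra
  have t1 : IsScalarTower (lgField q (j.comp (algebraMap K L))) (lgField q j)
      (lgField q (geiEmb q j φ g)) := IsScalarTower.of_algebraMap_eq (fun x => rfl)
  have t2 : IsScalarTower (lgField q (j.comp (algebraMap K L)))
      (lgField q ((geiEmb q j φ g).comp (algebraMap K L))) (lgField q (geiEmb q j φ g)) :=
    IsScalarTower.of_algebraMap_eq (fun x => Subtype.ext rfl)
  have t3 : IsScalarTower ℚ_[q] (lgField q (j.comp (algebraMap K L)))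
      (lgField q ((geiEmb q j φ g).comp (algebraMap K L))) :=
    IsScalarTower.of_algebraMap_eq (fun x => Subtype.ext (φ.commutes x).symm)
  have t4 : IsScalarTower ℚ_[q] (lgField q j) (lgField q (geiEmb q j φ g)) :=
    IsScalarTower.of_algebraMap_eq (fun x => Subtype.ext (φ.commutes x).symm)
  have t5 : IsScalarTower ℚ_[q] (lgField q (j.comp (algebraMap K L)))
      (lgField q (geiEmb q j φ g)) :=
    IsScalarTower.of_algebraMap_eq (fun x => Subtype.ext (φ.commutes x).symm)
  have g1 : IsGalois (lgField q (j.comp (algebraMap K L))) (lgField q j) := lg_isGalois q j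
  have g2 : IsGalois (lgField q ((geiEmb q j φ g).comp (algebraMap K L)))
      (lgField q (geiEmb q j φ g)) := lg_isGalois q (geiEmb q j φ g)
  -- the base fields are isomorphic
  have hfin : Module.finrank (lgField q (j.comp (algebraMap K L)))
      (lgField q ((geiEmb q j φ g).comp (algebraMap K L))) = 1 := by
    rw [Algebra.finrank_eq_one_iff_bijective_algebraMap]
    refine ⟨RingHom.injective _, fun y => ?_⟩
    obtain ⟨x, hx, hxy⟩ := gei_exists_of_mem_K q j φ g y y.2
    exact ⟨⟨x, hx⟩, Subtype.ext hxy⟩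
  -- restriction homs
  obtain ⟨r₁, hr₁, hr₁', -⟩ := ge_exists_resHomLG (K := K) q j
  have hkey : ∀ y : L, algebraMap (lgField q j) (lgField q (geiEmb q j φ g)) (lgEmb q j y) =
      lgEmb q (geiEmb q j φ g) (g⁻¹ y) := by
    intro y
    apply Subtype.ext
    show φ (j y) = φ (j (g (g⁻¹ y)))
    rw [AlgEquiv.aut_inv, AlgEquiv.apply_symm_apply]
  have hres : ∀ σ : lgField q (geiEmb q j φ g) ≃ₐ[lgField q ((geiEmb q j φ g).comp
      (algebraMap K L))] lgField q (geiEmb q j φ g),
      geRes (K := K) (lgEmb q (geiEmb q j φ g)) σ =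
        g⁻¹ * r₁ (lfGalRes (lgField q (j.comp (algebraMap K L))) (lgField q j)
          (lgField q ((geiEmb q j φ g).comp (algebraMap K L))) (lgField q (geiEmb q j φ g)) σ) *
          g := by
    intro σ
    apply geRes_eq_of_spec
    intro x
    have h1 := lfGalRes_commutes (lgField q (j.comp (algebraMap K L))) (lgField q j)
      (lgField q ((geiEmb q j φ g).comp (algebraMap K L))) (lgField q (geiEmb q j φ g)) σ
      (lgEmb q j (g x))
    rw [← hr₁', hkey, hkey] at h1
    have h2 : g⁻¹ (g x) = x := by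
      rw [AlgEquiv.aut_inv, AlgEquiv.symm_apply_apply]
    rw [h2] at h1
    exact h1
  have hcoch : geLocLG q (geiEmb q j φ g) c =
      lfBC (lgField q (j.comp (algebraMap K L))) (lgField q j)
        (lgField q ((geiEmb q j φ g).comp (algebraMap K L))) (lgField q (geiEmb q j φ g))
        (geLocLG q j (geiConj g c)) := by
    funext p
    obtain ⟨σ, σ'⟩ := p
    rw [lfBC_apply]
    unfold geLocLG
    rw [geLoc_apply, geLoc_apply, hres, hres, ← hr₁, ← hr₁, geiConj_apply]
    apply Units.ext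
    apply Subtype.ext
    rfl
  unfold geInv
  rw [hcoch, localInv_baseChange q (lgField q (j.comp (algebraMap K L))) (lgField q j)
    (lgField q ((geiEmb q j φ g).comp (algebraMap K L))) (lgField q (geiEmb q j φ g))
    (geLocLG_isMulCocycle₂ q j _ (geiConj_isMulCocycle₂ c hc g)), hfin, one_smul]
  exact geInv_eq_of_isMulCoboundary₂_div q j (geiConj_isMulCocycle₂ c hc g) hc
    (geiConj_div_isMulCoboundary₂ c hc g)

end Square

section Indep

variable {K L : Type} [Field K] [NumberField K] [Field L] [NumberField L] [Algebra K L]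

/-- The local invariant at `j` only depends on the place of `K` below `j`. -/
theorem geInv_eq_of_lgPlace_eq [IsGalois K L] (q : ℕ) [Fact q.Prime] (j j' : L →+* PadicAlgCl q)
    (h : lgPlace q (j.comp (algebraMap K L)) = lgPlace q (j'.comp (algebraMap K L)))
    {c : (L ≃ₐ[K] L) × (L ≃ₐ[K] L) → Lˣ} (hc : IsMulCocycle₂ c) :
    geInv q j c = geInv q j' c := by
  obtain ⟨τ, hτ⟩ := (lgPlace_eq_iff q _ _).mp h
  obtain ⟨g, hg⟩ := lg_exists_galois_of_extends (K := K) q
    ((τ : PadicAlgCl q →+* PadicAlgCl q).comp j) j' (by rw [hτ]; rfl)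
  have hj' : j' = geiEmb q j τ g := by rw [hg]; rfl
  rw [hj', geInv_geiEmb q j τ g hc]

end Indep

end Fermat.Agent.S55
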