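/-
S55 / GLOBAL / RECIP, leaf GE-J1 `Recip/FullDegree.lean`: a cyclic extension of prime power degree
has places of full local degree outside any finite set of primes.
Proves the statement of `FullDegreeSpec.lean` (place form, origin/helper6 3330998) verbatim.  Black boxes: `LG/Spec` (sorry-free LG
layer), `S14` (density statement `exists_good_frobAt_ne_one`, Frobenius API).
Helper lemmas are prefixed `gefd_`.
-/
import Fermat.Agent.S55.Global.Recip.Defs
import Fermat.Agent.S55.LG.Spec
import Fermat.Agent.S14.Density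
import Fermat.Agent.S14.Artin
import Fermat.Agent.S14.AuxFrob

set_option autoImplicit false
set_option linter.unusedSectionVars false
set_option linter.unusedVariables false
set_option linter.style.haveILetI false

noncomputable section

namespace Fermat.Agent.S55

open NumberField IsDedekindDomain groupCohomology

section FullDegree

variable {K L : Type} [Field K] [NumberField K] [Field L] [NumberField L] [Algebra K L]

/-- In a group of order `p ^ (k+1)`, an element `g` with `g ^ (p ^ k) ≠ 1` has order
`p ^ (k+1)`. -/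
theorem gefd_orderOf_eq {G : Type*} [Group G] {p k : ℕ} (hp : p.Prime)
    (hcard : Nat.card G = p ^ (k + 1)) (g : G) (hg : g ^ (p ^ k) ≠ 1) :
    orderOf g = p ^ (k + 1) := by
  have h1 : orderOf g ∣ p ^ (k + 1) := hcard ▸ orderOf_dvd_natCard g
  obtain ⟨m, hm, hmo⟩ := (Nat.dvd_prime_pow hp).1 h1
  rcases Nat.lt_or_ge m (k + 1) with h | h
  · exfalso
    apply hg
    have h2 : p ^ m ∣ p ^ k := pow_dvd_pow p (Nat.lt_succ_iff.mp h)
    exact orderOf_dvd_iff_pow_eq_one.1 (hmo ▸ h2)
  · rw [hmo]
    congr 1
    omega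

/-- A place `v` of `K`, unramified in `L` and whose Frobenius has order `[L:K]`, has full local
degree at every embedding above it. -/
theorem gefd_of_place [IsGalois K L] (v : HeightOneSpectrum (𝓞 K))
    (hunr : S14.IsUnramifiedIn K L v)
    (hord : orderOf (S14.frobAt K L v) = Module.finrank K L)
    (q : ℕ) [Fact q.Prime] (j : L →+* PadicAlgCl q)
    (hv : lgPlace q (j.comp (algebraMap K L)) = v) :
    LfUnramified q (lgField q (j.comp (algebraMap K L))) (lgField q j) ∧
      Module.finrank (lgField q (j.comp (algebraMap K L))) (lgField q j) =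
        Module.finrank K L := by
  have hunder : (lgPlace q j).asIdeal.under (𝓞 K) = v.asIdeal := by
    rw [Ideal.under_def, lgPlace_under, hv]
  have hw : S14.placeBelow K L (lgPlace q j) = v := HeightOneSpectrum.ext hunder
  have hlies : (lgPlace q j).asIdeal.LiesOver v.asIdeal := ⟨hunder.symm⟩
  haveI : Algebra.IsUnramifiedAt (𝓞 K) (lgPlace q j).asIdeal := hunr _ hlies
  have he : Ideal.ramificationIdx (lgPlace q j).asIdeal (𝓞 K) = 1 :=
    Ideal.ramificationIdx_eq_one _ _
  have hf : Ideal.inertiaDeg (lgPlace q j).asIdeal (𝓞 K) = Module.finrank K L := by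
    rw [← S14.orderOf_frobAt K L v hunr (lgPlace q j) hw, hord]
  refine ⟨?_, ?_⟩
  · show lfRamIdx q _ _ = 1
    rw [lfRamIdx_lgField, he]
  · rw [lg_finrank_eq, he, hf, one_mul]

/-- the residue characteristic is the unique rational prime in `v` -/
theorem gefd_gePrime_eq_of_mem (v : HeightOneSpectrum (𝓞 K)) {ℓ : ℕ} (hℓ : ℓ.Prime)
    (h : ((ℓ : ℕ) : 𝓞 K) ∈ v.asIdeal) : gePrime K v = ℓ := by
  have hmax : (Ideal.span {(ℓ : ℤ)}).IsMaximal :=
    @Int.ideal_span_isMaximal_of_prime ℓ ⟨hℓ⟩
  have hle : Ideal.span {(ℓ : ℤ)} ≤ v.asIdeal.under ℤ := by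
    rw [Ideal.span_singleton_le_iff_mem, Ideal.under_def, Ideal.mem_comap]
    simpa using h
  have hne : v.asIdeal.under ℤ ≠ ⊤ := by
    have : (v.asIdeal.under ℤ).IsPrime := Ideal.IsPrime.under ℤ v.asIdeal
    exact Ideal.IsPrime.ne_top inferInstance
  have heq : Ideal.span {(ℓ : ℤ)} = v.asIdeal.under ℤ := hmax.eq_of_le hne hle
  have : v.asIdeal.LiesOver (Ideal.span {(ℓ : ℤ)}) := ⟨heq⟩
  have hpow := Ideal.absNorm_eq_pow_inertiaDeg' v.asIdeal hℓ
  have hf : (Ideal.span {(ℓ : ℤ)}).inertiaDeg' v.asIdeal ≠ 0 := by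
    intro h0
    rw [h0, pow_zero] at hpow
    exact v.isPrime.ne_top (Ideal.absNorm_eq_one_iff.mp hpow)
  unfold gePrime
  rw [hpow]
  exact hℓ.pow_minFac hf

/-- The key global input: a good place, unramified in `L`, whose Frobenius generates the cyclic
group `Gal(L/K)` of order `p ^ (k+1)`. -/
theorem gefd_exists_place {p : ℕ} [Fact p.Prime] [IsGalois K L] [IsCyclic (L ≃ₐ[K] L)] {k : ℕ}
    (hdeg : Module.finrank K L = p ^ (k + 1)) (B : Finset ℕ) :
    ∃ v : HeightOneSpectrum (𝓞 K), S14.IsGoodPlace K B v ∧ S14.IsUnramifiedIn K L v ∧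
      orderOf (S14.frobAt K L v) = Module.finrank K L := by
  classical
  have hp : p.Prime := Fact.out
  have hcard : Nat.card (L ≃ₐ[K] L) = p ^ (k + 1) := by
    rw [IsGalois.card_aut_eq_finrank, hdeg]
  obtain ⟨g₀, hg₀⟩ := IsCyclic.exists_generator (α := L ≃ₐ[K] L)
  have hcomm : ∀ a b : L ≃ₐ[K] L, a * b = b * a := by
    intro a b
    obtain ⟨m, rfl⟩ := hg₀ a
    obtain ⟨n, rfl⟩ := hg₀ b
    exact (Commute.zpow_zpow_self g₀ m n).eq
  -- the maximal subgroup
  let H : Subgroup (L ≃ₐ[K] L) :=
    { carrier := {g | g ^ (p ^ k) = 1}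
      mul_mem' := by
        intro a b ha hb
        simp only [Set.mem_ofPred_eq] at *
        have hc : Commute a b := hcomm a b
        rw [hc.mul_pow, ha, hb, one_mul]
      one_mem' := one_pow _
      inv_mem' := by
        intro a ha
        simp only [Set.mem_ofPred_eq] at *
        rw [inv_pow, ha, inv_one] }
  have hHmem : ∀ g : L ≃ₐ[K] L, g ∈ H ↔ g ^ (p ^ k) = 1 := fun g => Iff.rfl
  haveI hHn : H.Normal := by
    refine ⟨fun n hn g => ?_⟩
    rw [hcomm g n, mul_inv_cancel_right]
    exact hn
  have hg₀H : g₀ ∉ H := by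
    rw [hHmem]
    have ho : orderOf g₀ = p ^ (k + 1) := by
      rw [orderOf_eq_card_of_forall_mem_zpowers hg₀, hcard]
    apply pow_ne_one_of_lt_orderOf (pow_pos hp.pos k).ne'
    rw [ho]
    exact Nat.pow_lt_pow_right hp.one_lt (Nat.lt_succ_self k)
  -- the fixed field
  let L1 : IntermediateField K L := IntermediateField.fixedField H
  haveI : IsGalois K ↥L1 := IsGalois.of_fixedField_normal_subgroup H
  have hL1 : 1 < Module.finrank K ↥L1 := by
    have hpos : 0 < Module.finrank K ↥L1 := Module.finrank_pos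
    have hne : Module.finrank K ↥L1 ≠ 1 := by
      intro h1
      rw [IntermediateField.finrank_eq_one_iff] at h1
      apply hg₀H
      have h2 : (IntermediateField.fixedField H).fixingSubgroup = H :=
        IntermediateField.fixingSubgroup_fixedField H
      have h3 : (IntermediateField.fixedField H) = ⊥ := h1
      rw [h3, IntermediateField.fixingSubgroup_bot] at h2
      rw [← h2]
      exact Subgroup.mem_top _
    omega
  -- apply the density statement to `L1 / K`
  set R : Finset (HeightOneSpectrum (𝓞 K)) := (S14.dens_finite_ramified K L).toFinset with hR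
  set B' : Finset ℕ := B ∪ R.image (fun v => Ideal.absNorm v.asIdeal) with hB'
  obtain ⟨v, hgood', hunr1, hfrob1⟩ := S14.exists_good_frobAt_ne_one (K := K) (L := ↥L1) hL1 B'
  have hgood : S14.IsGoodPlace K B v :=
    ⟨hgood'.1, fun hmem => hgood'.2 (Finset.mem_union_left _ hmem)⟩
  have hunr : S14.IsUnramifiedIn K L v := by
    by_contra hram
    apply hgood'.2
    refine Finset.mem_union_right _ (Finset.mem_image.mpr ⟨v, ?_, rfl⟩)
    rw [hR, Set.Finite.mem_toFinset]
    exact hram
  refine ⟨v, hgood, hunr, ?_⟩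
  -- the Frobenius of `L/K` restricts to the Frobenius of `L1/K`
  have hφ := S14.isArithFrobAt_frobAt K L v
  have h2 := S14.auxfrob_restrictNormal (k := K) (E := ↥L1) (M := L) hφ
  have hcomm1 : ∀ a b : ↥L1 ≃ₐ[K] ↥L1, a * b = b * a := by
    intro a b
    obtain ⟨a', rfl⟩ := AlgEquiv.restrictNormalHom_surjective (F := K) (K₁ := ↥L1) L a
    obtain ⟨b', rfl⟩ := AlgEquiv.restrictNormalHom_surjective (F := K) (K₁ := ↥L1) L b
    rw [← map_mul, ← map_mul, hcomm a' b']
  have hP : ((S14.primeAbove K L v).under (𝓞 ↥L1)).LiesOver v.asIdeal :=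
    ⟨by rw [Ideal.under_under, ← (S14.primeAbove_liesOver K L v).over]⟩
  have h3 := S14.frobAt_eq_of_isArithFrobAt K ↥L1 hcomm1 v hunr1 _ hP _ h2
  have hnotH : S14.frobAt K L v ∉ H := by
    intro hmem
    apply hfrob1
    rw [← h3]
    apply AlgEquiv.ext
    intro x
    apply (algebraMap ↥L1 L).injective
    rw [AlgEquiv.restrictNormal_commutes]
    have hx := x.2
    exact hx ⟨S14.frobAt K L v, hmem⟩
  rw [hdeg]
  exact gefd_orderOf_eq hp hcard _ (fun h => hnotH ((hHmem _).2 h))

/-- GE-J1 `FullDegree.lean`: a cyclic extension of prime power degree has a place `v` of `K`,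
of residue characteristic outside any given finite set, which is unramified with full local
degree AT EVERY EMBEDDING ABOVE `v` (`S14.exists_good_frobAt_ne_one` for the degree-`p`
subextension: if the Frobenius at `v` is nontrivial on the degree-`p` subextension then it
generates the cyclic `p`-group `Gal(L/K)`; the decomposition groups of all primes above `v` are
conjugate, hence equal). -/
theorem ge_exists_full_local_degree {p : ℕ} [Fact p.Prime] [IsGalois K L]
    [IsCyclic (L ≃ₐ[K] L)] {k : ℕ} (hdeg : Module.finrank K L = p ^ k) (B : Finset ℕ) :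
    ∃ v : HeightOneSpectrum (𝓞 K), gePrime K v ∉ B ∧
      ∀ (q : ℕ) [Fact q.Prime] (j : L →+* PadicAlgCl q),
        lgPlace q (j.comp (algebraMap K L)) = v →
        LfUnramified q (lgField q (j.comp (algebraMap K L))) (lgField q j) ∧
        Module.finrank (lgField q (j.comp (algebraMap K L))) (lgField q j) =
          Module.finrank K L := by
  rcases k with _ | k
  · -- trivial extension: any place of residue characteristic outside `B` works
    rw [pow_zero] at hdeg
    obtain ⟨q₀, hq₀B, hq₀⟩ := Nat.exists_infinite_primes (B.sup id + 1)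
    haveI : Fact q₀.Prime := ⟨hq₀⟩
    have hq₀nB : q₀ ∉ B := by
      intro hmem
      have : q₀ ≤ B.sup id := Finset.le_sup (f := id) hmem
      omega
    refine ⟨lgPlace q₀ (lgEmbDefault q₀ K), ?_, ?_⟩
    · rw [gefd_gePrime_eq_of_mem _ hq₀ (natCast_mem_lgIdeal q₀ (lgEmbDefault q₀ K))]
      exact hq₀nB
    · intro q _ j _
      haveI := lgd_finiteDimensional (K := K) q j
      have hfr : Module.finrank (lgField q (j.comp (algebraMap K L))) (lgField q j) = 1 := by
        have h1 := lg_finrank_le (K := K) q j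
        have h2 : 0 < Module.finrank (lgField q (j.comp (algebraMap K L))) (lgField q j) :=
          Module.finrank_pos
        omega
      refine ⟨?_, by rw [hfr, hdeg]⟩
      show lfRamIdx q _ _ = 1
      have h3 := lfRamIdx_mul_lfInertiaDeg q (lgField q (j.comp (algebraMap K L))) (lgField q j)
      rw [hfr] at h3
      exact Nat.eq_one_of_mul_eq_one_right h3
  · obtain ⟨v, hgood, hunr, hord⟩ := gefd_exists_place (K := K) (L := L) hdeg B
    refine ⟨v, ?_, fun q _ j hv => gefd_of_place v hunr hord q j hv⟩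
    have h1 : gePrime K v = Ideal.absNorm v.asIdeal := hgood.1.minFac_eq
    rw [h1]
    exact hgood.2

end FullDegree

end Fermat.Agent.S55
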