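/-
S55 / GLOBAL / RECIP, leaf GE-C2 `Recip/HassePrincipleSylow.lean`: Sylow wrapper of the Hasse
principle (T2).  Proves the statement of `HassePrincipleSylowSpec.lean` VERBATIM.
Black boxes: `ge_hasse_principle` (HassePrincipleSpec), `geLocLG_restriction_isMulCoboundary₂`
(LocLGSpec), CO-c `cohord_pow_index_of_restrict`, `cohord_mem_B2_of_pow` (CohomOrder, real),
`lbu_lfBC_cocycle` (LocalBrauerUgly, real).  Helper names prefixed `gehs_`.
-/
import Fermat.Agent.S55.Global.Recip.HassePrincipleSpec

set_option autoImplicit false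
set_option linter.unusedSectionVars false
set_option linter.unusedVariables false
set_option linter.style.haveILetI false

noncomputable section

namespace Fermat.Agent.S55

open NumberField IsDedekindDomain groupCohomology

section Plumbing

variable {K L : Type} [Field K] [Field L] [Algebra K L]

/-- `Units.map` of `algebraMap L L` is the identity. -/
theorem gehs_unitsMap_id (u : Lˣ) : Units.map (algebraMap L L : L →* L) u = u :=
  Units.ext rfl

/-- If the restriction `lfBC K L L^P L c` of a cochain to `Gal(L/L^P)` is a coboundary, then the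
restriction of `c` to the subgroup `P` is a coboundary. -/
theorem gehs_restrict_cob [FiniteDimensional K L] [IsGalois K L] (P : Subgroup (L ≃ₐ[K] L))
    (c : (L ≃ₐ[K] L) × (L ≃ₐ[K] L) → Lˣ)
    (h : IsMulCoboundary₂ (lfBC K L (IntermediateField.fixedField P) L c)) :
    IsMulCoboundary₂ (fun s : P × P => c ((s.1 : L ≃ₐ[K] L), (s.2 : L ≃ₐ[K] L))) := by
  obtain ⟨x, hx⟩ := h
  have hP : (IntermediateField.fixedField P).fixingSubgroup = P :=
    IntermediateField.fixingSubgroup_fixedField P
  have hmem : ∀ g : P, (g : L ≃ₐ[K] L) ∈ (IntermediateField.fixedField P).fixingSubgroup := by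
    intro g
    rw [hP]
    exact g.2
  let e : P → (L ≃ₐ[IntermediateField.fixedField P] L) := fun g =>
    IntermediateField.fixingSubgroupEquiv (IntermediateField.fixedField P) ⟨g.1, hmem g⟩
  have he_apply : ∀ (g : P) (y : L), e g y = (g : L ≃ₐ[K] L) y := fun g y => rfl
  have he_mul : ∀ g h : P, e (g * h) = e g * e h := by
    intro g h
    ext y
    rfl
  have he_res : ∀ g : P, lfGalRes K L (IntermediateField.fixedField P) L (e g) =
      (g : L ≃ₐ[K] L) := by
    intro g
    ext y
    exact lfGalRes_commutes K L (IntermediateField.fixedField P) L (e g) y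
  refine ⟨fun g => x (e g), fun g h => ?_⟩
  have key := hx (e g) (e h)
  rw [lfBC_apply, he_res, he_res, ← he_mul, gehs_unitsMap_id] at key
  change g • x (e h) / x (e (g * h)) * x (e g) = c ((g : L ≃ₐ[K] L), (h : L ≃ₐ[K] L))
  rw [← key]
  rfl

end Plumbing

section HassePrincipleSylow

variable {K L : Type} [Field K] [NumberField K] [Field L] [NumberField L] [Algebra K L]

/-- **HASSE PRINCIPLE, `p`-primary classes** (`p` odd, `μ_p ⊆ K`, `L/K` ANY finite Galois
extension): a cocycle `c` such that `c ^ (p ^ m)` is a coboundary and which is locally a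
coboundary at every embedding is a coboundary. -/
theorem ge_hasse_principle_of_pow {p : ℕ} [Fact p.Prime] (hp2 : p ≠ 2) [IsGalois K L] {ζ : K}
    (hζ : IsPrimitiveRoot ζ p) (c : (L ≃ₐ[K] L) × (L ≃ₐ[K] L) → Lˣ) (hc : IsMulCocycle₂ c)
    (m : ℕ) (hpow : IsMulCoboundary₂ (c ^ p ^ m))
    (hloc : ∀ (q : ℕ) [Fact q.Prime] (j : L →+* PadicAlgCl q),
      IsMulCoboundary₂ (geLocLG q j c)) : IsMulCoboundary₂ c := by
  classical
  haveI : FiniteDimensional K L := inferInstance
  obtain ⟨P⟩ : Nonempty (Sylow p (L ≃ₐ[K] L)) := inferInstance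
  have hcard : Module.finrank (IntermediateField.fixedField (P : Subgroup (L ≃ₐ[K] L))) L =
      Nat.card (P : Subgroup (L ≃ₐ[K] L)) :=
    IntermediateField.finrank_fixedField_eq_card _
  obtain ⟨a, ha⟩ := IsPGroup.iff_card.1 P.2
  have hζ' : IsPrimitiveRoot
      (algebraMap K (IntermediateField.fixedField (P : Subgroup (L ≃ₐ[K] L))) ζ) p :=
    hζ.map_of_injective (algebraMap K _).injective
  have hcoc' : IsMulCocycle₂
      (lfBC K L (IntermediateField.fixedField (P : Subgroup (L ≃ₐ[K] L))) L c) :=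
    lbu_lfBC_cocycle K L _ L c hc
  have hloc' : ∀ (q : ℕ) [Fact q.Prime] (j : L →+* PadicAlgCl q),
      IsMulCoboundary₂ (geLocLG (K := IntermediateField.fixedField (P : Subgroup (L ≃ₐ[K] L)))
        q j (lfBC K L (IntermediateField.fixedField (P : Subgroup (L ≃ₐ[K] L))) L c)) :=
    fun q _ j => geLocLG_restriction_isMulCoboundary₂ q j hc (hloc q j)
  have hcob' : IsMulCoboundary₂
      (lfBC K L (IntermediateField.fixedField (P : Subgroup (L ≃ₐ[K] L))) L c) :=
    ge_hasse_principle hp2 (hcard.trans ha) hζ' _ hcoc' hloc'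
  have hres := gehs_restrict_cob (P : Subgroup (L ≃ₐ[K] L)) c hcob'
  have hidx : IsMulCoboundary₂ (c ^ (P : Subgroup (L ≃ₐ[K] L)).index) :=
    cohord_pow_index_of_restrict (P : Subgroup (L ≃ₐ[K] L)) c hc hres
  have hnd : ¬ p ∣ (P : Subgroup (L ≃ₐ[K] L)).index := P.not_dvd_index
  refine cohord_mem_B2.1 (cohord_mem_B2_of_pow (L ≃ₐ[K] L) Lˣ c (n := p ^ m)
    (cohord_mem_B2.2 hpow) ?_)
  intro r hr hrd
  have hrp : r = p := (Nat.prime_dvd_prime_iff_eq hr Fact.out).1 (hr.dvd_of_dvd_pow hrd)
  subst hrp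
  exact ⟨(P : Subgroup (L ≃ₐ[K] L)).index, hnd, cohord_mem_B2.2 hidx⟩

end HassePrincipleSylow

end Fermat.Agent.S55
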