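/-
S55 / GLOBAL / RECIP, leaf GE-J2 `Recip/SemiLocalCyclic.lean` (T1c): the second inequality in
semilocal form for cyclic extensions of degree `p ^ k`.

Route: the index form `gd_relIndex_cyclic` of the second inequality at divisor level
(`Global/Second/SecondIneqTower.lean`) + the homomorphism `x ↦ class of the S-free part of div x`
from `Kˣ` to `gdPrimeToGroup / gdNormGroup`, whose kernel lies in `W ⊔ V`
(`ge_exists_modulus`, `mem_geNormOutside_of_divOf_eq_normDiv`).
-/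
import Fermat.Agent.S55.Global.Recip.SemiLocalSpec
import Fermat.Agent.S55.Global.Second.SecondIneqTower
import Fermat.Agent.S55.Hasse.ChooseS

set_option autoImplicit false
set_option linter.unusedSectionVars false
set_option linter.unusedVariables false
set_option linter.style.haveILetI false

noncomputable section

namespace Fermat.Agent.S55

open NumberField IsDedekindDomain groupCohomology Fermat.Agent.S14

section SemiLocalIndex

variable {K L : Type} [Field K] [NumberField K] [Field L] [NumberField L] [Algebra K L]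

open scoped Classical in
/-- The part of the divisor of `x` outside `S`. -/
def gej2SFree (S : Finset (HeightOneSpectrum (𝓞 K))) (x : Kˣ) : S14.Div K :=
  (divOf K (x : K)).filter (fun v => v ∉ S)

theorem gej2SFree_apply_of_notMem (S : Finset (HeightOneSpectrum (𝓞 K))) (x : Kˣ)
    {v : HeightOneSpectrum (𝓞 K)} (hv : v ∉ S) : gej2SFree S x v = divOf K (x : K) v := by
  classical
  exact Finsupp.filter_apply_pos _ _ hv

theorem gej2SFree_apply_of_mem (S : Finset (HeightOneSpectrum (𝓞 K))) (x : Kˣ)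
    {v : HeightOneSpectrum (𝓞 K)} (hv : v ∈ S) : gej2SFree S x v = 0 := by
  classical
  exact Finsupp.filter_apply_neg _ _ (not_not.mpr hv)

theorem gej2SFree_mul (S : Finset (HeightOneSpectrum (𝓞 K))) (x y : Kˣ) :
    gej2SFree S (x * y) = gej2SFree S x + gej2SFree S y := by
  classical
  unfold gej2SFree
  rw [Units.val_mul, fi_divOf_mul K x.ne_zero y.ne_zero, Finsupp.filter_add]

theorem gej2SFree_one (S : Finset (HeightOneSpectrum (𝓞 K))) : gej2SFree S (1 : Kˣ) = 0 := by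
  classical
  unfold gej2SFree
  rw [Units.val_one, fi_divOf_one, Finsupp.filter_zero]

theorem gej2SFree_primeTo (S : Finset (HeightOneSpectrum (𝓞 K))) {𝔪 : Ideal (𝓞 K)}
    (h𝔪S : ∀ v : HeightOneSpectrum (𝓞 K), 𝔪 ≤ v.asIdeal ↔ v ∈ S) (x : Kˣ) :
    gej2SFree S x ∈ gdPrimeToGroup K 𝔪 := fun v hv =>
  gej2SFree_apply_of_mem S x ((h𝔪S v).mp hv)

/-- The homomorphism `x ↦ class of the S-free part of div x`. -/
def gej2Hom (L : Type) [Field L] [NumberField L] [Algebra K L]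
    (S : Finset (HeightOneSpectrum (𝓞 K))) {𝔪 : Ideal (𝓞 K)}
    (h𝔪S : ∀ v : HeightOneSpectrum (𝓞 K), 𝔪 ≤ v.asIdeal ↔ v ∈ S) :
    Kˣ →* Multiplicative
      (gdPrimeToGroup K 𝔪 ⧸ (gdNormGroup K L 𝔪).addSubgroupOf (gdPrimeToGroup K 𝔪)) where
  toFun x := Multiplicative.ofAdd
    (QuotientAddGroup.mk ⟨gej2SFree S x, gej2SFree_primeTo S h𝔪S x⟩)
  map_one' := by
    rw [← ofAdd_zero]
    congr 1
    rw [QuotientAddGroup.eq_zero_iff]
    show gej2SFree S (1 : Kˣ) ∈ gdNormGroup K L 𝔪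
    rw [gej2SFree_one]
    exact zero_mem _
  map_mul' x y := by
    rw [← ofAdd_add, ← QuotientAddGroup.mk_add]
    congr 2
    exact Subtype.ext (gej2SFree_mul S x y)

theorem gej2Hom_ker_le [IsGalois K L] (S : Finset (HeightOneSpectrum (𝓞 K)))
    (hunr : GfiUnramOutside K L (S : Set (HeightOneSpectrum (𝓞 K)))) {𝔪 : Ideal (𝓞 K)}
    (h𝔪S : ∀ v : HeightOneSpectrum (𝓞 K), 𝔪 ≤ v.asIdeal ↔ v ∈ S)
    (h𝔪V : ∀ x : Kˣ, gdOneMod K 𝔪 (x : K) →
      x ∈ geNormAt K L (S : Set (HeightOneSpectrum (𝓞 K)))) :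
    (gej2Hom L S h𝔪S).ker ≤ geNormOutside K L (S : Set (HeightOneSpectrum (𝓞 K))) ⊔
      geNormAt K L (S : Set (HeightOneSpectrum (𝓞 K))) := by
  intro x hx
  rw [MonoidHom.mem_ker] at hx
  have hx' : (QuotientAddGroup.mk (⟨gej2SFree S x, gej2SFree_primeTo S h𝔪S x⟩ :
      gdPrimeToGroup K 𝔪) :
      gdPrimeToGroup K 𝔪 ⧸ (gdNormGroup K L 𝔪).addSubgroupOf (gdPrimeToGroup K 𝔪)) = 0 := hx
  rw [QuotientAddGroup.eq_zero_iff] at hx'
  obtain ⟨y, E, hy, hE, hEq⟩ : gej2SFree S x ∈ gdNormGroup K L 𝔪 := hx'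
  set y' : Kˣ := Units.mk0 y hy.ne_zero with hy'
  have hyV : y' ∈ geNormAt K L (S : Set (HeightOneSpectrum (𝓞 K))) := h𝔪V y' hy
  have hW : x / y' ∈ geNormOutside K L (S : Set (HeightOneSpectrum (𝓞 K))) := by
    refine mem_geNormOutside_of_divOf_eq_normDiv S hunr (x / y') E fun v hv => ?_
    have h1 : ((x / y' : Kˣ) : K) = (x : K) * (y : K)⁻¹ := by
      rw [Units.val_div_eq_div_val, div_eq_mul_inv]
      rfl
    rw [h1, fi_divOf_mul K x.ne_zero (inv_ne_zero hy.ne_zero), fi_divOf_inv, Finsupp.add_apply,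
      Finsupp.neg_apply, ← gej2SFree_apply_of_notMem S x hv, hEq, Finsupp.add_apply]
    ring
  have : x = x / y' * y' := by rw [div_mul_cancel]
  rw [this]
  exact Subgroup.mul_mem_sup hW hyV

/-- From the index form of the second inequality at divisor level to the semilocal form. -/
theorem ge_index_le_of_relIndex [IsGalois K L] (S : Finset (HeightOneSpectrum (𝓞 K)))
    (hunr : GfiUnramOutside K L (S : Set (HeightOneSpectrum (𝓞 K)))) (n : ℕ)
    (hidx : ∀ 𝔪 : Ideal (𝓞 K), 𝔪 ≠ ⊥ →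
      (gdNormGroup K L 𝔪).relIndex (gdPrimeToGroup K 𝔪) ≠ 0 ∧
        (gdNormGroup K L 𝔪).relIndex (gdPrimeToGroup K 𝔪) ≤ n) :
    (geNormOutside K L (S : Set (HeightOneSpectrum (𝓞 K))) ⊔
      geNormAt K L (S : Set (HeightOneSpectrum (𝓞 K)))).index ≠ 0 ∧
    (geNormOutside K L (S : Set (HeightOneSpectrum (𝓞 K))) ⊔
      geNormAt K L (S : Set (HeightOneSpectrum (𝓞 K)))).index ≤ n := by
  obtain ⟨𝔪, h𝔪, h𝔪S, h𝔪V⟩ := ge_exists_modulus (L := L) S
  obtain ⟨h0, hn⟩ := hidx 𝔪 h𝔪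
  haveI : ((gdNormGroup K L 𝔪).addSubgroupOf (gdPrimeToGroup K 𝔪)).FiniteIndex := ⟨h0⟩
  haveI : Finite (gdPrimeToGroup K 𝔪 ⧸ (gdNormGroup K L 𝔪).addSubgroupOf (gdPrimeToGroup K 𝔪)) :=
    AddSubgroup.finite_quotient_of_finiteIndex
  have hker := gej2Hom_ker_le S hunr h𝔪S h𝔪V
  have hdvd := Subgroup.index_dvd_of_le hker
  have hkerindex : (gej2Hom L S h𝔪S).ker.index = Nat.card (gej2Hom L S h𝔪S).range :=
    Subgroup.index_ker _
  have hpos : 0 < Nat.card (gej2Hom L S h𝔪S).range := Nat.card_pos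
  have hle : Nat.card (gej2Hom L S h𝔪S).range ≤ n := by
    refine le_trans (Nat.card_le_card_of_injective _ Subtype.val_injective) ?_
    rw [Nat.card_congr Multiplicative.toAdd]
    exact hn
  rw [hkerindex] at hdvd
  exact ⟨fun h => by rw [h, zero_dvd_iff] at hdvd; omega, (Nat.le_of_dvd hpos hdvd).trans hle⟩

end SemiLocalIndex

section SemiLocalCyclic

variable {K L : Type} [Field K] [NumberField K] [Field L] [NumberField L] [Algebra K L]

theorem gej2_unramOutside_mono {S T : Set (HeightOneSpectrum (𝓞 K))} (hST : S ⊆ T)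
    (h : GfiUnramOutside K L S) : GfiUnramOutside K L T :=
  fun w hw => h w fun hS => hw (hST hS)

/-- GE-J2 `SemiLocalCyclic.lean` (= T1c): the second inequality in semilocal form for CYCLIC
extensions of degree `p^k`, for a suitable enlargement `S` of any given finite set `S₀`. -/
theorem ge_second_semilocal_cyclic {p : ℕ} [Fact p.Prime] (hp2 : p ≠ 2) [IsGalois K L]
    [IsCyclic (L ≃ₐ[K] L)] {k : ℕ} (hdeg : Module.finrank K L = p ^ k)
    (S₀ : Finset (HeightOneSpectrum (𝓞 K))) :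
    ∃ S : Finset (HeightOneSpectrum (𝓞 K)), S₀ ⊆ S ∧
      GfiUnramOutside K L (S : Set (HeightOneSpectrum (𝓞 K))) ∧
      (geNormOutside K L (S : Set (HeightOneSpectrum (𝓞 K))) ⊔
        geNormAt K L (S : Set (HeightOneSpectrum (𝓞 K)))).index ≠ 0 ∧
      (geNormOutside K L (S : Set (HeightOneSpectrum (𝓞 K))) ⊔
        geNormAt K L (S : Set (HeightOneSpectrum (𝓞 K)))).index ≤ p ^ k := by
  classical
  obtain ⟨S₁, hS₁⟩ := hn_exists_unramOutside (K := K) (L := L)
  have hunr : GfiUnramOutside K L ((S₀ ∪ S₁ : Finset (HeightOneSpectrum (𝓞 K))) :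
      Set (HeightOneSpectrum (𝓞 K))) :=
    gej2_unramOutside_mono (by
      intro v hv
      exact Finset.mem_coe.mpr (Finset.mem_union_right _ (Finset.mem_coe.mp hv))) hS₁
  exact ⟨S₀ ∪ S₁, Finset.subset_union_left, hunr,
    ge_index_le_of_relIndex (S₀ ∪ S₁) hunr (p ^ k) (gd_relIndex_cyclic k K L hdeg)⟩

end SemiLocalCyclic

end Fermat.Agent.S55
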