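/-
S55 / GLOBAL / RECIP, leaf GE-J4: REALISATION (T4) `ge_realise`, by counting.
Black boxes: the spec files imported below.  Helper names are prefixed `gere_`.
-/
import Fermat.Agent.S55.Global.Recip.RecipSpec
import Fermat.Agent.S55.Global.Recip.FullDegreeSpec
import Fermat.Agent.S55.Global.Recip.SemiLocalCyclicSpec
import Fermat.Agent.S55.Global.Recip.NormIndexSpec

set_option autoImplicit false
set_option linter.unusedSectionVars false
set_option linter.unusedVariables false

noncomputable section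

namespace Fermat.Agent.S55

open NumberField IsDedekindDomain groupCohomology

/-! ## The abstract counting argument -/

section Counting

/-- The `n`-torsion of `ℚ/ℤ` has at most `n` elements. -/
theorem gere_card_torsion_le (n : ℕ) (hn : n ≠ 0) :
    Nat.card {x : AddCircle (1 : ℚ) // n • x = 0} ≤ n := by
  have hreg : IsSMulRegular ℚ n := .of_right_eq_zero_of_smul fun _ ↦ by simp [hn]
  have h := AddCircle.card_torsion_le_of_isSMulRegular (1 : ℚ) n hn hreg
  have h2 : Nat.card {x : AddCircle (1 : ℚ) // n • x = 0} =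
      ({x : AddCircle (1 : ℚ) | n • x = 0}).ncard := Nat.card_coe_set_eq _
  rw [h2, Set.ncard]
  exact ENat.toNat_le_of_le_natCast h

variable {X : Type} [CommGroup X] {ι : Type}

theorem gere_inv_one (inv : X → ι → AddCircle (1 : ℚ))
    (inv_mul : ∀ a b v, inv (a * b) v = inv a v + inv b v) (v : ι) : inv 1 v = 0 := by
  have h := inv_mul 1 1 v
  rw [mul_one] at h
  exact left_eq_add.mp h

theorem gere_inv_inv (inv : X → ι → AddCircle (1 : ℚ))
    (inv_mul : ∀ a b v, inv (a * b) v = inv a v + inv b v) (a : X) (v : ι) :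
    inv a⁻¹ v = - inv a v := by
  have h := inv_mul a a⁻¹ v
  rw [mul_inv_cancel, gere_inv_one inv inv_mul] at h
  exact (neg_eq_of_add_eq_zero_right h.symm).symm

/-- Step 1: the invariant map is onto the product of the torsion groups. -/
theorem gere_surjective (S : Finset ι) (n : ι → ℕ) (hn : ∀ v ∈ S, n v ≠ 0)
    (inv : X → ι → AddCircle (1 : ℚ))
    (inv_mul : ∀ a b v, inv (a * b) v = inv a v + inv b v)
    (h1 : ∀ a, ∀ v ∈ S, n v • inv a v = 0)
    (V : Subgroup X) (hV : ∀ a, a ∈ V ↔ ∀ v ∈ S, inv a v = 0)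
    (hVidx : V.index = ∏ v ∈ S, n v)
    (f : ι → AddCircle (1 : ℚ)) (hf : ∀ v ∈ S, n v • f v = 0) :
    ∃ a : X, ∀ v ∈ S, inv a v = f v := by
  classical
  -- the homomorphism
  let Φ : X →* Multiplicative (↥S → AddCircle (1 : ℚ)) :=
    MonoidHom.mk' (fun a => Multiplicative.ofAdd (fun v : ↥S => inv a v)) (by
      intro a b
      rw [← ofAdd_add]
      congr 1
      funext v
      exact inv_mul a b v)
  have hker : Φ.ker = V := by
    ext a
    rw [MonoidHom.mem_ker, hV]
    constructor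
    · intro h v hv
      have h' : (fun v : ↥S => inv a v) = 0 := Multiplicative.ofAdd.injective h
      exact congrFun h' ⟨v, hv⟩
    · intro h
      change Multiplicative.ofAdd (fun v : ↥S => inv a v) = 1
      have : (fun v : ↥S => inv a v) = 0 := by
        funext v
        exact h v v.2
      rw [this]
      rfl
  -- the torsion set
  set A : Set (Multiplicative (↥S → AddCircle (1 : ℚ))) :=
    {g | ∀ v : ↥S, n v • (Multiplicative.toAdd g) v = 0} with hA
  have hrange : (Φ.range : Set (Multiplicative (↥S → AddCircle (1 : ℚ)))) ⊆ A := by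
    rintro _ ⟨a, rfl⟩
    intro v
    exact h1 a v v.2
  let e : A ≃ ((v : ↥S) → {x : AddCircle (1 : ℚ) // n v • x = 0}) :=
    { toFun := fun g v => ⟨(Multiplicative.toAdd g.1) v, g.2 v⟩
      invFun := fun g => ⟨Multiplicative.ofAdd (fun v => (g v).1), fun v => (g v).2⟩
      left_inv := fun g => rfl
      right_inv := fun g => rfl }
  have hcardA : Nat.card A ≤ ∏ v ∈ S, n v := by
    rw [Nat.card_congr e, Nat.card_pi, ← Finset.prod_coe_sort S n]
    apply Finset.prod_le_prod'
    intro v _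
    exact gere_card_torsion_le (n v) (hn v v.2)
  have hAfin : A.Finite := by
    have : ∀ v : ↥S, Finite {x : AddCircle (1 : ℚ) // n v • x = 0} := fun v =>
      (AddCircle.finite_torsion (1 : ℚ) (Nat.pos_of_ne_zero (hn v v.2))).to_subtype
    have : Finite A := Finite.of_equiv _ e.symm
    exact Set.toFinite A
  have hindex : Nat.card Φ.range = ∏ v ∈ S, n v := by
    rw [← Subgroup.index_ker, hker, hVidx]
  have heq : (Φ.range : Set (Multiplicative (↥S → AddCircle (1 : ℚ)))) = A := by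
    apply Set.eq_of_subset_of_ncard_le hrange _ hAfin
    rw [← Nat.card_coe_set_eq, ← Nat.card_coe_set_eq]
    change Nat.card A ≤ Nat.card Φ.range
    rw [hindex]
    exact hcardA
  have hfA : Multiplicative.ofAdd (fun v : ↥S => f v) ∈ A := fun v => hf v v.2
  rw [← heq] at hfA
  obtain ⟨a, ha⟩ := hfA
  refine ⟨a, fun v hv => ?_⟩
  have h' : (fun v : ↥S => inv a v) = (fun v : ↥S => f v) := Multiplicative.ofAdd.injective ha
  exact congrFun h' ⟨v, hv⟩

/-- The counting argument: the invariants with sum `0` are realised by elements of `W`. -/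
theorem gere_counting (S : Finset ι) (n : ι → ℕ) (hn : ∀ v ∈ S, n v ≠ 0) (N : ℕ)
    (inv : X → ι → AddCircle (1 : ℚ))
    (inv_mul : ∀ a b v, inv (a * b) v = inv a v + inv b v)
    (h1 : ∀ a, ∀ v ∈ S, n v • inv a v = 0)
    (V W : Subgroup X)
    (hV : ∀ a, a ∈ V ↔ ∀ v ∈ S, inv a v = 0)
    (hVidx : V.index = ∏ v ∈ S, n v)
    (hW : ∀ a ∈ W, ∑ v ∈ S, inv a v = 0)
    (hidx0 : (W ⊔ V).index ≠ 0) (hidx : (W ⊔ V).index ≤ N)
    (v₀ : ι) (hv₀ : v₀ ∈ S) (hnv₀ : n v₀ = N)
    (r : ι → AddCircle (1 : ℚ)) (hr : ∀ v ∈ S, n v • r v = 0) (hsum : ∑ v ∈ S, r v = 0) :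
    ∃ a ∈ W, ∀ v ∈ S, inv a v = r v := by
  classical
  have hN : N ≠ 0 := hnv₀ ▸ hn v₀ hv₀
  -- the sum homomorphism
  let s : X →* Multiplicative (AddCircle (1 : ℚ)) :=
    MonoidHom.mk' (fun a => Multiplicative.ofAdd (∑ v ∈ S, inv a v)) (by
      intro a b
      rw [← ofAdd_add, ← Finset.sum_add_distrib]
      congr 1
      exact Finset.sum_congr rfl fun v _ => inv_mul a b v)
  have hs : ∀ a, a ∈ s.ker ↔ ∑ v ∈ S, inv a v = 0 := fun a => by
    rw [MonoidHom.mem_ker]
    exact Iff.rfl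
  have hle : W ⊔ V ≤ s.ker := by
    apply sup_le
    · intro a ha
      exact (hs a).mpr (hW a ha)
    · intro a ha
      rw [hs]
      exact Finset.sum_eq_zero fun v hv => (hV a).mp ha v hv
  -- an element whose sum has order `N`
  let e : ι → AddCircle (1 : ℚ) := fun v =>
    if v = v₀ then (((1 : ℚ) / (N : ℚ) : ℚ) : AddCircle (1 : ℚ)) else 0
  have he : ∀ v ∈ S, n v • e v = 0 := by
    intro v hv
    by_cases h : v = v₀
    · subst h
      simp only [e, if_pos rfl]
      rw [hnv₀, ← AddCircle.coe_nsmul, nsmul_eq_mul]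
      have : (N : ℚ) * (1 / (N : ℚ)) = 1 := by
        field_simp
      rw [this]
      exact AddCircle.coe_period 1
    · simp only [e, if_neg h, smul_zero]
  obtain ⟨a₀, ha₀⟩ := gere_surjective S n hn inv inv_mul h1 V hV hVidx e he
  have hsa₀ : ∑ v ∈ S, inv a₀ v = (((1 : ℚ) / (N : ℚ) : ℚ) : AddCircle (1 : ℚ)) := by
    rw [Finset.sum_congr rfl ha₀, Finset.sum_ite_eq' S v₀, if_pos hv₀]
  have hord : orderOf (s a₀) = N := by
    change orderOf (Multiplicative.ofAdd (∑ v ∈ S, inv a₀ v)) = N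
    rw [orderOf_ofAdd_eq_addOrderOf, hsa₀]
    exact AddCircle.addOrderOf_period_div (Nat.pos_of_ne_zero hN)
  -- the index of the kernel
  have hdvd : s.ker.index ∣ (W ⊔ V).index := Subgroup.index_dvd_of_le hle
  have hker0 : s.ker.index ≠ 0 := fun h => hidx0 (by
    rw [h] at hdvd
    exact Nat.eq_zero_of_zero_dvd hdvd)
  have hNdvd : N ∣ s.ker.index := by
    rw [Subgroup.index_ker]
    have hfin : Finite s.range := Nat.finite_of_card_ne_zero (by rwa [← Subgroup.index_ker])
    have := orderOf_dvd_natCard (⟨s a₀, a₀, rfl⟩ : s.range)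
    rwa [← Subgroup.orderOf_coe, hord] at this
  have heq : s.ker.index = (W ⊔ V).index := by
    have h1' : (W ⊔ V).index ≤ s.ker.index :=
      hidx.trans (Nat.le_of_dvd (Nat.pos_of_ne_zero hker0) hNdvd)
    have h2' : s.ker.index ≤ (W ⊔ V).index := Nat.le_of_dvd (Nat.pos_of_ne_zero hidx0) hdvd
    exact le_antisymm h2' h1'
  have hkerle : s.ker ≤ W ⊔ V := by
    have hmul := Subgroup.relIndex_mul_index hle
    rw [heq] at hmul
    have hone : (W ⊔ V).relIndex s.ker = 1 :=
      Nat.eq_of_mul_eq_mul_right (Nat.pos_of_ne_zero hidx0) (by rw [hmul, one_mul])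
    exact Subgroup.relIndex_eq_one.mp hone
  -- conclusion
  obtain ⟨a₁, ha₁⟩ := gere_surjective S n hn inv inv_mul h1 V hV hVidx r hr
  have ha₁ker : a₁ ∈ s.ker := by
    rw [hs, Finset.sum_congr rfl ha₁, hsum]
  obtain ⟨w, hw, x, hx, hwx⟩ := Subgroup.mem_sup.mp (hkerle ha₁ker)
  refine ⟨w, hw, fun v hv => ?_⟩
  rw [← ha₁ v hv, ← hwx, inv_mul, (hV x).mp hx v hv, add_zero]

end Counting

/-! ## The realisation theorem -/

section Realise

variable {K L : Type} [Field K] [NumberField K] [Field L] [NumberField L] [Algebra K L]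

/-- Transport of `GeLocalNormAt` between embeddings (possibly with propositionally equal residue
characteristics) above the same place. -/
theorem gere_localNormAt_transport [IsGalois K L] (a : Kˣ) (q : ℕ) [Fact q.Prime]
    (j : L →+* PadicAlgCl q) :
    ∀ (q' : ℕ) [Fact q'.Prime] (j' : L →+* PadicAlgCl q'), q' = q →
      lgPlace q' (j'.comp (algebraMap K L)) = lgPlace q (j.comp (algebraMap K L)) →
      (GeLocalNormAt q' j' a ↔ GeLocalNormAt q j a) := by
  intro q' _ j' hq h
  subst hq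
  exact geLocalNormAt_iff_of_lgPlace_eq q' j' j h a

/-- The invariant of a cyclic cocycle vanishes iff the parameter is a local norm. -/
theorem gere_geInv_eq_zero_iff [IsGalois K L] (σ : L ≃ₐ[K] L)
    (hσ : ∀ g : L ≃ₐ[K] L, g ∈ Subgroup.zpowers σ) (a : Kˣ) (q : ℕ) [Fact q.Prime]
    (j : L →+* PadicAlgCl q) :
    geInv q j (cycCocycle σ (Units.map (algebraMap K L : K →* L) a)) = 0 ↔
      GeLocalNormAt q j a := by
  have hcyc : IsMulCocycle₂ (cycCocycle σ (Units.map (algebraMap K L : K →* L) a)) := by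
    apply cycCocycle_isMulCocycle₂ σ hσ
    apply Units.ext
    change σ (algebraMap K L _) = algebraMap K L _
    exact σ.commutes _
  rw [geInv_eq_zero_iff q j hcyc, geLocLG_cycCocycle_isMulCoboundary₂_iff q σ hσ a j]

/-- The local degree kills the local invariant. -/
theorem gere_finrank_nsmul_geInv [IsGalois K L] (q : ℕ) [Fact q.Prime] (j : L →+* PadicAlgCl q)
    {c : (L ≃ₐ[K] L) × (L ≃ₐ[K] L) → Lˣ} (hc : IsMulCocycle₂ c) :
    Module.finrank (lgField q (j.comp (algebraMap K L))) (lgField q j) • geInv q j c = 0 := by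
  have : IsGalois (lgField q (j.comp (algebraMap K L))) (lgField q j) := lg_isGalois q j
  exact localInv_nsmul q _ _ (geLocLG_isMulCocycle₂ q j c hc)

theorem ge_realise {p : ℕ} [Fact p.Prime] (hp2 : p ≠ 2) [IsGalois K L] {k : ℕ}
    (hdeg : Module.finrank K L = p ^ k) {ζ : K} (hζ : IsPrimitiveRoot ζ p) (σ : L ≃ₐ[K] L)
    (hσ : ∀ g : L ≃ₐ[K] L, g ∈ Subgroup.zpowers σ) (𝔧 : GeChoice K L)
    (r : HeightOneSpectrum (𝓞 K) → AddCircle (1 : ℚ)) (hfin : (Function.support r).Finite)
    (hloc : ∀ v, Module.finrank (lgField (gePrime K v) ((𝔧.emb v).comp (algebraMap K L)))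
      (lgField (gePrime K v) (𝔧.emb v)) • r v = 0)
    (hsum : ∑ᶠ v, r v = 0) :
    ∃ a : Kˣ, ∀ v : HeightOneSpectrum (𝓞 K),
      geInv (gePrime K v) (𝔧.emb v) (cycCocycle σ (Units.map (algebraMap K L : K →* L) a)) =
        r v := by
  classical
  have hp : p.Prime := Fact.out
  have : IsCyclic (L ≃ₐ[K] L) := ⟨⟨σ, fun g => Subgroup.mem_zpowers_iff.mp (hσ g)⟩⟩
  obtain ⟨v₀, -, hv₀⟩ := ge_exists_full_local_degree hdeg (∅ : Finset ℕ)
  obtain ⟨S, hS₀, hunr, hidx0, hidx⟩ :=
    ge_second_semilocal_cyclic hp2 hdeg (hfin.toFinset ∪ {v₀})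
  have hv₀S : v₀ ∈ S := hS₀ (Finset.mem_union_right _ (Finset.mem_singleton_self v₀))
  have hrS : ∀ v, v ∉ S → r v = 0 := by
    intro v hv
    by_contra h
    exact hv (hS₀ (Finset.mem_union_left _ (hfin.mem_toFinset.mpr h)))
  have hcyc : ∀ b : Kˣ, IsMulCocycle₂ (cycCocycle σ (Units.map (algebraMap K L : K →* L) b)) := by
    intro b
    apply cycCocycle_isMulCocycle₂ σ hσ
    apply Units.ext
    change σ (algebraMap K L _) = algebraMap K L _
    exact σ.commutes _
  -- the abstract data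
  set n : HeightOneSpectrum (𝓞 K) → ℕ := fun v =>
    Module.finrank (lgField (gePrime K v) ((𝔧.emb v).comp (algebraMap K L)))
      (lgField (gePrime K v) (𝔧.emb v)) with hn_def
  set inv : Kˣ → HeightOneSpectrum (𝓞 K) → AddCircle (1 : ℚ) := fun a v =>
    geInv (gePrime K v) (𝔧.emb v) (cycCocycle σ (Units.map (algebraMap K L : K →* L) a))
    with hinv_def
  have inv_mul : ∀ a b v, inv (a * b) v = inv a v + inv b v := by
    intro a b v
    simp only [hinv_def]
    rw [map_mul, cycCocycle_mul, geInv_mul _ _ (hcyc a) (hcyc b)]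
  have hn : ∀ v ∈ S, n v ≠ 0 := by
    intro v _
    have : FiniteDimensional (lgField (gePrime K v) ((𝔧.emb v).comp (algebraMap K L)))
        (lgField (gePrime K v) (𝔧.emb v)) := FiniteDimensional.right ℚ_[gePrime K v] _ _
    exact Module.finrank_pos.ne'
  have h1 : ∀ a, ∀ v ∈ S, n v • inv a v = 0 := fun a v _ =>
    gere_finrank_nsmul_geInv (gePrime K v) (𝔧.emb v) (hcyc a)
  have hzero : ∀ a v, inv a v = 0 ↔ GeLocalNormAt (gePrime K v) (𝔧.emb v) a := fun a v =>
    gere_geInv_eq_zero_iff σ hσ a (gePrime K v) (𝔧.emb v)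
  have hV : ∀ a, a ∈ geNormAt K L (S : Set (HeightOneSpectrum (𝓞 K))) ↔
      ∀ v ∈ S, inv a v = 0 := by
    intro a
    rw [mem_geNormAt]
    constructor
    · intro h v hv
      rw [hzero]
      exact h (gePrime K v) (𝔧.emb v) (by rw [𝔧.place_eq v]; exact hv)
    · intro h q _ j hj
      have h2 := (hzero a _).mp (h _ hj)
      exact (gere_localNormAt_transport a q j _ (𝔧.emb _) (gePrime_lgPlace q _)
        (𝔧.place_eq _)).mp h2
  have hWzero : ∀ a ∈ geNormOutside K L (S : Set (HeightOneSpectrum (𝓞 K))), ∀ v, v ∉ S →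
      inv a v = 0 := by
    intro a ha v hv
    rw [hzero]
    exact (mem_geNormOutside.mp ha) (gePrime K v) (𝔧.emb v) (by rw [𝔧.place_eq v]; exact hv)
  have hW : ∀ a ∈ geNormOutside K L (S : Set (HeightOneSpectrum (𝓞 K))),
      ∑ v ∈ S, inv a v = 0 := by
    intro a ha
    have hrec := (ge_reciprocity hp2 hdeg hζ _ (hcyc a) 𝔧).2
    rw [finsum_eq_sum_of_support_subset (s := S)] at hrec
    · exact hrec
    · intro v hv
      by_contra hvS
      exact hv (hWzero a ha v hvS)
  have hnv₀ : n v₀ = p ^ k := by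
    rw [← hdeg]
    exact (hv₀ (gePrime K v₀) (𝔧.emb v₀) (𝔧.place_eq v₀)).2
  have hsumS : ∑ v ∈ S, r v = 0 := by
    rw [← hsum, finsum_eq_sum_of_support_subset]
    intro v hv
    by_contra h
    exact hv (hrS v h)
  obtain ⟨a, haW, ha⟩ := gere_counting S n hn (p ^ k) inv inv_mul h1
    (geNormAt K L (S : Set (HeightOneSpectrum (𝓞 K))))
    (geNormOutside K L (S : Set (HeightOneSpectrum (𝓞 K)))) hV (geNormAt_index S 𝔧) hW hidx0 hidx
    v₀ hv₀S hnv₀ r (fun v _ => hloc v) hsumS
  refine ⟨a, fun v => ?_⟩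
  by_cases hv : v ∈ S
  · exact ha v hv
  · rw [hrS v hv]
    exact hWzero a haW v hv

end Realise

end Fermat.Agent.S55
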