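/-
S55 / GLOBAL / RECIP, leaf GE-H2 `Recip/RecipSylow.lean` (row 284): the two statements of
`RecipSylowSpec.lean` VERBATIM, proved from the black boxes of `RecipSpec` + `IndepSpec`.

* `ge_finsum_restriction`: `∑_w inv_w (res c) = [K':K] • ∑_v inv_v c`.
  Route: `geInv_restriction` + `lg_finrank_eq_div` give `inv_w (res c) = [K'_w : K_v] • inv_v c`
  (`v` the place below `w`); the local degree is `e(w|v) f(w|v)` (`lfRamIdx_lgField`,
  `lfInertiaDeg_lgField`, `lfRamIdx_mul_lfInertiaDeg`) and `∑_{w ∣ v} e f = [K':K]`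
  (`Ideal.sum_ramification_inertia_eq_finrank`); regrouping of the finsum along `w ↦ v`.
* `ge_reciprocity_of_pow`: Sylow reduction. `K' = L^P`, `ge_reciprocity` for `L/K'`, the sum is
  killed by `[K':K]` (prime to `p`) and by `p ^ m`.

Helper names are prefixed `gers`.
-/
import Fermat.Agent.S55.Global.Recip.RecipSpec
import Fermat.Agent.S55.Global.Recip.IndepSpec

set_option autoImplicit false
set_option linter.unusedSectionVars false
set_option linter.unusedVariables false

noncomputable section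

namespace Fermat.Agent.S55

open NumberField IsDedekindDomain groupCohomology

section Abstract

/-- Regrouping a finsum along a map with finite fibres. -/
theorem gers_finsum_fiberwise {W V A : Type*} [AddCommMonoid A] (π : W → V) (e : W → ℕ)
    (F : V → A) (N : ℕ) (hF : (Function.support F).Finite)
    (hfib : ∀ v, (π ⁻¹' {v}).Finite)
    (hsum : ∀ v, ∑ w ∈ (hfib v).toFinset, e w = N) :
    ∑ᶠ w, e w • F (π w) = N • ∑ᶠ v, F v := by
  classical
  set s : Finset V := hF.toFinset with hs
  set T : Finset W := s.biUnion (fun v => (hfib v).toFinset) with hT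
  have hsupp : Function.support (fun w => e w • F (π w)) ⊆ ↑T := by
    intro w hw
    rw [Function.mem_support] at hw
    have h1 : F (π w) ≠ 0 := by
      intro h0
      exact hw (by rw [h0, smul_zero])
    rw [Finset.mem_coe, hT, Finset.mem_biUnion]
    refine ⟨π w, ?_, ?_⟩
    · rw [hs, Set.Finite.mem_toFinset]
      exact h1
    · rw [Set.Finite.mem_toFinset]
      rfl
  rw [finsum_eq_sum_of_support_subset _ hsupp, hT, Finset.sum_biUnion]
  · have h2 : ∀ v ∈ s, ∑ w ∈ (hfib v).toFinset, e w • F (π w) = N • F v := by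
      intro v _
      have h3 : ∀ w ∈ (hfib v).toFinset, e w • F (π w) = e w • F v := by
        intro w hw
        rw [Set.Finite.mem_toFinset] at hw
        have : π w = v := hw
        rw [this]
      rw [Finset.sum_congr rfl h3, ← Finset.sum_smul, hsum v]
    rw [Finset.sum_congr rfl h2, ← Finset.smul_sum]
    congr 1
    rw [finsum_eq_sum_of_support_subset F (s := s)]
    rw [hs, Set.Finite.coe_toFinset]
  · intro v _ v' _ hvv'
    rw [Function.onFun, Finset.disjoint_left]
    intro w hw hw'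
    rw [Set.Finite.mem_toFinset] at hw hw'
    exact hvv' ((show π w = v from hw).symm.trans hw')

end Abstract

section Below

variable (K : Type) [Field K] [NumberField K] {K' : Type} [Field K'] [NumberField K']
  [Algebra K K']

/-- The place of `K` below a place of `K'`. -/
def gersBelow (w : HeightOneSpectrum (𝓞 K')) : HeightOneSpectrum (𝓞 K) where
  asIdeal := w.asIdeal.comap (algebraMap (𝓞 K) (𝓞 K'))
  isPrime := Ideal.comap_isPrime _ _
  ne_bot := by
    intro h
    exact w.ne_bot (Ideal.eq_bot_of_comap_eq_bot (R := 𝓞 K) h)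

theorem gersBelow_asIdeal (w : HeightOneSpectrum (𝓞 K')) :
    (gersBelow K w).asIdeal = w.asIdeal.comap (algebraMap (𝓞 K) (𝓞 K')) := rfl

/-- The local degree `e * f` of a place of `K'` over `K`. -/
def gersDeg (w : HeightOneSpectrum (𝓞 K')) : ℕ :=
  w.asIdeal.ramificationIdx (𝓞 K) * w.asIdeal.inertiaDeg (𝓞 K)

theorem gersBelow_lgPlace (q : ℕ) [Fact q.Prime] (i' : K' →+* PadicAlgCl q) :
    gersBelow K (lgPlace q i') = lgPlace q (i'.comp (algebraMap K K')) := by
  apply HeightOneSpectrum.ext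
  rw [gersBelow_asIdeal]
  exact lgPlace_under q i'

theorem gersDeg_lgPlace (q : ℕ) [Fact q.Prime] (i' : K' →+* PadicAlgCl q) :
    Module.finrank (lgField q (i'.comp (algebraMap K K'))) (lgField q i') =
      gersDeg K (lgPlace q i') := by
  rw [← lfRamIdx_mul_lfInertiaDeg q (lgField q (i'.comp (algebraMap K K'))) (lgField q i'),
    lfRamIdx_lgField, lfInertiaDeg_lgField]
  rfl

theorem gers_fiber_finite (v : HeightOneSpectrum (𝓞 K)) :
    ((gersBelow K (K' := K')) ⁻¹' {v}).Finite := by
  have hfin : (v.asIdeal.primesOver (𝓞 K')).Finite := Algebra.QuasiFinite.finite_primesOver _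
  refine Set.Finite.of_finite_image (f := fun w : HeightOneSpectrum (𝓞 K') => w.asIdeal)
    (hfin.subset ?_) ?_
  · rintro _ ⟨w, hw, rfl⟩
    refine ⟨w.isPrime, ⟨?_⟩⟩
    have : gersBelow K w = v := hw
    rw [← this]
    rfl
  · intro w _ w' _ h
    exact HeightOneSpectrum.ext h

theorem gers_sum_deg (v : HeightOneSpectrum (𝓞 K)) :
    ∑ w ∈ (gers_fiber_finite K (K' := K') v).toFinset, gersDeg K w = Module.finrank K K' := by
  classical
  let _ : Fintype (v.asIdeal.primesOver (𝓞 K')) :=
    (Algebra.QuasiFinite.finite_primesOver _).fintype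
  rw [IsFractionRing.finrank_eq (𝓞 K) K (𝓞 K') K',
    ← Ideal.sum_ramification_inertia_eq_finrank v.asIdeal (𝓞 K')]
  symm
  refine Finset.sum_bij
    (fun (P : v.asIdeal.primesOver (𝓞 K')) _ => (⟨P.1, P.2.1, ?_⟩ : HeightOneSpectrum (𝓞 K')))
    ?_ ?_ ?_ ?_
  · intro h
    have h1 := P.2.2.over
    rw [h] at h1
    apply v.ne_bot
    rw [h1]
    exact Ideal.under_bot _ _
  · intro P _
    rw [Set.Finite.mem_toFinset]
    apply HeightOneSpectrum.ext
    exact P.2.2.over.symm
  · intro P _ P' _ h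
    apply Subtype.ext
    exact congrArg HeightOneSpectrum.asIdeal h
  · intro w hw
    rw [Set.Finite.mem_toFinset] at hw
    have : gersBelow K w = v := hw
    refine ⟨⟨w.asIdeal, w.isPrime, ⟨?_⟩⟩, Finset.mem_univ _, rfl⟩
    rw [← this]
    rfl
  · intro P _
    rfl

end Below

section Transport

variable {K L : Type} [Field K] [NumberField K] [Field L] [NumberField L] [Algebra K L]

/-- transport along an equality of primes -/
theorem gers_transport [IsGalois K L] (q : ℕ) [Fact q.Prime] (j : L →+* PadicAlgCl q)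
    {c : (L ≃ₐ[K] L) × (L ≃ₐ[K] L) → Lˣ} (hc : IsMulCocycle₂ c) :
    ∀ (q' : ℕ) (h : q' = q) [Fact q'.Prime] (j' : L →+* PadicAlgCl q'),
      lgPlace q' (j'.comp (algebraMap K L)) = lgPlace q (j.comp (algebraMap K L)) →
      geInv q' j' c = geInv q j c := by
  intro q' h
  subst h
  intro _ j' hpl
  exact geInv_eq_of_lgPlace_eq q' j' j hpl hc

/-- The invariant at an arbitrary embedding `j` is the invariant at the chosen embedding over the
place `v` of `K` below `j`. -/
theorem gers_geInv_eq_choice [IsGalois K L] (𝔧 : GeChoice K L) (q : ℕ) [Fact q.Prime]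
    (j : L →+* PadicAlgCl q) {c : (L ≃ₐ[K] L) × (L ≃ₐ[K] L) → Lˣ} (hc : IsMulCocycle₂ c)
    (v : HeightOneSpectrum (𝓞 K)) (hv : lgPlace q (j.comp (algebraMap K L)) = v) :
    geInv q j c = geInv (gePrime K v) (𝔧.emb v) c := by
  subst hv
  exact (gers_transport q j hc (gePrime K (lgPlace q (j.comp (algebraMap K L))))
    (gePrime_lgPlace q (j.comp (algebraMap K L)))
    (𝔧.emb (lgPlace q (j.comp (algebraMap K L))))
    (𝔧.place_eq (lgPlace q (j.comp (algebraMap K L))))).symm

end Transport

section Restriction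

variable {K L : Type} [Field K] [NumberField K] [Field L] [NumberField L] [Algebra K L]
  {K' : Type} [Field K'] [NumberField K'] [Algebra K K'] [Algebra K' L] [IsScalarTower K K' L]

theorem gers_comp_tower (q : ℕ) [Fact q.Prime] (J : L →+* PadicAlgCl q) :
    (J.comp (algebraMap K' L)).comp (algebraMap K K') = J.comp (algebraMap K L) := by
  rw [RingHom.comp_assoc, ← IsScalarTower.algebraMap_eq]

/-- The invariant of the restriction at an arbitrary embedding. -/
theorem gers_geInv_restriction [IsGalois K L] (q : ℕ) [Fact q.Prime] (J : L →+* PadicAlgCl q)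
    {c : (L ≃ₐ[K] L) × (L ≃ₐ[K] L) → Lˣ} (hc : IsMulCocycle₂ c) :
    geInv (K := K') q J (lfBC K L K' L c) =
      gersDeg K (lgPlace q (J.comp (algebraMap K' L))) • geInv (K := K) q J c := by
  rw [geInv_restriction q J hc, ← lg_finrank_eq_div q J, gersDeg_lgPlace K q]

theorem gers_geInv_restriction_choice [IsGalois K L]
    {c : (L ≃ₐ[K] L) × (L ≃ₐ[K] L) → Lˣ} (hc : IsMulCocycle₂ c)
    (𝔧 : GeChoice K L) (𝔧' : GeChoice K' L) (w : HeightOneSpectrum (𝓞 K')) :
    geInv (K := K') (gePrime K' w) (𝔧'.emb w) (lfBC K L K' L c) =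
      gersDeg K w •
        geInv (K := K) (gePrime K (gersBelow K w)) (𝔧.emb (gersBelow K w)) c := by
  rw [gers_geInv_restriction (gePrime K' w) (𝔧'.emb w) hc, 𝔧'.place_eq w]
  congr 1
  apply gers_geInv_eq_choice 𝔧 (gePrime K' w) (𝔧'.emb w) hc
  rw [← gers_comp_tower (K' := K') (gePrime K' w), ← gersBelow_lgPlace, 𝔧'.place_eq w]

end Restriction

section Main

variable {K L : Type} [Field K] [NumberField K] [Field L] [NumberField L] [Algebra K L]

theorem ge_finsum_restriction {K' : Type} [Field K'] [NumberField K'] [Algebra K K']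
    [Algebra K' L] [IsScalarTower K K' L] [IsGalois K L]
    (c : (L ≃ₐ[K] L) × (L ≃ₐ[K] L) → Lˣ) (hc : IsMulCocycle₂ c)
    (𝔧 : GeChoice K L) (𝔧' : GeChoice K' L) :
    ∑ᶠ w : HeightOneSpectrum (𝓞 K'), geInv (K := K') (gePrime K' w) (𝔧'.emb w) (lfBC K L K' L c) =
      Module.finrank K K' •
        ∑ᶠ v : HeightOneSpectrum (𝓞 K), geInv (K := K) (gePrime K v) (𝔧.emb v) c := by
  rw [← gers_finsum_fiberwise (gersBelow K (K' := K')) (gersDeg K)
    (fun v : HeightOneSpectrum (𝓞 K) => geInv (K := K) (gePrime K v) (𝔧.emb v) c)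
    (Module.finrank K K') (geInv_support_finite c hc 𝔧) (gers_fiber_finite K)
    (gers_sum_deg K)]
  exact finsum_congr (fun w => gers_geInv_restriction_choice hc 𝔧 𝔧' w)

end Main

section Cochains

variable {G : Type} [Group G] {X : Type} [CommGroup X] [MulDistribMulAction G X]

theorem gers_coc_one : IsMulCocycle₂ (1 : G × G → X) := by
  intro g h j
  simp

theorem gers_coc_pow {c : G × G → X} (hc : IsMulCocycle₂ c) (n : ℕ) : IsMulCocycle₂ (c ^ n) := by
  induction n with
  | zero => rw [pow_zero]; exact gers_coc_one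
  | succ k ih => rw [pow_succ]; exact lbu_coc_mul ih hc

end Cochains

section Inv

variable (q : ℕ) [Fact q.Prime] {K L : Type} [Field K] [NumberField K] [Field L] [NumberField L]
  [Algebra K L]

theorem gers_geInv_one [IsGalois K L] (j : L →+* PadicAlgCl q) :
    geInv q j (1 : (L ≃ₐ[K] L) × (L ≃ₐ[K] L) → Lˣ) = 0 := by
  have h := geInv_mul q j (K := K) (L := L) gers_coc_one gers_coc_one
  rw [mul_one] at h
  exact left_eq_add.mp h

theorem gers_geInv_pow [IsGalois K L] (j : L →+* PadicAlgCl q)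
    {c : (L ≃ₐ[K] L) × (L ≃ₐ[K] L) → Lˣ} (hc : IsMulCocycle₂ c) (n : ℕ) :
    geInv q j (c ^ n) = n • geInv q j c := by
  induction n with
  | zero => rw [pow_zero, zero_smul]; exact gers_geInv_one q j
  | succ k ih => rw [pow_succ, geInv_mul q j (gers_coc_pow hc k) hc, ih, succ_nsmul]

/-- If a power of `c` is a coboundary, the local invariants are killed by the exponent. -/
theorem gers_nsmul_geInv_eq_zero [IsGalois K L] (j : L →+* PadicAlgCl q)
    {c : (L ≃ₐ[K] L) × (L ≃ₐ[K] L) → Lˣ} (hc : IsMulCocycle₂ c) (n : ℕ)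
    (h : IsMulCoboundary₂ (c ^ n)) : n • geInv q j c = 0 := by
  rw [← gers_geInv_pow q j hc n]
  exact (geInv_eq_zero_iff q j (gers_coc_pow hc n)).2 (geLocLG_isMulCoboundary₂ q j _ h)

end Inv

section Square

variable (K L K' M : Type) [Field K] [Field L] [Field K'] [Field M]
  [Algebra K L] [Algebra K K'] [Algebra L M] [Algebra K' M] [Algebra K M]
  [IsScalarTower K L M] [IsScalarTower K K' M]

theorem gers_lfBC_isMulCocycle₂ [Normal K L] (c : (L ≃ₐ[K] L) × (L ≃ₐ[K] L) → Lˣ)
    (hc : IsMulCocycle₂ c) : IsMulCocycle₂ (lfBC K L K' M c) :=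
  pullCochain₂_isMulCocycle₂ (lfGalRes K L K' M) (Units.map (algebraMap L M : L →* M))
    (fun σ x => Units.ext (lfGalRes_commutes K L K' M σ (x : L))) c hc

end Square

section Sylow

variable {K L : Type} [Field K] [NumberField K] [Field L] [NumberField L] [Algebra K L]

/-- The sum of the local invariants is killed by `[K':K]` whenever reciprocity holds for `L/K'`. -/
theorem gers_finrank_nsmul_eq_zero {p : ℕ} [Fact p.Prime] (hp2 : p ≠ 2) [IsGalois K L] {ζ : K}
    (hζ : IsPrimitiveRoot ζ p) (c : (L ≃ₐ[K] L) × (L ≃ₐ[K] L) → Lˣ) (hc : IsMulCocycle₂ c)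
    (𝔧 : GeChoice K L) (K' : IntermediateField K L) (a : ℕ)
    (hdeg : Module.finrank K' L = p ^ a) :
    Module.finrank K K' •
      ∑ᶠ v : HeightOneSpectrum (𝓞 K), geInv (gePrime K v) (𝔧.emb v) c = 0 := by
  obtain ⟨𝔧'⟩ := geChoice_nonempty K' L
  have hζ' : IsPrimitiveRoot (algebraMap K K' ζ) p :=
    hζ.map_of_injective (algebraMap K K').injective
  have hrec := ge_reciprocity (K := K') (L := L) hp2 hdeg hζ' (lfBC K L K' L c)
    (gers_lfBC_isMulCocycle₂ K L K' L c hc) 𝔧'
  rw [← ge_finsum_restriction c hc 𝔧 𝔧']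
  exact hrec.2

theorem ge_reciprocity_of_pow {p : ℕ} [Fact p.Prime] (hp2 : p ≠ 2) [IsGalois K L] {ζ : K}
    (hζ : IsPrimitiveRoot ζ p) (c : (L ≃ₐ[K] L) × (L ≃ₐ[K] L) → Lˣ) (hc : IsMulCocycle₂ c)
    (m : ℕ) (hpow : IsMulCoboundary₂ (c ^ p ^ m)) (𝔧 : GeChoice K L) :
    (Function.support fun v : HeightOneSpectrum (𝓞 K) =>
      geInv (gePrime K v) (𝔧.emb v) c).Finite ∧
    ∑ᶠ v : HeightOneSpectrum (𝓞 K), geInv (gePrime K v) (𝔧.emb v) c = 0 := by
  have hfin := geInv_support_finite c hc 𝔧
  refine ⟨hfin, ?_⟩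
  -- the sum is killed by `p ^ m`
  have h1 : (p ^ m) • ∑ᶠ v : HeightOneSpectrum (𝓞 K), geInv (gePrime K v) (𝔧.emb v) c = 0 := by
    rw [smul_finsum' _ hfin]
    rw [finsum_congr (fun v => gers_nsmul_geInv_eq_zero (gePrime K v) (𝔧.emb v) hc (p ^ m) hpow)]
    exact finsum_zero
  -- the sum is killed by the index of a Sylow subgroup
  obtain ⟨P⟩ : Nonempty (Sylow p (L ≃ₐ[K] L)) := inferInstance
  have hcard : Nat.card (P : Subgroup (L ≃ₐ[K] L)) =
      p ^ (Nat.card (L ≃ₐ[K] L)).factorization p := P.card_eq_multiplicity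
  have hdeg : Module.finrank (IntermediateField.fixedField (P : Subgroup (L ≃ₐ[K] L))) L =
      p ^ (Nat.card (L ≃ₐ[K] L)).factorization p := by
    rw [IntermediateField.finrank_fixedField_eq_card, hcard]
  have h2 := gers_finrank_nsmul_eq_zero hp2 hζ c hc 𝔧
    (IntermediateField.fixedField (P : Subgroup (L ≃ₐ[K] L))) _ hdeg
  have hidx : Module.finrank K (IntermediateField.fixedField (P : Subgroup (L ≃ₐ[K] L))) =
      (P : Subgroup (L ≃ₐ[K] L)).index := by
    rw [IntermediateField.finrank_eq_fixingSubgroup_index,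
      IntermediateField.fixingSubgroup_fixedField]
  have hcop : Nat.Coprime (Module.finrank K
      (IntermediateField.fixedField (P : Subgroup (L ≃ₐ[K] L)))) (p ^ m) := by
    rw [hidx]
    exact (Nat.Coprime.pow_left m
      ((Nat.Prime.coprime_iff_not_dvd Fact.out).2 P.not_dvd_index)).symm
  have h3 := addOrderOf_dvd_of_nsmul_eq_zero h1
  have h4 := addOrderOf_dvd_of_nsmul_eq_zero h2
  have h5 := Nat.dvd_gcd h4 h3
  rw [hcop.gcd_eq_one, Nat.dvd_one] at h5
  exact AddMonoid.addOrderOf_eq_one_iff.mp h5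

end Sylow

end Fermat.Agent.S55
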