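/-
S55 / GLOBAL / RECIP (package GE): all leaf specs.
-/
import Fermat.Agent.S55.Global.Recip.LocSpec
import Fermat.Agent.S55.Global.Recip.LocLGSpec
import Fermat.Agent.S55.Global.Recip.LocCycSpec
import Fermat.Agent.S55.Global.Recip.IndepSpec
import Fermat.Agent.S55.Global.Recip.SupportSpec
import Fermat.Agent.S55.Global.Recip.NormOpenSpec
import Fermat.Agent.S55.Global.Recip.NormIndexSpec
import Fermat.Agent.S55.Global.Recip.SemiLocalSpec
import Fermat.Agent.S55.Global.Recip.HasseNormSpec
import Fermat.Agent.S55.Global.Recip.HassePrincipleSpec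
import Fermat.Agent.S55.Global.Recip.HassePrincipleSylowSpec
import Fermat.Agent.S55.Global.Recip.AuxPrimeSpec
import Fermat.Agent.S55.Global.Recip.CyclotomicSpec
import Fermat.Agent.S55.Global.Recip.NormCongrSpec
import Fermat.Agent.S55.Global.Recip.CycApproxSpec
import Fermat.Agent.S55.Global.Recip.CycRecipSpec
import Fermat.Agent.S55.Global.Recip.RecipSpec
import Fermat.Agent.S55.Global.Recip.RecipSylowSpec
import Fermat.Agent.S55.Global.Recip.ProductSpec
import Fermat.Agent.S55.Global.Recip.FullDegreeSpec
import Fermat.Agent.S55.Global.Recip.SemiLocalCyclicSpec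
import Fermat.Agent.S55.Global.Recip.RealiseSpec
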